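/-
P10 / S56 (Taylor–Wiles primes), package G8 (group theory): elementary 1-cocycles.

Generic lemmas on 1-cocycles `c : G → X` for a representation `π : Representation k G X`,
in elementary form (no `groupCohomology` objects):

* `twg_coboundary_of_sah` : Sah's lemma (a central element acting by a scalar `≠ 1`);
* `twg_coboundary_of_restrict` : a cocycle whose restriction to a subgroup of index invertible
  in `k` is a coboundary is a coboundary;
* `twg_cocycle_factors` : a cocycle is constant on the cosets of a central subgroup acting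
  trivially, if `X^G = 0`.
-/
import Mathlib

set_option autoImplicit false

noncomputable section

namespace Fermat.Agent.TW

variable {k G X : Type*} [Field k] [Group G] [AddCommGroup X] [Module k X]

/-- `c` is a 1-cocycle for `π` -/
def TwgIsCocycle (π : Representation k G X) (c : G → X) : Prop :=
  ∀ g h : G, c (g * h) = c g + π g (c h)

/-- `c` is a 1-coboundary for `π` -/
def TwgIsCoboundary (π : Representation k G X) (c : G → X) : Prop :=
  ∃ x : X, ∀ g : G, c g = π g x - x

namespace TwgIsCocycle

variable {π : Representation k G X} {c : G → X}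

theorem map_one (hc : TwgIsCocycle π c) : c 1 = 0 := by
  have h := hc 1 1
  rw [mul_one, _root_.map_one, Module.End.one_apply] at h
  exact left_eq_add.mp h

theorem map_inv (hc : TwgIsCocycle π c) (g : G) : c g⁻¹ = - π g⁻¹ (c g) := by
  have h := hc g⁻¹ g
  rw [inv_mul_cancel, hc.map_one] at h
  exact eq_neg_of_add_eq_zero_left h.symm

/-- subtracting a coboundary -/
theorem sub_coboundary (hc : TwgIsCocycle π c) (x : X) :
    TwgIsCocycle π (fun g => c g - (π g x - x)) := by
  intro g h
  simp only
  rw [hc g h, map_mul, Module.End.mul_apply, map_sub, map_sub]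
  abel

end TwgIsCocycle

theorem twg_coboundary_of_sub {π : Representation k G X} {c : G → X} (x : X)
    (h : TwgIsCoboundary π (fun g => c g - (π g x - x))) : TwgIsCoboundary π c := by
  obtain ⟨y, hy⟩ := h
  refine ⟨y + x, fun g => ?_⟩
  have := hy g
  simp only at this
  rw [map_add]
  rw [sub_eq_iff_eq_add] at this
  rw [this]
  abel

/-- **Sah's lemma** in degree one: if a central element `z` acts on `X` by a scalar `≠ 1`, every
1-cocycle is a coboundary. -/
theorem twg_coboundary_of_sah (π : Representation k G X) {c : G → X} (hc : TwgIsCocycle π c)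
    (z : G) (hz : ∀ g : G, g * z = z * g) (lam : k) (hlam : lam ≠ 1)
    (hact : ∀ x : X, π z x = lam • x) : TwgIsCoboundary π c := by
  have h1 : lam - 1 ≠ 0 := sub_ne_zero.mpr hlam
  refine ⟨(lam - 1)⁻¹ • c z, fun g => ?_⟩
  have e1 := hc g z
  have e2 := hc z g
  rw [hz g, e2, hact] at e1
  -- c z + lam • c g = c g + π g (c z)
  have e3 : (lam - 1) • c g = π g (c z) - c z := by
    rw [sub_smul, one_smul]
    rw [sub_eq_sub_iff_add_eq_add]
    rw [add_comm, e1, add_comm]
  rw [map_smul, ← smul_sub, ← e3, smul_smul, inv_mul_cancel₀ h1, one_smul]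

/-- If the restriction of a cocycle to a subgroup `B` of finite index invertible in `k` is a
coboundary, the cocycle is a coboundary. -/
theorem twg_coboundary_of_restrict (π : Representation k G X) {c : G → X}
    (hc : TwgIsCocycle π c) (B : Subgroup G) [B.FiniteIndex] (hidx : (B.index : k) ≠ 0)
    (hB : ∃ x : X, ∀ b ∈ B, c b = π b x - x) : TwgIsCoboundary π c := by
  classical
  obtain ⟨x, hx⟩ := hB
  apply twg_coboundary_of_sub x
  set c' : G → X := fun g => c g - (π g x - x) with hc'def
  have hc' : TwgIsCocycle π c' := hc.sub_coboundary x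
  have hc'B : ∀ b ∈ B, c' b = 0 := by
    intro b hb
    simp only [hc'def]
    rw [hx b hb, sub_self]
  -- `c'` is constant on left cosets
  have hconst : ∀ (g : G) (b : G), b ∈ B → c' (g * b) = c' g := by
    intro g b hb
    rw [hc' g b, hc'B b hb, map_zero, add_zero]
  have hcoset : ∀ g₁ g₂ : G, (g₁ : G ⧸ B) = (g₂ : G ⧸ B) → c' g₁ = c' g₂ := by
    intro g₁ g₂ h
    rw [QuotientGroup.eq] at h
    have := hconst g₁ (g₁⁻¹ * g₂) h
    rw [mul_inv_cancel_left] at this
    exact this.symm
  let _ : Fintype (G ⧸ B) := Subgroup.fintypeQuotientOfFiniteIndex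
  set y : X := ∑ q : G ⧸ B, c' q.out with hy
  have hm : (Fintype.card (G ⧸ B) : k) ≠ 0 := by
    rw [← Nat.card_eq_fintype_card, ← Subgroup.index_eq_card]
    exact hidx
  -- `π g y = y - m • c' g`
  have key : ∀ g : G, π g y = y - (Fintype.card (G ⧸ B) : k) • c' g := by
    intro g
    rw [hy, map_sum]
    have h1 : ∀ q : G ⧸ B, π g (c' q.out) = c' ((g • q).out) - c' g := by
      intro q
      have h2 := hc' g q.out
      rw [eq_sub_iff_add_eq, add_comm, ← h2]
      apply hcoset
      rw [QuotientGroup.out_eq']
      conv_rhs => rw [← QuotientGroup.out_eq' q]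
      rfl
    rw [Finset.sum_congr rfl (fun q _ => h1 q), Finset.sum_sub_distrib]
    congr 1
    · exact Fintype.sum_equiv (MulAction.toPerm g) _ _ (fun q => rfl)
    · rw [Finset.sum_const, Finset.card_univ, Nat.cast_smul_eq_nsmul]
  refine ⟨-((Fintype.card (G ⧸ B) : k)⁻¹ • y), fun g => ?_⟩
  rw [map_neg, map_smul, key g, smul_sub, smul_smul, inv_mul_cancel₀ hm, one_smul]
  abel

/-- every cocycle is a coboundary if the order of the (finite) group is invertible in `k` -/
theorem twg_coboundary_of_card_ne_zero (π : Representation k G X) [Finite G] {c : G → X}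
    (hc : TwgIsCocycle π c) (hcard : (Nat.card G : k) ≠ 0) : TwgIsCoboundary π c := by
  have : (⊥ : Subgroup G).FiniteIndex := ⟨by
    rw [Subgroup.index_bot]; exact Nat.card_pos.ne'⟩
  apply twg_coboundary_of_restrict π hc ⊥
  · rw [Subgroup.index_bot]; exact hcard
  · refine ⟨0, fun b hb => ?_⟩
    rw [Subgroup.mem_bot] at hb
    rw [hb, hc.map_one, map_zero, sub_zero]

/-- A cocycle vanishes on a central subgroup acting trivially, if `X^G = 0`; hence it is constant
on its cosets. -/
theorem twg_cocycle_factors (π : Representation k G X) {c : G → X} (hc : TwgIsCocycle π c)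
    (hinv : ∀ x : X, (∀ g : G, π g x = x) → x = 0)
    (n : G) (hn : ∀ g : G, g * n = n * g) (hact : π n = 1) :
    c n = 0 ∧ ∀ g : G, c (g * n) = c g := by
  have h0 : c n = 0 := by
    apply hinv
    intro g
    have e1 := hc g n
    have e2 := hc n g
    rw [hn g, e2, hact, Module.End.one_apply] at e1
    have := add_left_cancel (a := c g) (b := c n) (c := π g (c n)) (by rw [add_comm, e1])
    exact this.symm
  refine ⟨h0, fun g => ?_⟩
  rw [hc g n, h0, map_zero, add_zero]

end Fermat.Agent.TW
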