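/-
P10 / S56 (Taylor–Wiles primes), package G8 (group theory): `GL₂(k)` acting on the projective
line `OnePoint k`; special elements; fixed points of non-scalar elements.
-/
import Mathlib

set_option autoImplicit false

open Matrix OnePoint MulAction

noncomputable section

namespace Fermat.Agent.TW

variable {k : Type*} [Field k]

/-! ### Entries -/

theorem twg_mul_00 (g h : GL (Fin 2) k) : (g * h) 0 0 = g 0 0 * h 0 0 + g 0 1 * h 1 0 := by
  simp [Matrix.mul_apply, Fin.sum_univ_two]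

theorem twg_mul_01 (g h : GL (Fin 2) k) : (g * h) 0 1 = g 0 0 * h 0 1 + g 0 1 * h 1 1 := by
  simp [Matrix.mul_apply, Fin.sum_univ_two]

theorem twg_mul_10 (g h : GL (Fin 2) k) : (g * h) 1 0 = g 1 0 * h 0 0 + g 1 1 * h 1 0 := by
  simp [Matrix.mul_apply, Fin.sum_univ_two]

theorem twg_mul_11 (g h : GL (Fin 2) k) : (g * h) 1 1 = g 1 0 * h 0 1 + g 1 1 * h 1 1 := by
  simp [Matrix.mul_apply, Fin.sum_univ_two]

theorem twg_one_00 : (1 : GL (Fin 2) k) 0 0 = 1 := by simp
theorem twg_one_01 : (1 : GL (Fin 2) k) 0 1 = 0 := by simp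
theorem twg_one_10 : (1 : GL (Fin 2) k) 1 0 = 0 := by simp
theorem twg_one_11 : (1 : GL (Fin 2) k) 1 1 = 1 := by simp

theorem twg_det_ne_zero (g : GL (Fin 2) k) : g 0 0 * g 1 1 - g 0 1 * g 1 0 ≠ 0 := by
  have := g.det_ne_zero
  rwa [Matrix.det_fin_two] at this

theorem twg_ext {g h : GL (Fin 2) k} (h00 : g 0 0 = h 0 0) (h01 : g 0 1 = h 0 1)
    (h10 : g 1 0 = h 1 0) (h11 : g 1 1 = h 1 1) : g = h := by
  apply Matrix.GeneralLinearGroup.ext
  intro i j
  fin_cases i <;> fin_cases j <;> assumption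

/-- the element of `GL₂(k)` with given entries -/
def twgMk (a b c d : k) (h : a * d - b * c ≠ 0) : GL (Fin 2) k :=
  Matrix.GeneralLinearGroup.mkOfDetNeZero !![a, b; c, d] (by rwa [Matrix.det_fin_two_of])

@[simp] theorem twgMk_00 (a b c d : k) (h : a * d - b * c ≠ 0) : twgMk a b c d h 0 0 = a := rfl
@[simp] theorem twgMk_01 (a b c d : k) (h : a * d - b * c ≠ 0) : twgMk a b c d h 0 1 = b := rfl
@[simp] theorem twgMk_10 (a b c d : k) (h : a * d - b * c ≠ 0) : twgMk a b c d h 1 0 = c := rfl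
@[simp] theorem twgMk_11 (a b c d : k) (h : a * d - b * c ≠ 0) : twgMk a b c d h 1 1 = d := rfl

/-- upper unipotent `[1, x; 0, 1]` -/
def twgU (x : k) : GL (Fin 2) k := twgMk 1 x 0 1 (by simp)

/-- lower unipotent `[1, 0; y, 1]` -/
def twgL (y : k) : GL (Fin 2) k := twgMk 1 0 y 1 (by simp)

/-- the Weyl element `[0, 1; -1, 0]` -/
def twgW : GL (Fin 2) k := twgMk 0 1 (-1) 0 (by simp)

/-- diagonal `[a, 0; 0, d]` -/
def twgD (a d : k) (ha : a ≠ 0) (hd : d ≠ 0) : GL (Fin 2) k :=
  twgMk a 0 0 d (by simp [ha, hd])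

@[simp] theorem twgU_00 (x : k) : twgU x 0 0 = 1 := rfl
@[simp] theorem twgU_01 (x : k) : twgU x 0 1 = x := rfl
@[simp] theorem twgU_10 (x : k) : twgU x 1 0 = 0 := rfl
@[simp] theorem twgU_11 (x : k) : twgU x 1 1 = 1 := rfl
@[simp] theorem twgL_00 (x : k) : twgL x 0 0 = 1 := rfl
@[simp] theorem twgL_01 (x : k) : twgL x 0 1 = 0 := rfl
@[simp] theorem twgL_10 (x : k) : twgL x 1 0 = x := rfl
@[simp] theorem twgL_11 (x : k) : twgL x 1 1 = 1 := rfl
@[simp] theorem twgW_00 : (twgW : GL (Fin 2) k) 0 0 = 0 := rfl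
@[simp] theorem twgW_01 : (twgW : GL (Fin 2) k) 0 1 = 1 := rfl
@[simp] theorem twgW_10 : (twgW : GL (Fin 2) k) 1 0 = -1 := rfl
@[simp] theorem twgW_11 : (twgW : GL (Fin 2) k) 1 1 = 0 := rfl
@[simp] theorem twgD_00 (a d : k) (ha : a ≠ 0) (hd : d ≠ 0) : twgD a d ha hd 0 0 = a := rfl
@[simp] theorem twgD_01 (a d : k) (ha : a ≠ 0) (hd : d ≠ 0) : twgD a d ha hd 0 1 = 0 := rfl
@[simp] theorem twgD_10 (a d : k) (ha : a ≠ 0) (hd : d ≠ 0) : twgD a d ha hd 1 0 = 0 := rfl
@[simp] theorem twgD_11 (a d : k) (ha : a ≠ 0) (hd : d ≠ 0) : twgD a d ha hd 1 1 = d := rfl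

theorem twgU_zero : twgU (0 : k) = 1 := by
  apply twg_ext <;> simp

theorem twgU_add (x y : k) : twgU (x + y) = twgU x * twgU y := by
  apply twg_ext <;> simp [twg_mul_00, twg_mul_01, twg_mul_10, twg_mul_11, add_comm]

theorem twgU_neg (x : k) : twgU (-x) = (twgU x)⁻¹ := by
  rw [eq_inv_iff_mul_eq_one, ← twgU_add, neg_add_cancel, twgU_zero]

theorem twgU_injective : Function.Injective (twgU : k → GL (Fin 2) k) := by
  intro x y h
  have := congrArg (fun g : GL (Fin 2) k => g 0 1) h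
  simpa using this

theorem twgU_pow (x : k) (n : ℕ) : twgU x ^ n = twgU (n * x) := by
  induction n with
  | zero => simp [twgU_zero]
  | succ n ih =>
    rw [pow_succ, ih, ← twgU_add]
    congr 1
    push_cast
    ring

theorem twgL_zero : twgL (0 : k) = 1 := by
  apply twg_ext <;> simp

theorem twgL_add (x y : k) : twgL (x + y) = twgL x * twgL y := by
  apply twg_ext <;> simp [twg_mul_00, twg_mul_01, twg_mul_10, twg_mul_11]

theorem twgL_neg (x : k) : twgL (-x) = (twgL x)⁻¹ := by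
  rw [eq_inv_iff_mul_eq_one, ← twgL_add, neg_add_cancel, twgL_zero]

/-- `w u_x w⁻¹ = l_{-x}` -/
theorem twgW_mul_twgU (x : k) : twgW * twgU x = twgL (-x) * twgW := by
  apply twg_ext <;> simp [twg_mul_00, twg_mul_01, twg_mul_10, twg_mul_11]

/-- `u_1 l_{-1} u_1 = w` -/
theorem twgW_eq : (twgW : GL (Fin 2) k) = twgU 1 * twgL (-1) * twgU 1 := by
  apply twg_ext <;> simp [twg_mul_00, twg_mul_01, twg_mul_10, twg_mul_11]

/-- `u_t l_{-1/t} u_t w⁻¹ = diag(t, 1/t)`, in the form `u_t l_{-1/t} u_t = diag(t,1/t) w` -/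
theorem twgD_mul_twgW (t : k) (ht : t ≠ 0) :
    twgD t t⁻¹ ht (inv_ne_zero ht) * twgW = twgU t * twgL (-t⁻¹) * twgU t := by
  apply twg_ext <;> simp [twg_mul_00, twg_mul_01, twg_mul_10, twg_mul_11, ht]

/-- conjugation of `u_x` by an upper triangular element -/
theorem twg_upper_mul_twgU (g : GL (Fin 2) k) (hg : g 1 0 = 0) (x : k) :
    g * twgU x = twgU (g 0 0 / g 1 1 * x) * g := by
  have hd : g 1 1 ≠ 0 := by
    have := twg_det_ne_zero g
    rw [hg, mul_zero, sub_zero] at this
    exact right_ne_zero_of_mul this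
  apply twg_ext
  · simp [twg_mul_00, hg]
  · simp only [twg_mul_01, twgU_00, twgU_01, twgU_11]
    field_simp
    ring
  · simp [twg_mul_10, hg]
  · simp [twg_mul_11, hg]

theorem twg_diag_ne_zero (g : GL (Fin 2) k) (hg : g 1 0 = 0) : g 0 0 ≠ 0 ∧ g 1 1 ≠ 0 := by
  have := twg_det_ne_zero g
  rw [hg, mul_zero, sub_zero] at this
  exact ⟨left_ne_zero_of_mul this, right_ne_zero_of_mul this⟩

/-! ### The action on the projective line -/

variable [DecidableEq k]

theorem twgU_smul_infty (x : k) : twgU x • (∞ : OnePoint k) = ∞ := by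
  rw [smul_infty_eq_self_iff]; rfl

theorem twgU_smul_coe (x c : k) : twgU x • (c : OnePoint k) = ((c + x : k) : OnePoint k) := by
  rw [smul_some_eq_ite]
  simp

theorem twgW_smul_infty : (twgW : GL (Fin 2) k) • (∞ : OnePoint k) = ((0 : k) : OnePoint k) := by
  rw [smul_infty_eq_ite]
  simp

theorem twgW_smul_zero : (twgW : GL (Fin 2) k) • ((0 : k) : OnePoint k) = ∞ := by
  rw [smul_some_eq_ite]
  simp

theorem twgL_smul_infty (y : k) (hy : y ≠ 0) :
    twgL y • (∞ : OnePoint k) = ((y⁻¹ : k) : OnePoint k) := by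
  rw [smul_infty_eq_ite]
  simp [hy]

/-- the action of an upper triangular element on finite points -/
theorem twg_upper_smul_coe (g : GL (Fin 2) k) (hg : g 1 0 = 0) (c : k) :
    g • (c : OnePoint k) = (((g 0 0 * c + g 0 1) / g 1 1 : k) : OnePoint k) := by
  rw [smul_some_eq_ite, hg, zero_mul, zero_add, if_neg (twg_diag_ne_zero g hg).2]

/-- `g • ∞ = 0` iff `g 0 0 = 0` -/
theorem twg_smul_infty_eq_zero_iff (g : GL (Fin 2) k) :
    g • (∞ : OnePoint k) = ((0 : k) : OnePoint k) ↔ g 0 0 = 0 := by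
  rw [smul_infty_eq_ite]
  constructor
  · intro h
    split_ifs at h with h1
    · exact absurd h (infty_ne_coe _)
    · rw [coe_eq_coe, div_eq_zero_iff] at h
      exact h.resolve_right h1
  · intro h
    have h1 : g 1 0 ≠ 0 := by
      intro h1
      have := twg_det_ne_zero g
      rw [h, h1, zero_mul, mul_zero, sub_zero] at this
      exact this rfl
    rw [if_neg h1, h, zero_div]

/-- scalar elements act trivially -/
theorem twg_smul_eq_self_of_scalar (g : GL (Fin 2) k) (h01 : g 0 1 = 0) (h10 : g 1 0 = 0)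
    (hd : g 0 0 = g 1 1) (x : OnePoint k) : g • x = x := by
  have h11 := (twg_diag_ne_zero g h10).2
  cases x with
  | infty => rw [smul_infty_eq_self_iff]; exact h10
  | coe c =>
    rw [twg_upper_smul_coe g h10, h01, add_zero, hd, mul_comm, mul_div_assoc, div_self h11,
      mul_one]

/-- scalar elements, as a predicate -/
def TwgIsScalar (g : GL (Fin 2) k) : Prop := g 0 1 = 0 ∧ g 1 0 = 0 ∧ g 0 0 = g 1 1

omit [DecidableEq k] in
theorem twgIsScalar_iff (g : GL (Fin 2) k) :
    TwgIsScalar g ↔ g.val ∈ Set.range (Matrix.scalar (Fin 2)) := by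
  constructor
  · rintro ⟨h01, h10, hd⟩
    refine ⟨g 0 0, ?_⟩
    ext i j
    fin_cases i <;> fin_cases j <;> simp [h01, h10, hd]
  · rintro ⟨a, ha⟩
    have h := fun i j => congrFun (congrFun ha i) j
    refine ⟨?_, ?_, ?_⟩
    · rw [← h 0 1]; simp
    · rw [← h 1 0]; simp
    · rw [← h 0 0, ← h 1 1]; simp

/-- a parabolic element has exactly one fixed point -/
theorem twg_card_fixedBy_of_isParabolic [NeZero (2 : k)] (g : GL (Fin 2) k)
    (hg : g.IsParabolic) : Nat.card (fixedBy (OnePoint k) g) = 1 := by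
  have : fixedBy (OnePoint k) g = {g.parabolicFixedPoint} := by
    ext c
    rw [mem_fixedBy, hg.smul_eq_self_iff, Set.mem_singleton_iff]
  rw [this, Nat.card_coe_set_eq, Set.ncard_singleton]

/-- the fixed points of a non-parabolic, non-scalar element whose discriminant is a square -/
theorem twg_fixedBy_of_discr_eq_sq [NeZero (2 : k)] (g : GL (Fin 2) k) (δ : k) (hδ : δ ≠ 0)
    (hdisc : g.val.discr = δ ^ 2) :
    ∃ x y : OnePoint k, x ≠ y ∧ ∀ z : OnePoint k, g • z = z ↔ z = x ∨ z = y := by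
  have h2 : (2 : k) ≠ 0 := NeZero.ne 2
  rw [Matrix.discr_fin_two, Matrix.trace_fin_two, Matrix.det_fin_two] at hdisc
  by_cases h10 : g 1 0 = 0
  · -- upper triangular
    have hd := twg_diag_ne_zero g h10
    have hne : g 0 0 ≠ g 1 1 := by
      intro h
      apply hδ
      have : δ ^ 2 = 0 := by
        rw [← hdisc, h10, h]; ring
      exact pow_eq_zero_iff (two_ne_zero) |>.mp this
    refine ⟨∞, ((g 0 1 / (g 1 1 - g 0 0) : k) : OnePoint k), infty_ne_coe _, ?_⟩
    intro z
    cases z with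
    | infty =>
      simp only [true_or, iff_true]
      rw [smul_infty_eq_self_iff]; exact h10
    | coe c =>
      rw [twg_upper_smul_coe g h10, coe_eq_coe]
      simp only [coe_ne_infty, false_or, coe_eq_coe]
      have h3 : g 1 1 - g 0 0 ≠ 0 := sub_ne_zero.mpr (Ne.symm hne)
      rw [div_eq_iff hd.2, eq_div_iff h3]
      constructor
      · intro h; linear_combination -h
      · intro h; linear_combination -h
  · -- two finite fixed points
    set c₁ : k := (g 0 0 - g 1 1 + δ) / (2 * g 1 0) with hc₁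
    set c₂ : k := (g 0 0 - g 1 1 - δ) / (2 * g 1 0) with hc₂
    have h3 : (2 * g 1 0 : k) ≠ 0 := mul_ne_zero h2 h10
    refine ⟨(c₁ : OnePoint k), (c₂ : OnePoint k), ?_, ?_⟩
    · rw [Ne, coe_eq_coe, hc₁, hc₂, div_left_inj' h3]
      intro h
      apply hδ
      have : 2 * δ = 0 := by linear_combination h
      exact (mul_eq_zero.mp this).resolve_left h2
    · intro z
      cases z with
      | infty =>
        simp only [infty_ne_coe, or_self, iff_false]
        rw [smul_infty_eq_self_iff]; exact h10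
      | coe c =>
        rw [← Matrix.GeneralLinearGroup.fixpointPolynomial_aeval_eq_zero_iff]
        simp only [Matrix.GeneralLinearGroup.fixpointPolynomial, map_sub, map_add, map_mul,
          Polynomial.aeval_C, Polynomial.aeval_X, map_pow, Algebra.algebraMap_self_apply,
          coe_eq_coe]
        have hfac : g 1 0 * c ^ 2 + (g 1 1 - g 0 0) * c - g 0 1 =
            g 1 0 * ((c - c₁) * (c - c₂)) := by
          rw [hc₁, hc₂]
          field_simp
          linear_combination (-1 : k) * hdisc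
        rw [hfac, mul_eq_zero, mul_eq_zero, sub_eq_zero, sub_eq_zero]
        constructor
        · intro h; exact h.resolve_left h10
        · intro h; exact Or.inr h

theorem twg_card_fixedBy_of_discr_eq_sq [NeZero (2 : k)] (g : GL (Fin 2) k) (δ : k)
    (hδ : δ ≠ 0) (hdisc : g.val.discr = δ ^ 2) : Nat.card (fixedBy (OnePoint k) g) = 2 := by
  classical
  obtain ⟨x, y, hxy, h⟩ := twg_fixedBy_of_discr_eq_sq g δ hδ hdisc
  have : fixedBy (OnePoint k) g = {x, y} := by
    ext z
    rw [mem_fixedBy, h z]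
    simp
  rw [this, Nat.card_coe_set_eq, Set.ncard_pair hxy]

end Fermat.Agent.TW
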