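/-
P10 / S56 (Taylor–Wiles primes), package G8 (group theory): a finite subgroup `H` of `GL₂(k)`,
`k` a finite field; its scalars `Z`, its upper unipotent elements `A`, the stabiliser of `∞`.
-/
import Mathlib
import Fermat.Agent.Lib.TW.Group.Mobius

set_option autoImplicit false

open Matrix OnePoint MulAction

noncomputable section

namespace Fermat.Agent.TW

variable {k : Type*} [Field k] (H : Subgroup (GL (Fin 2) k))

/-- `A = {x | u_x ∈ H}` -/
def twgA : AddSubgroup k where
  carrier := {x | twgU x ∈ H}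
  zero_mem' := by
    show twgU 0 ∈ H
    rw [twgU_zero]; exact H.one_mem
  add_mem' := by
    intro x y hx hy
    show twgU (x + y) ∈ H
    rw [twgU_add]; exact H.mul_mem hx hy
  neg_mem' := by
    intro x hx
    show twgU (-x) ∈ H
    rw [twgU_neg]; exact H.inv_mem hx

theorem mem_twgA {x : k} : x ∈ twgA H ↔ twgU x ∈ H := Iff.rfl

/-- the scalar elements of `H`, as a subgroup of `H` -/
def twgZ : Subgroup H where
  carrier := {h | TwgIsScalar (h : GL (Fin 2) k)}
  one_mem' := by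
    show TwgIsScalar ((1 : H) : GL (Fin 2) k)
    refine ⟨?_, ?_, ?_⟩ <;> simp
  mul_mem' := by
    rintro g h ⟨g01, g10, gd⟩ ⟨h01, h10, hd⟩
    show TwgIsScalar ((g * h : H) : GL (Fin 2) k)
    rw [Subgroup.coe_mul]
    refine ⟨?_, ?_, ?_⟩
    · rw [twg_mul_01, g01, h01]; ring
    · rw [twg_mul_10, g10, h10]; ring
    · rw [twg_mul_00, twg_mul_11, g01, g10, gd, hd]; ring
  inv_mem' := by
    rintro g ⟨g01, g10, gd⟩
    show TwgIsScalar ((g⁻¹ : H) : GL (Fin 2) k)
    rw [Subgroup.coe_inv]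
    have hd := twg_diag_ne_zero (g : GL (Fin 2) k) g10
    have h1 : ((g : GL (Fin 2) k)⁻¹ : GL (Fin 2) k) =
        twgD ((g : GL (Fin 2) k) 0 0)⁻¹ ((g : GL (Fin 2) k) 1 1)⁻¹ (inv_ne_zero hd.1)
          (inv_ne_zero hd.2) := by
      rw [inv_eq_iff_mul_eq_one]
      apply twg_ext
      · rw [twg_mul_00, g01]; simp [hd.1]
      · rw [twg_mul_01, g01]; simp
      · rw [twg_mul_10, g10]; simp
      · rw [twg_mul_11, g10]; simp [hd.2]
    rw [h1]
    refine ⟨rfl, rfl, ?_⟩
    simp [gd]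

theorem mem_twgZ {h : H} : h ∈ twgZ H ↔ TwgIsScalar (h : GL (Fin 2) k) := Iff.rfl

/-- scalars commute with everything -/
theorem twg_scalar_commute (g h : GL (Fin 2) k) (hg : TwgIsScalar g) : g * h = h * g := by
  obtain ⟨g01, g10, gd⟩ := hg
  apply twg_ext
  · rw [twg_mul_00, twg_mul_00, g01, g10]; ring
  · rw [twg_mul_01, twg_mul_01, g01, gd]; ring
  · rw [twg_mul_10, twg_mul_10, g10, gd]; ring
  · rw [twg_mul_11, twg_mul_11, g01, g10]; ring

instance twgZ_normal : (twgZ H).Normal := by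
  constructor
  intro z hz g
  have h1 : g * z * g⁻¹ = z := by
    have : z * g = g * z := by
      apply Subtype.ext
      rw [Subgroup.coe_mul, Subgroup.coe_mul]
      exact twg_scalar_commute _ _ hz
    rw [← this, mul_inv_cancel_right]
  rw [h1]; exact hz

variable [DecidableEq k]

theorem twgZ_smul {z : H} (hz : z ∈ twgZ H) (x : OnePoint k) : z • x = x := by
  obtain ⟨h01, h10, hd⟩ := hz
  exact twg_smul_eq_self_of_scalar (z : GL (Fin 2) k) h01 h10 hd x

theorem twg_mem_stabilizer_infty_iff {h : H} :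
    h ∈ stabilizer H (∞ : OnePoint k) ↔ (h : GL (Fin 2) k) 1 0 = 0 := by
  rw [mem_stabilizer_iff]
  exact smul_infty_eq_self_iff

theorem twg_fixedBy_coe (h : H) :
    fixedBy (OnePoint k) h = fixedBy (OnePoint k) (h : GL (Fin 2) k) := rfl

omit [DecidableEq k] in
theorem twgD_pow (a d : k) (ha : a ≠ 0) (hd : d ≠ 0) (n : ℕ) :
    twgD a d ha hd ^ n = twgD (a ^ n) (d ^ n) (pow_ne_zero n ha) (pow_ne_zero n hd) := by
  induction n with
  | zero => apply twg_ext <;> simp
  | succ n ih =>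
    rw [pow_succ, ih]
    apply twg_ext <;> simp [twg_mul_00, twg_mul_01, twg_mul_10, twg_mul_11, pow_succ]

omit [DecidableEq k] in
/-- an upper triangular element with equal diagonal entries is scalar times unipotent -/
theorem twg_eq_scalar_mul_twgU (g : GL (Fin 2) k) (h10 : g 1 0 = 0) (hd : g 0 0 = g 1 1) :
    g = twgD (g 0 0) (g 0 0) (twg_diag_ne_zero g h10).1 (twg_diag_ne_zero g h10).1 *
      twgU (g 0 1 / g 0 0) := by
  have ha := (twg_diag_ne_zero g h10).1
  apply twg_ext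
  · simp [twg_mul_00]
  · simp only [twg_mul_01, twgD_00, twgU_01, twgD_01, twgU_11]
    field_simp
    ring
  · simp [twg_mul_10, h10]
  · simp [twg_mul_11, hd]

omit [DecidableEq k] in
/-- **Splitting.**  In a finite field, the unipotent and the scalar part of an element
`[a, b; 0, a]` of `H` lie in `H`. -/
theorem twg_split_mem [Finite k] {g : GL (Fin 2) k} (hg : g ∈ H) (h10 : g 1 0 = 0)
    (hd : g 0 0 = g 1 1) :
    twgU (g 0 1 / g 0 0) ∈ H ∧
      twgD (g 0 0) (g 0 0) (twg_diag_ne_zero g h10).1 (twg_diag_ne_zero g h10).1 ∈ H := by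
  classical
  let _ : Fintype k := Fintype.ofFinite k
  have ha := (twg_diag_ne_zero g h10).1
  set S := twgD (g 0 0) (g 0 0) ha ha with hS
  set y := g 0 1 / g 0 0 with hy
  have hgSU : g = S * twgU y := twg_eq_scalar_mul_twgU g h10 hd
  have hcomm : Commute S (twgU y) := by
    apply twg_scalar_commute
    exact ⟨rfl, rfl, rfl⟩
  have hpow : g ^ (Fintype.card k - 1) = twgU (-y) := by
    rw [hgSU, hcomm.mul_pow, hS, twgD_pow, twgU_pow]
    have h1 : g 0 0 ^ (Fintype.card k - 1) = 1 := FiniteField.pow_card_sub_one_eq_one _ ha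
    have h2 : ((Fintype.card k - 1 : ℕ) : k) = -1 := by
      rw [Nat.cast_sub Fintype.card_pos, FiniteField.cast_card_eq_zero]
      simp
    rw [h2]
    apply twg_ext <;> simp [twg_mul_00, twg_mul_01, twg_mul_10, twg_mul_11, h1]
  have hU' : twgU (-y) ∈ H := by
    rw [← hpow]; exact H.pow_mem hg _
  have hU : twgU y ∈ H := by
    rw [twgU_neg] at hU'
    exact H.inv_mem_iff.mp hU'
  refine ⟨hU, ?_⟩
  have : S = g * (twgU y)⁻¹ := by rw [hgSU, mul_inv_cancel_right]
  rw [this]
  exact H.mul_mem hg (H.inv_mem hU)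

/-- the elements `[a, b; 0, a]` of `H` -/
def twgKer : Set H := {h | (h : GL (Fin 2) k) 1 0 = 0 ∧ (h : GL (Fin 2) k) 0 0 = (h : GL (Fin 2) k) 1 1}

omit [DecidableEq k] in
theorem twgZ_subset_twgKer : (twgZ H : Set H) ⊆ twgKer H := by
  rintro h ⟨-, h10, hd⟩
  exact ⟨h10, hd⟩

omit [DecidableEq k] in
/-- `#{[a, b; 0, a] ∈ H} = |Z| |A|` -/
theorem twg_ncard_twgKer [Finite k] :
    (twgKer H).ncard = Nat.card (twgZ H) * Nat.card (twgA H) := by
  classical
  rw [← Nat.card_prod, ← Nat.card_coe_set_eq]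
  symm
  refine Nat.card_congr (Equiv.ofBijective
    (fun zx : twgZ H × twgA H =>
      (⟨(zx.1 : H) * ⟨twgU (zx.2 : k), zx.2.2⟩, ?_⟩ : twgKer H)) ⟨?_, ?_⟩)
  · obtain ⟨⟨z, z01, z10, zd⟩, x⟩ := zx
    constructor
    · show ((z : GL (Fin 2) k) * twgU (x : k)) 1 0 = 0
      rw [twg_mul_10, z10]; simp
    · show ((z : GL (Fin 2) k) * twgU (x : k)) 0 0 = ((z : GL (Fin 2) k) * twgU (x : k)) 1 1
      rw [twg_mul_00, twg_mul_11, z10, zd]; simp
  · rintro ⟨⟨z, z01, z10, zd⟩, x⟩ ⟨⟨z', z'01, z'10, z'd⟩, x'⟩ h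
    have h1 : (z : GL (Fin 2) k) * twgU (x : k) = (z' : GL (Fin 2) k) * twgU (x' : k) := by
      have := congrArg (fun t : twgKer H => ((t : H) : GL (Fin 2) k)) h
      exact this
    have e00 := congrArg (fun g : GL (Fin 2) k => g 0 0) h1
    have e01 := congrArg (fun g : GL (Fin 2) k => g 0 1) h1
    simp only [twg_mul_00, twg_mul_01, twgU_00, twgU_10, twgU_01, twgU_11, mul_one, mul_zero,
      add_zero, z01, z'01] at e00 e01
    have hz0 : (z : GL (Fin 2) k) 0 0 ≠ 0 := (twg_diag_ne_zero (z : GL (Fin 2) k) z10).1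
    have hx : (x : k) = x' := by
      have hz0' : (z' : GL (Fin 2) k) 0 0 ≠ 0 := (twg_diag_ne_zero (z' : GL (Fin 2) k) z'10).1
      rw [e00] at e01
      exact mul_left_cancel₀ hz0' e01
    have hzz : z = z' := by
      apply Subtype.ext
      apply twg_ext
      · exact e00
      · rw [z01, z'01]
      · rw [z10, z'10]
      · rw [← zd, ← z'd]; exact e00
    have hxx : x = x' := Subtype.ext hx
    subst hzz; subst hxx; rfl
  · rintro ⟨h, h10, hd⟩
    obtain ⟨hU, hS⟩ := twg_split_mem H h.2 h10 hd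
    have ha := (twg_diag_ne_zero (h : GL (Fin 2) k) h10).1
    refine ⟨(⟨⟨_, hS⟩, ⟨rfl, rfl, rfl⟩⟩, ⟨_, hU⟩), ?_⟩
    apply Subtype.ext
    apply Subtype.ext
    show twgD _ _ ha ha * twgU _ = (h : GL (Fin 2) k)
    exact (twg_eq_scalar_mul_twgU (h : GL (Fin 2) k) h10 hd).symm

/-- the character `[a, b; 0, d] ↦ a / d` of the stabiliser of `∞` -/
def twgAlpha : stabilizer H (∞ : OnePoint k) →* kˣ where
  toFun b := Units.mk0 (((b : H) : GL (Fin 2) k) 0 0 / ((b : H) : GL (Fin 2) k) 1 1) (by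
    have := twg_diag_ne_zero _ ((twg_mem_stabilizer_infty_iff H).mp b.2)
    exact div_ne_zero this.1 this.2)
  map_one' := by
    ext
    simp
  map_mul' := by
    intro b c
    ext
    have hb := (twg_mem_stabilizer_infty_iff H).mp b.2
    have hc := (twg_mem_stabilizer_infty_iff H).mp c.2
    have hbd := twg_diag_ne_zero _ hb
    have hcd := twg_diag_ne_zero _ hc
    simp only [Units.val_mk0, Units.val_mul, Subgroup.coe_mul, twg_mul_00, twg_mul_11, hb, hc,
      mul_zero, zero_mul, add_zero, zero_add]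
    field_simp

theorem twgAlpha_apply (b : stabilizer H (∞ : OnePoint k)) :
    ((twgAlpha H b : kˣ) : k) =
      ((b : H) : GL (Fin 2) k) 0 0 / ((b : H) : GL (Fin 2) k) 1 1 := rfl

theorem twg_mem_ker_twgAlpha_iff (b : stabilizer H (∞ : OnePoint k)) :
    b ∈ (twgAlpha H).ker ↔ ((b : H) : GL (Fin 2) k) 0 0 = ((b : H) : GL (Fin 2) k) 1 1 := by
  have hb := (twg_mem_stabilizer_infty_iff H).mp b.2
  have hbd := twg_diag_ne_zero _ hb
  rw [MonoidHom.mem_ker, Units.ext_iff, twgAlpha_apply, Units.val_one, div_eq_one_iff_eq hbd.2]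

/-- the order of the stabiliser of `∞` -/
theorem twg_card_stabilizer [Finite k] :
    Nat.card (stabilizer H (∞ : OnePoint k)) =
      Nat.card (twgZ H) * Nat.card (twgA H) * Nat.card (twgAlpha H).range := by
  rw [Subgroup.card_eq_card_quotient_mul_card_subgroup (twgAlpha H).ker,
    Nat.card_congr (QuotientGroup.quotientKerEquivRange (twgAlpha H)).toEquiv,
    ← twg_ncard_twgKer H, ← Nat.card_coe_set_eq, mul_comm]
  congr 1
  refine Nat.card_congr
    { toFun := fun b => ⟨(b : stabilizer H (∞ : OnePoint k)).1,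
        (twg_mem_stabilizer_infty_iff H).mp b.1.2, (twg_mem_ker_twgAlpha_iff H b.1).mp b.2⟩
      invFun := fun h => ⟨⟨h.1, (twg_mem_stabilizer_infty_iff H).mpr h.2.1⟩,
        (twg_mem_ker_twgAlpha_iff H _).mpr h.2.2⟩
      left_inv := fun b => rfl
      right_inv := fun h => rfl }

/-- `κ ≤ q - 1` -/
theorem twg_card_range_twgAlpha_le [Finite k] (hU : twgU 1 ∈ H) :
    Nat.card (twgAlpha H).range ≤ Nat.card (twgA H) - 1 := by
  classical
  have h1 : Nat.card {x : twgA H // x ≠ 0} = Nat.card (twgA H) - 1 := by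
    have : {x : twgA H | x ≠ 0} = Set.univ \ {0} := by
      ext x; simp
    rw [← Set.coe_ofPred, Nat.card_coe_set_eq, this,
      Set.ncard_sdiff_singleton_of_mem (Set.mem_univ _), Set.ncard_univ]
  rw [← h1]
  have key : ∀ r : (twgAlpha H).range, ((r : kˣ) : k) ∈ twgA H := by
    rintro ⟨r, b, rfl⟩
    have hb := (twg_mem_stabilizer_infty_iff H).mp b.2
    have h2 := twg_upper_mul_twgU ((b : H) : GL (Fin 2) k) hb 1
    rw [mul_one] at h2
    show twgU _ ∈ H
    rw [twgAlpha_apply]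
    have : twgU (((b : H) : GL (Fin 2) k) 0 0 / ((b : H) : GL (Fin 2) k) 1 1) =
        ((b : H) : GL (Fin 2) k) * twgU 1 * ((b : H) : GL (Fin 2) k)⁻¹ := by
      rw [h2, mul_inv_cancel_right]
    rw [this]
    exact H.mul_mem (H.mul_mem (b : H).2 hU) (H.inv_mem (b : H).2)
  apply Nat.card_le_card_of_injective
    (fun r : (twgAlpha H).range => (⟨⟨((r : kˣ) : k), key r⟩, by
      intro h
      have := congrArg (fun x : twgA H => (x : k)) h
      simp at this⟩ : {x : twgA H // x ≠ 0}))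
  intro r r' h
  have := congrArg (fun x : {x : twgA H // x ≠ 0} => ((x : twgA H) : k)) h
  simp only at this
  exact Subtype.ext (Units.ext this)

theorem twg_one_le_card_range_twgAlpha [Finite k] : 1 ≤ Nat.card (twgAlpha H).range :=
  Nat.card_pos

end Fermat.Agent.TW
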