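/-
P10 / S56 (Taylor–Wiles primes), package G8 (group theory): the counting argument behind
"Dickson-lite".

A finite group `G` acts on a finite set `Pt` (in the application the projective line) such that
a subgroup `Z` acts trivially and every element outside `Z` has one or two fixed points.
A Riemann–Hurwitz-type count of fixed points shows: if the stabiliser of `x₀` has order
`|Z| q κ`, `κ ≤ q - 1`, the elements with exactly one fixed point are `|Z| |Ω| (q - 1)` in number
(`Ω` the orbit of `x₀`), `|Ω| ≡ 1 mod q`, `|Ω| ≥ 2`, `q ≥ 4`, then `|Ω| = q + 1`.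
-/
import Mathlib

set_option autoImplicit false

open MulAction

noncomputable section

namespace Fermat.Agent.TW

/-- the arithmetic at the end of the count -/
theorem twg_numerics (q m κ N₂ s : ℕ) (hq : 4 ≤ q) (hm : 1 ≤ m) (hκ1 : 1 ≤ κ) (hκ : κ ≤ q - 1)
    (hN : N₂ = 2 + (1 + m * q) * (q - 2)) (hdiv : N₂ * s = (1 + m * q) * q * κ) : m = 1 := by
  obtain ⟨r, rfl⟩ : ∃ r, q = r + 2 := ⟨q - 2, by omega⟩
  have hr : 2 ≤ r := by omega
  have hκ' : κ ≤ r + 1 := by omega
  rw [show r + 2 - 2 = r by omega] at hN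
  have hN' : N₂ = (r + 2) * (1 + m * r) := by rw [hN]; ring
  rw [hN'] at hdiv
  have h1 : (1 + m * r) * s = (1 + m * r + 2 * m) * κ := by
    have h2 : (r + 2) * ((1 + m * r) * s) = (r + 2) * ((1 + m * r + 2 * m) * κ) := by
      rw [← mul_assoc, hdiv]; ring
    exact Nat.eq_of_mul_eq_mul_left (by omega) h2
  have h3 : (1 + m * r) ∣ 2 * m * κ := by
    have h4 : (1 + m * r) ∣ (1 + m * r + 2 * m) * κ := Dvd.intro _ h1
    rw [add_mul] at h4
    have h5 : (1 + m * r) ∣ (1 + m * r) * κ := Dvd.intro _ rfl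
    exact (Nat.dvd_add_right h5).mp h4
  have hcop : Nat.Coprime (1 + m * r) m := by
    rw [Nat.coprime_comm]
    have : Nat.Coprime m (1 + m * r) := by
      rw [add_comm, Nat.coprime_mul_left_add_right]
      exact Nat.coprime_one_right m
    exact this
  have h6 : (1 + m * r) ∣ 2 * κ := by
    have h7 : (1 + m * r) ∣ m * (2 * κ) := by
      rw [← mul_assoc, mul_comm m 2]; exact h3
    exact hcop.dvd_of_dvd_mul_left h7
  have h8 : 1 + m * r ≤ 2 * κ := Nat.le_of_dvd (by omega) h6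
  have hm3 : m ≤ 2 := by
    by_contra hcon
    have : 3 ≤ m := by omega
    have : 3 * r ≤ m * r := Nat.mul_le_mul_right r this
    omega
  rcases (by omega : m = 1 ∨ m = 2) with h | h
  · exact h
  · exfalso
    subst h
    have hodd : Nat.Coprime (1 + 2 * r) 2 := by
      rw [Nat.coprime_comm, Nat.coprime_two_left, add_comm]
      exact odd_two_mul_add_one r
    have h9 : (1 + 2 * r) ∣ κ := hodd.dvd_of_dvd_mul_left h6
    have := Nat.le_of_dvd (by omega) h9
    omega

variable {G Pt : Type*} [Group G] [Fintype G] [Fintype Pt] [MulAction G Pt]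

omit [Fintype G] in
open Classical in
/-- number of points as a sum over orbits -/
theorem twg_card_eq_sum_orbits :
    Fintype.card Pt = ∑ ω : orbitRel.Quotient G Pt, Nat.card (orbit G ω.out) := by
  rw [Fintype.card_congr (selfEquivSigmaOrbits G Pt), Fintype.card_sigma]
  apply Finset.sum_congr rfl
  intro ω _
  rw [Nat.card_eq_fintype_card]

open Classical in
/-- the sum over all group elements of the number of fixed points, when a subgroup `Z` acts
trivially and the other elements have one or two fixed points -/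
theorem twg_sum_fixedBy (Z : Subgroup G) (hZ : ∀ z ∈ Z, ∀ x : Pt, z • x = x)
    (hfix : ∀ g : G, g ∉ Z → Nat.card (fixedBy Pt g) = 1 ∨ Nat.card (fixedBy Pt g) = 2) :
    (∑ g : G, Fintype.card (fixedBy Pt g) : ℕ) + Nat.card Z * 2 +
        Nat.card {g : G // g ∉ Z ∧ Nat.card (fixedBy Pt g) = 1} =
      Nat.card Z * Fintype.card Pt + 2 * Fintype.card G := by
  set Par : Finset G := Finset.univ.filter (fun g => g ∉ Z ∧ Nat.card (fixedBy Pt g) = 1) with hPar
  set Zf : Finset G := Finset.univ.filter (fun g => g ∈ Z) with hZf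
  set Hyp : Finset G := Finset.univ.filter (fun g => g ∉ Z ∧ Nat.card (fixedBy Pt g) = 2)
    with hHyp
  have hcardZ : Nat.card Z = Zf.card := by
    rw [Nat.card_eq_fintype_card, hZf, Fintype.card_subtype]
  have hcardPar : Nat.card {g : G // g ∉ Z ∧ Nat.card (fixedBy Pt g) = 1} = Par.card := by
    rw [Nat.card_eq_fintype_card, hPar, Fintype.card_subtype]
  have hdisj1 : Disjoint Zf Par := by
    rw [Finset.disjoint_left]
    intro g hg hg'
    rw [hZf, Finset.mem_filter] at hg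
    rw [hPar, Finset.mem_filter] at hg'
    exact hg'.2.1 hg.2
  have hdisj2 : Disjoint (Zf ∪ Par) Hyp := by
    rw [Finset.disjoint_left]
    intro g hg hg'
    rw [hHyp, Finset.mem_filter] at hg'
    rw [Finset.mem_union, hZf, hPar, Finset.mem_filter, Finset.mem_filter] at hg
    rcases hg with hg | hg
    · exact hg'.2.1 hg.2
    · rw [hg.2.2] at hg'
      exact absurd hg'.2.2 (by norm_num)
  have hunion : (Zf ∪ Par) ∪ Hyp = Finset.univ := by
    ext g
    simp only [Finset.mem_union, Finset.mem_univ, iff_true, hZf, hPar, hHyp, Finset.mem_filter,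
      true_and]
    by_cases hg : g ∈ Z
    · exact Or.inl (Or.inl hg)
    · rcases hfix g hg with h | h
      · exact Or.inl (Or.inr ⟨hg, h⟩)
      · exact Or.inr ⟨hg, h⟩
  have hsumZ : ∑ g ∈ Zf, Fintype.card (fixedBy Pt g) = Zf.card * Fintype.card Pt := by
    rw [Finset.sum_const_nat]
    intro g hg
    rw [hZf, Finset.mem_filter] at hg
    rw [← Fintype.card_congr (Equiv.Set.univ Pt)]
    apply Fintype.card_congr
    apply Equiv.setCongr
    ext x
    simp only [mem_fixedBy, Set.mem_univ, iff_true]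
    exact hZ g hg.2 x
  have hsumPar : ∑ g ∈ Par, Fintype.card (fixedBy Pt g) = Par.card * 1 := by
    rw [Finset.sum_const_nat]
    intro g hg
    rw [hPar, Finset.mem_filter] at hg
    rw [← Nat.card_eq_fintype_card]
    exact hg.2.2
  have hsumHyp : ∑ g ∈ Hyp, Fintype.card (fixedBy Pt g) = Hyp.card * 2 := by
    rw [Finset.sum_const_nat]
    intro g hg
    rw [hHyp, Finset.mem_filter] at hg
    rw [← Nat.card_eq_fintype_card]
    exact hg.2.2
  have hcardG : Fintype.card G = Zf.card + Par.card + Hyp.card := by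
    rw [← Finset.card_univ, ← hunion, Finset.card_union_of_disjoint hdisj2,
      Finset.card_union_of_disjoint hdisj1]
  rw [← hunion, Finset.sum_union hdisj2, Finset.sum_union hdisj1, hsumZ, hsumPar, hsumHyp,
    hcardZ, hcardPar, hcardG]
  ring

open Classical in
/-- the Riemann–Hurwitz-type identity: a sum over the orbits -/
theorem twg_orbit_identity (Z : Subgroup G) (hZ : ∀ z ∈ Z, ∀ x : Pt, z • x = x)
    (hfix : ∀ g : G, g ∉ Z → Nat.card (fixedBy Pt g) = 1 ∨ Nat.card (fixedBy Pt g) = 2) :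
    (∑ ω : orbitRel.Quotient G Pt,
        ((Nat.card G : ℤ) - (Nat.card Z : ℤ) * (Nat.card (orbit G ω.out) : ℤ))) =
      2 * ((Nat.card G : ℤ) - (Nat.card Z : ℤ)) -
        (Nat.card {g : G // g ∉ Z ∧ Nat.card (fixedBy Pt g) = 1} : ℤ) := by
  have h1 := twg_sum_fixedBy Z hZ hfix
  have h2 := sum_card_fixedBy_eq_card_orbits_mul_card_group G Pt
  have h3 := twg_card_eq_sum_orbits (G := G) (Pt := Pt)
  rw [h2] at h1
  rw [Finset.sum_sub_distrib, Finset.sum_const, Finset.card_univ, ← Finset.mul_sum,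
    Nat.card_eq_fintype_card (α := G)]
  have h4 : ((∑ ω : orbitRel.Quotient G Pt, Nat.card (orbit G ω.out) : ℕ) : ℤ) =
      ∑ ω : orbitRel.Quotient G Pt, (Nat.card (orbit G ω.out) : ℤ) := by
    push_cast; rfl
  rw [← h4, ← h3]
  have h5 : ((Fintype.card (orbitRel.Quotient G Pt) * Fintype.card G + Nat.card Z * 2 +
      Nat.card {g : G // g ∉ Z ∧ Nat.card (fixedBy Pt g) = 1} : ℕ) : ℤ) =
      ((Nat.card Z * Fintype.card Pt + 2 * Fintype.card G : ℕ) : ℤ) := by
    rw [h1]
  push_cast at h5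
  rw [nsmul_eq_mul]
  linarith

omit [Fintype G] [Fintype Pt] in
/-- orbit-stabiliser, with `Nat.card` -/
theorem twg_card_orbit_mul_card_stabilizer (x : Pt) :
    Nat.card (orbit G x) * Nat.card (stabilizer G x) = Nat.card G := by
  rw [← Nat.card_prod]
  exact Nat.card_congr (orbitProdStabilizerEquivGroup G x)

omit [Fintype Pt] in
/-- each orbit term is `0` or at least half the group order -/
theorem twg_orbit_term (Z : Subgroup G) (hZ : ∀ z ∈ Z, ∀ x : Pt, z • x = x) (x : Pt) :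
    ∃ s : ℕ, 1 ≤ s ∧ Nat.card (orbit G x) * (Nat.card Z * s) = Nat.card G ∧
      ((Nat.card G : ℤ) - (Nat.card Z : ℤ) * (Nat.card (orbit G x) : ℤ) = 0 ∨
        (Nat.card G : ℤ) ≤
          2 * ((Nat.card G : ℤ) - (Nat.card Z : ℤ) * (Nat.card (orbit G x) : ℤ))) := by
  classical
  have hle : Z ≤ stabilizer G x := fun z hz => hZ z hz x
  have hdvd : Nat.card Z ∣ Nat.card (stabilizer G x) := Subgroup.card_dvd_of_le hle
  obtain ⟨s, hs⟩ := hdvd
  have hos : Nat.card (orbit G x) * Nat.card (stabilizer G x) = Nat.card G :=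
    twg_card_orbit_mul_card_stabilizer x
  have hspos : 1 ≤ s := by
    rcases Nat.eq_zero_or_pos s with h | h
    · exfalso
      rw [h, mul_zero] at hs
      exact (Nat.card_pos (α := stabilizer G x)).ne' hs
    · exact h
  rw [hs] at hos
  refine ⟨s, hspos, hos, ?_⟩
  have hZpos : 0 < Nat.card Z := Nat.card_pos
  rcases (by omega : s = 1 ∨ 2 ≤ s) with h | h
  · left
    rw [h, mul_one] at hos
    rw [← hos]
    push_cast
    ring
  · right
    have h1 : 2 * (Nat.card Z * Nat.card (orbit G x)) ≤ Nat.card G := by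
      rw [← hos]
      calc 2 * (Nat.card Z * Nat.card (orbit G x))
          = Nat.card (orbit G x) * (Nat.card Z * 2) := by ring
        _ ≤ Nat.card (orbit G x) * (Nat.card Z * s) :=
          Nat.mul_le_mul_left _ (Nat.mul_le_mul_left _ h)
    have h2 : (2 : ℤ) * ((Nat.card Z : ℤ) * (Nat.card (orbit G x) : ℤ)) ≤ (Nat.card G : ℤ) := by
      exact_mod_cast h1
    linarith

omit [Fintype G] [Fintype Pt] in
/-- the elements with exactly one fixed point, counted through the orbit of `x₀` -/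
theorem twg_card_par [Finite G] (Z : Subgroup G) [Z.Normal] (x₀ : Pt)
    (hΩ : ∀ g : G, g ∉ Z → Nat.card (fixedBy Pt g) = 1 → ∀ x : Pt, g • x = x → x ∈ orbit G x₀) :
    Nat.card {g : G // g ∉ Z ∧ Nat.card (fixedBy Pt g) = 1} =
      Nat.card (orbit G x₀) *
        Nat.card {g : G // (g ∉ Z ∧ Nat.card (fixedBy Pt g) = 1) ∧ g • x₀ = x₀} := by
  classical
  rw [← Nat.card_prod]
  symm
  -- representatives
  have hrep : ∀ y : orbit G x₀, ∃ t : G, t • x₀ = (y : Pt) := fun y => y.2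
  choose t ht using hrep
  have hconj : ∀ (s g : G), (g ∉ Z ∧ Nat.card (fixedBy Pt g) = 1) →
      (s * g * s⁻¹ ∉ Z ∧ Nat.card (fixedBy Pt (s * g * s⁻¹)) = 1) := by
    intro s g hg
    refine ⟨fun h => hg.1 ?_, ?_⟩
    · have := ‹Z.Normal›.conj_mem _ h s⁻¹
      simpa [mul_assoc] using this
    · rw [← smul_fixedBy, ← hg.2]
      exact Nat.card_congr (Equiv.Set.imageOfInjOn _ _ (MulAction.injective s).injOn).symm
  have hsub : ∀ g : G, Nat.card (fixedBy Pt g) = 1 → ∀ x y : Pt, g • x = x → g • y = y →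
      x = y := by
    intro g hg x y hx hy
    have := (Nat.card_eq_one_iff_unique.mp hg).1
    have h := @Subsingleton.elim _ this (⟨x, hx⟩ : fixedBy Pt g) ⟨y, hy⟩
    exact congrArg Subtype.val h
  refine Nat.card_congr (Equiv.ofBijective
    (fun yg : orbit G x₀ × {g : G // (g ∉ Z ∧ Nat.card (fixedBy Pt g) = 1) ∧ g • x₀ = x₀} =>
      (⟨t yg.1 * yg.2.1 * (t yg.1)⁻¹, hconj _ _ yg.2.2.1⟩ :
        {g : G // g ∉ Z ∧ Nat.card (fixedBy Pt g) = 1})) ⟨?_, ?_⟩)
  · rintro ⟨y, g, hg, hgx⟩ ⟨y', g', hg', hgx'⟩ h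
    simp only [Subtype.mk.injEq] at h
    have hy : (t y * g * (t y)⁻¹) • (y : Pt) = y := by
      rw [mul_smul, mul_smul, ← ht y, inv_smul_smul, hgx]
    have hy' : (t y * g * (t y)⁻¹) • (y' : Pt) = y' := by
      rw [h, mul_smul, mul_smul, ← ht y', inv_smul_smul, hgx']
    have hyy : (y : Pt) = y' := hsub _ (hconj _ _ hg).2 _ _ hy hy'
    have hyy' : y = y' := Subtype.ext hyy
    subst hyy'
    have : g = g' := by
      have := mul_left_cancel (mul_right_cancel h)
      exact this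
    subst this
    rfl
  · rintro ⟨h, hh⟩
    obtain ⟨x, hx⟩ : ∃ x : Pt, h • x = x := by
      have := (Nat.card_eq_one_iff_unique.mp hh.2).2
      obtain ⟨⟨x, hx⟩⟩ := this
      exact ⟨x, hx⟩
    have hxΩ : x ∈ orbit G x₀ := hΩ h hh.1 hh.2 x hx
    set y : orbit G x₀ := ⟨x, hxΩ⟩ with hy
    have hty : t y • x₀ = x := ht y
    have hg := hconj (t y)⁻¹ h hh
    rw [inv_inv] at hg
    refine ⟨(y, ⟨(t y)⁻¹ * h * t y, hg, ?_⟩), ?_⟩
    · rw [mul_smul, mul_smul, hty, hx, ← hty, inv_smul_smul]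
    · simp only [Subtype.mk.injEq]
      group

/-- **The count.**  `|Ω| = q + 1`. -/
theorem twg_card_orbit_eq (Z : Subgroup G) (hZ : ∀ z ∈ Z, ∀ x : Pt, z • x = x)
    (hfix : ∀ g : G, g ∉ Z → Nat.card (fixedBy Pt g) = 1 ∨ Nat.card (fixedBy Pt g) = 2)
    (x₀ : Pt) (q κ : ℕ) (hq : 4 ≤ q) (hκ1 : 1 ≤ κ) (hκ : κ ≤ q - 1)
    (hstab : Nat.card (stabilizer G x₀) = Nat.card Z * q * κ)
    (hpar : Nat.card {g : G // g ∉ Z ∧ Nat.card (fixedBy Pt g) = 1} =
      Nat.card Z * Nat.card (orbit G x₀) * (q - 1))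
    (hmod : Nat.card (orbit G x₀) % q = 1) (h2 : 2 ≤ Nat.card (orbit G x₀)) :
    Nat.card (orbit G x₀) = q + 1 := by
  classical
  set e := Nat.card Z with he
  set n := Nat.card (orbit G x₀) with hn
  have hepos : 0 < e := Nat.card_pos
  -- group order
  have hG : Nat.card G = n * (e * q * κ) := by
    rw [← hstab, hn]
    exact (twg_card_orbit_mul_card_stabilizer x₀).symm
  -- `n = 1 + m q`
  obtain ⟨m, hm1, hnm⟩ : ∃ m, 1 ≤ m ∧ n = 1 + m * q := by
    refine ⟨n / q, ?_, ?_⟩
    · rcases Nat.eq_zero_or_pos (n / q) with h0 | h0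
      · exfalso
        have := Nat.div_add_mod n q
        rw [h0, mul_zero, zero_add, hmod] at this
        omega
      · exact h0
    · have := Nat.div_add_mod n q
      rw [hmod] at this
      rw [mul_comm] at this
      omega
  -- the identity
  have hid := twg_orbit_identity Z hZ hfix
  rw [hpar, ← he] at hid
  set a : orbitRel.Quotient G Pt → ℤ := fun ω =>
    (Nat.card G : ℤ) - (e : ℤ) * (Nat.card (orbit G ω.out) : ℤ) with ha
  have hanonneg : ∀ ω, 0 ≤ a ω := by
    intro ω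
    obtain ⟨s, hs1, hs, h⟩ := twg_orbit_term Z hZ ω.out
    rcases h with h | h
    · exact h.ge
    · simp only [ha]; rw [← he] at h; linarith
  have hadich : ∀ ω, a ω = 0 ∨ (Nat.card G : ℤ) ≤ 2 * a ω := by
    intro ω
    obtain ⟨s, hs1, hs, h⟩ := twg_orbit_term Z hZ ω.out
    exact h
  set ω₀ : orbitRel.Quotient G Pt := Quotient.mk'' x₀ with hω₀
  have horb₀ : orbit G ω₀.out = orbit G x₀ := by
    rw [orbit_eq_iff]
    have : (Quotient.mk'' (Quotient.out ω₀) : orbitRel.Quotient G Pt) = Quotient.mk'' x₀ :=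
      Quotient.out_eq' ω₀
    exact Quotient.exact' this
  have ha₀ : a ω₀ = (Nat.card G : ℤ) - (e : ℤ) * (n : ℤ) := by
    simp only [ha]
    rw [horb₀]
  have hsplit := Finset.add_sum_erase Finset.univ a (Finset.mem_univ ω₀)
  rw [← hsplit, ha₀] at hid
  have hq2 : ((q - 1 : ℕ) : ℤ) = (q : ℤ) - 1 := by
    rw [Nat.cast_sub (by omega)]; simp
  have hrest : ∑ ω ∈ Finset.univ.erase ω₀, a ω =
      (Nat.card G : ℤ) - 2 * (e : ℤ) - (e : ℤ) * (n : ℤ) * ((q : ℤ) - 2) := by
    push_cast at hid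
    rw [hq2] at hid
    linarith
  -- the rest is nonzero
  have hGz : (Nat.card G : ℤ) = (n : ℤ) * ((e : ℤ) * (q : ℤ) * (κ : ℤ)) := by
    rw [hG]; push_cast; ring
  have hqz : (4 : ℤ) ≤ (q : ℤ) := by exact_mod_cast hq
  have hκz : (1 : ℤ) ≤ (κ : ℤ) := by exact_mod_cast hκ1
  have hnz : (2 : ℤ) ≤ (n : ℤ) := by exact_mod_cast h2
  have hez : (1 : ℤ) ≤ (e : ℤ) := by exact_mod_cast hepos
  have hrest_ne : ∑ ω ∈ Finset.univ.erase ω₀, a ω ≠ 0 := by
    rw [hrest, hGz]
    intro h0
    have h1 : (e : ℤ) * ((n : ℤ) * ((q : ℤ) * (κ : ℤ) - (q : ℤ) + 2) - 2) = 0 := by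
      linarith
    have h3 : (n : ℤ) * ((q : ℤ) * (κ : ℤ) - (q : ℤ) + 2) - 2 = 0 := by
      rcases mul_eq_zero.mp h1 with h | h
      · omega
      · exact h
    have h4 : (2 : ℤ) ≤ (q : ℤ) * (κ : ℤ) - (q : ℤ) + 2 := by nlinarith
    nlinarith
  obtain ⟨ω₂, hω₂mem, hω₂ne⟩ := Finset.exists_ne_zero_of_sum_ne_zero hrest_ne
  have hω₂big : (Nat.card G : ℤ) ≤ 2 * a ω₂ := (hadich ω₂).resolve_left hω₂ne
  -- all other terms vanish
  have hothers : ∀ ω ∈ (Finset.univ.erase ω₀).erase ω₂, a ω = 0 := by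
    intro ω hω
    by_contra hne
    have hbig : (Nat.card G : ℤ) ≤ 2 * a ω := (hadich ω).resolve_left hne
    have hsplit2 := Finset.add_sum_erase (Finset.univ.erase ω₀) a hω₂mem
    have hsplit3 := Finset.add_sum_erase ((Finset.univ.erase ω₀).erase ω₂) a hω
    have hnn : 0 ≤ ∑ x ∈ ((Finset.univ.erase ω₀).erase ω₂).erase ω, a x :=
      Finset.sum_nonneg fun i _ => hanonneg i
    have hlt : ∑ ω ∈ Finset.univ.erase ω₀, a ω < (Nat.card G : ℤ) := by
      rw [hrest]
      have h5 : 0 < (e : ℤ) * (n : ℤ) := by positivity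
      have h6 : 0 < (q : ℤ) - 2 := by linarith
      have : 0 < (e : ℤ) * (n : ℤ) * ((q : ℤ) - 2) := mul_pos h5 h6
      linarith
    linarith
  have hω₂val : a ω₂ = (Nat.card G : ℤ) - 2 * (e : ℤ) - (e : ℤ) * (n : ℤ) * ((q : ℤ) - 2) := by
    have hsplit2 := Finset.add_sum_erase (Finset.univ.erase ω₀) a hω₂mem
    rw [Finset.sum_eq_zero hothers, add_zero] at hsplit2
    rw [hsplit2, hrest]
  -- size of the second orbit
  obtain ⟨s, hs1, hs, -⟩ := twg_orbit_term Z hZ ω₂.out
  set N₂ := Nat.card (orbit G ω₂.out) with hN₂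
  have hN₂val : N₂ = 2 + n * (q - 2) := by
    simp only [ha] at hω₂val
    rw [← hN₂] at hω₂val
    have h1 : (e : ℤ) * (N₂ : ℤ) = (e : ℤ) * (2 + (n : ℤ) * ((q : ℤ) - 2)) := by linarith
    have h3 : (N₂ : ℤ) = 2 + (n : ℤ) * ((q : ℤ) - 2) :=
      mul_left_cancel₀ (by omega) h1
    have hq3 : ((q - 2 : ℕ) : ℤ) = (q : ℤ) - 2 := by
      rw [Nat.cast_sub (by omega)]; simp
    have : ((N₂ : ℕ) : ℤ) = ((2 + n * (q - 2) : ℕ) : ℤ) := by
      push_cast; rw [hq3]; exact h3
    exact_mod_cast this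
  have hdiv : N₂ * s = n * q * κ := by
    have h1 : e * (N₂ * s) = e * (n * q * κ) := by
      rw [← he] at hs
      calc e * (N₂ * s) = N₂ * (e * s) := by ring
        _ = Nat.card G := hs
        _ = n * (e * q * κ) := hG
        _ = e * (n * q * κ) := by ring
    exact Nat.eq_of_mul_eq_mul_left hepos h1
  rw [hnm] at hN₂val hdiv
  have := twg_numerics q m κ N₂ s hq hm1 hκ1 hκ hN₂val hdiv
  rw [hnm, this, one_mul, add_comm]

end Fermat.Agent.TW
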