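/-
P10 / S56 (Taylor–Wiles primes), package G8 (group theory): "Dickson-lite".

`H ≤ GL₂(k)`, `k` a finite field of odd characteristic `p`, every element of `H` has its
eigenvalues in `k`, `u_1 ∈ H`, some element of `H` maps `∞` to `0`, and `q = #{x | u_x ∈ H} ≥ 4`.
Then the orbit of `∞` under `H` is `{∞} ∪ A`, `A = {x | u_x ∈ H}`.
-/
import Mathlib
import Fermat.Agent.Lib.TW.Group.Count
import Fermat.Agent.Lib.TW.Group.Borel

set_option autoImplicit false

open Matrix OnePoint MulAction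

noncomputable section

namespace Fermat.Agent.TW

variable {k : Type*} [Field k] [DecidableEq k] (H : Subgroup (GL (Fin 2) k))

/-- the finite points of the orbit of `∞` -/
def twgOrbFin : Set k := {c | ((c : k) : OnePoint k) ∈ orbit H (∞ : OnePoint k)}

theorem twg_orbit_eq_insert :
    orbit H (∞ : OnePoint k) = insert ∞ ((fun c : k => (c : OnePoint k)) '' twgOrbFin H) := by
  ext x
  cases x with
  | infty =>
    simp only [Set.mem_insert_iff, true_or, iff_true]
    exact mem_orbit_self _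
  | coe c =>
    simp only [Set.mem_insert_iff, coe_ne_infty, Set.mem_image, coe_eq_coe, exists_eq_right,
      false_or]
    rfl

theorem twg_card_orbit [Finite k] :
    Nat.card (orbit H (∞ : OnePoint k)) = (twgOrbFin H).ncard + 1 := by
  rw [Nat.card_coe_set_eq, twg_orbit_eq_insert, Set.ncard_insert_of_notMem,
    Set.ncard_image_of_injective _ (fun a b h => coe_eq_coe.mp h)]
  rintro ⟨c, -, hc⟩
  exact coe_ne_infty c hc

/-- the finite part of the orbit is stable under translation by `A` -/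
theorem twgOrbFin_add {c x : k} (hc : c ∈ twgOrbFin H) (hx : x ∈ twgA H) :
    c + x ∈ twgOrbFin H := by
  show ((c + x : k) : OnePoint k) ∈ orbit H (∞ : OnePoint k)
  rw [← twgU_smul_coe]
  exact mem_orbit_of_mem_orbit (⟨twgU x, hx⟩ : H) hc

/-- `|Ω ∖ ∞|` is a multiple of `|A|` -/
theorem twg_card_dvd_ncard_twgOrbFin [Finite k] : Nat.card (twgA H) ∣ (twgOrbFin H).ncard := by
  have h1 : twgOrbFin H = (QuotientAddGroup.mk : k → k ⧸ twgA H) ⁻¹'
      ((QuotientAddGroup.mk : k → k ⧸ twgA H) '' twgOrbFin H) := by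
    ext c
    constructor
    · intro hc
      exact ⟨c, hc, rfl⟩
    · rintro ⟨c', hc', h⟩
      rw [QuotientAddGroup.eq] at h
      have := twgOrbFin_add H hc' h
      rwa [add_neg_cancel_left] at this
  rw [← Nat.card_coe_set_eq, h1,
    Nat.card_congr (QuotientAddGroup.preimageMkEquivAddSubgroupProdSet _ _), Nat.card_prod]
  exact Dvd.intro _ rfl

theorem twg_card_orbit_mod [Finite k] (hq : 2 ≤ Nat.card (twgA H)) :
    Nat.card (orbit H (∞ : OnePoint k)) % Nat.card (twgA H) = 1 := by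
  rw [twg_card_orbit]
  obtain ⟨m, hm⟩ := twg_card_dvd_ncard_twgOrbFin H
  rw [hm, Nat.mul_add_mod, Nat.mod_eq_of_lt hq]

theorem twg_two_le_card_orbit [Finite k] (h0 : ∃ h ∈ H, (h : GL (Fin 2) k) 0 0 = 0) :
    2 ≤ Nat.card (orbit H (∞ : OnePoint k)) := by
  rw [twg_card_orbit]
  obtain ⟨h, hh, h00⟩ := h0
  have : (0 : k) ∈ twgOrbFin H := by
    show ((0 : k) : OnePoint k) ∈ orbit H (∞ : OnePoint k)
    rw [← (twg_smul_infty_eq_zero_iff h).mpr h00]
    exact mem_orbit (∞ : OnePoint k) (⟨h, hh⟩ : H)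
  have hpos : 0 < (twgOrbFin H).ncard := by
    rw [Set.ncard_pos (Set.toFinite _)]
    exact ⟨0, this⟩
  omega

/-! ### Fixed points of the elements of `H` -/

omit [DecidableEq k] in
theorem twg_not_mem_twgZ_iff (h : H) :
    h ∉ twgZ H ↔ (h : GL (Fin 2) k).val ∉ Set.range (Matrix.scalar (Fin 2)) := by
  rw [mem_twgZ, twgIsScalar_iff]

theorem twg_card_fixedBy_eq_one [NeZero (2 : k)] (h : H) (hh : h ∉ twgZ H)
    (hd : (h : GL (Fin 2) k).val.discr = 0) : Nat.card (fixedBy (OnePoint k) h) = 1 := by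
  rw [twg_fixedBy_coe]
  exact twg_card_fixedBy_of_isParabolic _ ⟨(twg_not_mem_twgZ_iff H h).mp hh, hd⟩

theorem twg_card_fixedBy_eq_two [NeZero (2 : k)] (h : H) (δ : k) (hδ : δ ≠ 0)
    (hd : (h : GL (Fin 2) k).val.discr = δ ^ 2) : Nat.card (fixedBy (OnePoint k) h) = 2 := by
  rw [twg_fixedBy_coe]
  exact twg_card_fixedBy_of_discr_eq_sq _ δ hδ hd

theorem twg_card_fixedBy_dich [NeZero (2 : k)]
    (hsplit : ∀ h ∈ H, ∃ δ : k, (h : GL (Fin 2) k).val.discr = δ ^ 2) (h : H)
    (hh : h ∉ twgZ H) :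
    Nat.card (fixedBy (OnePoint k) h) = 1 ∨ Nat.card (fixedBy (OnePoint k) h) = 2 := by
  obtain ⟨δ, hδ⟩ := hsplit h h.2
  by_cases h0 : δ = 0
  · left
    apply twg_card_fixedBy_eq_one H h hh
    rw [hδ, h0]; ring
  · right
    exact twg_card_fixedBy_eq_two H h δ h0 hδ

/-- one fixed point iff the discriminant vanishes -/
theorem twg_discr_eq_zero_of_card_fixedBy [NeZero (2 : k)]
    (hsplit : ∀ h ∈ H, ∃ δ : k, (h : GL (Fin 2) k).val.discr = δ ^ 2) (h : H)
    (h1 : Nat.card (fixedBy (OnePoint k) h) = 1) : (h : GL (Fin 2) k).val.discr = 0 := by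
  obtain ⟨δ, hδ⟩ := hsplit h h.2
  by_cases h0 : δ = 0
  · rw [hδ, h0]; ring
  · have := twg_card_fixedBy_eq_two H h δ h0 hδ
    omega

omit [DecidableEq k] in
theorem twg_discr_of_upper (g : GL (Fin 2) k) (h10 : g 1 0 = 0) :
    g.val.discr = (g 0 0 - g 1 1) ^ 2 := by
  rw [Matrix.discr_fin_two, Matrix.trace_fin_two, Matrix.det_fin_two, h10]
  ring

/-- the parabolic elements of `H` fixing `∞` -/
theorem twg_card_par_infty [Finite k] [NeZero (2 : k)]
    (hsplit : ∀ h ∈ H, ∃ δ : k, (h : GL (Fin 2) k).val.discr = δ ^ 2) :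
    Nat.card {h : H // (h ∉ twgZ H ∧ Nat.card (fixedBy (OnePoint k) h) = 1) ∧
        h • (∞ : OnePoint k) = ∞} + Nat.card (twgZ H) =
      Nat.card (twgZ H) * Nat.card (twgA H) := by
  classical
  have hset : {h : H | (h ∉ twgZ H ∧ Nat.card (fixedBy (OnePoint k) h) = 1) ∧
      h • (∞ : OnePoint k) = ∞} = twgKer H \ (twgZ H : Set H) := by
    ext h
    simp only [Set.mem_ofPred_eq, Set.mem_sdiff, SetLike.mem_coe]
    constructor
    · rintro ⟨⟨hZ, h1⟩, hinf⟩
      have h10 : (h : GL (Fin 2) k) 1 0 = 0 := smul_infty_eq_self_iff.mp hinf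
      refine ⟨⟨h10, ?_⟩, hZ⟩
      have hd := twg_discr_eq_zero_of_card_fixedBy H hsplit h h1
      rw [twg_discr_of_upper _ h10, sq_eq_zero_iff, sub_eq_zero] at hd
      exact hd
    · rintro ⟨⟨h10, hd⟩, hZ⟩
      refine ⟨⟨hZ, ?_⟩, smul_infty_eq_self_iff.mpr h10⟩
      apply twg_card_fixedBy_eq_one H h hZ
      rw [twg_discr_of_upper _ h10, hd, sub_self]; ring
  rw [← twg_ncard_twgKer, ← Set.coe_ofPred, Nat.card_coe_set_eq, hset,
    Set.ncard_sdiff (twgZ_subset_twgKer H) (Set.toFinite _), ← Nat.card_coe_set_eq (s := (twgZ H : Set H))]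
  have hle : Nat.card ((twgZ H : Set H)) ≤ (twgKer H).ncard := by
    rw [Nat.card_coe_set_eq]
    exact Set.ncard_le_ncard (twgZ_subset_twgKer H) (Set.toFinite _)
  have : Nat.card ((twgZ H : Set H)) = Nat.card (twgZ H) := rfl
  omega

/-! ### The fixed point of a parabolic element of `H` lies in the orbit of `∞` -/

theorem twg_pow_smul_eq_self {G α : Type*} [Group G] [MulAction G α] (g : G) (x : α) (hx : g • x = x)
    (n : ℕ) : g ^ n • x = x := by
  induction n with
  | zero => simp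
  | succ n ih => rw [pow_succ, mul_smul, hx, ih]

omit [DecidableEq k] in
theorem twg_one_add_nilp_pow (n : Matrix (Fin 2) (Fin 2) k) (hn : n ^ 2 = 0) (j : ℕ) :
    (1 + n) ^ j = 1 + (j : k) • n := by
  induction j with
  | zero => simp
  | succ j ih =>
    rw [pow_succ, ih, mul_add, mul_one, add_mul, one_mul, smul_mul_assoc, ← sq, hn, smul_zero,
      add_zero, Nat.cast_succ, add_smul, one_smul, add_assoc]

omit [DecidableEq k] in
/-- a power of a parabolic element which is unipotent of order `p` -/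
theorem twg_exists_unipotent_pow [Finite k] [NeZero (2 : k)] (p : ℕ) [CharP k p]
    (g : GL (Fin 2) k) (hg : g.IsParabolic) :
    ∃ N : ℕ, (g ^ N).IsParabolic ∧ (g ^ N) ^ p = 1 := by
  classical
  let _ : Fintype k := Fintype.ofFinite k
  set a := g.val.parabolicEigenvalue with ha
  have ha0 : a ≠ 0 := Matrix.GeneralLinearGroup.parabolicEigenvalue_ne_zero hg
  set n : Matrix (Fin 2) (Fin 2) k := g.val - Matrix.scalar (Fin 2) a with hn
  have hn2 : n ^ 2 = 0 := hg.sub_eigenvalue_sq_eq_zero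
  have hn0 : n ≠ 0 := by
    intro h
    apply hg.1
    refine ⟨a, ?_⟩
    rw [hn, sub_eq_zero] at h
    exact h.symm
  set n₁ : Matrix (Fin 2) (Fin 2) k := a⁻¹ • n with hn₁
  have hn₁2 : n₁ ^ 2 = 0 := by
    rw [hn₁, smul_pow, hn2, smul_zero]
  have hn₁0 : n₁ ≠ 0 := by
    rw [hn₁]
    exact smul_ne_zero (inv_ne_zero ha0) hn0
  have hfac : g.val = Matrix.scalar (Fin 2) a * (1 + n₁) := by
    rw [mul_add, mul_one, hn₁, Matrix.scalar_apply, ← Matrix.smul_eq_diagonal_mul, smul_smul,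
      mul_inv_cancel₀ ha0, one_smul, hn, ← Matrix.scalar_apply]
    abel
  have hcomm : Commute (Matrix.scalar (Fin 2) a) (1 + n₁) :=
    Matrix.scalar_commute a (fun r' => mul_comm _ _) _
  refine ⟨Fintype.card k - 1, ?_, ?_⟩
  · have hpow : (g ^ (Fintype.card k - 1)).val = 1 + (-n₁) := by
      rw [Units.val_pow_eq_pow_val, hfac, hcomm.mul_pow, ← map_pow,
        FiniteField.pow_card_sub_one_eq_one a ha0, map_one, one_mul, twg_one_add_nilp_pow _ hn₁2,
        Nat.cast_sub Fintype.card_pos, FiniteField.cast_card_eq_zero]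
      simp
    show (g ^ (Fintype.card k - 1)).val.IsParabolic
    rw [Matrix.isParabolic_iff_exists]
    refine ⟨1, -n₁, ?_, neg_ne_zero.mpr hn₁0, ?_⟩
    · rw [hpow, map_one]
    · rw [neg_sq, hn₁2]
  · apply Units.ext
    have hpow : (g ^ (Fintype.card k - 1)).val = 1 + (-n₁) := by
      rw [Units.val_pow_eq_pow_val, hfac, hcomm.mul_pow, ← map_pow,
        FiniteField.pow_card_sub_one_eq_one a ha0, map_one, one_mul, twg_one_add_nilp_pow _ hn₁2,
        Nat.cast_sub Fintype.card_pos, FiniteField.cast_card_eq_zero]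
      simp
    rw [Units.val_pow_eq_pow_val, hpow, twg_one_add_nilp_pow _ (by rw [neg_sq, hn₁2]),
      CharP.cast_eq_zero, zero_smul, add_zero, Units.val_one]

/-- the fixed point of a parabolic element of `H` lies in the orbit of `∞`, if the order of the
orbit is prime to `p` -/
theorem twg_fixed_mem_orbit [Finite k] [NeZero (2 : k)] (p : ℕ) [Fact p.Prime] [CharP k p]
    (hsplit : ∀ h ∈ H, ∃ δ : k, (h : GL (Fin 2) k).val.discr = δ ^ 2)
    (hnp : ¬ p ∣ Nat.card (orbit H (∞ : OnePoint k))) (h : H) (hh : h ∉ twgZ H)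
    (h1 : Nat.card (fixedBy (OnePoint k) h) = 1) (x : OnePoint k) (hx : h • x = x) :
    x ∈ orbit H (∞ : OnePoint k) := by
  have hpar : (h : GL (Fin 2) k).IsParabolic :=
    ⟨(twg_not_mem_twgZ_iff H h).mp hh, twg_discr_eq_zero_of_card_fixedBy H hsplit h h1⟩
  obtain ⟨N, hNpar, hNp⟩ := twg_exists_unipotent_pow p (h : GL (Fin 2) k) hpar
  set v : H := h ^ N with hv
  have hvcoe : (v : GL (Fin 2) k) = (h : GL (Fin 2) k) ^ N := by
    rw [hv, Subgroup.coe_pow]
  have hvp : v ^ p = 1 := by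
    apply Subtype.ext
    rw [Subgroup.coe_pow, hvcoe, hNp, Subgroup.coe_one]
  have hv1 : v ≠ 1 := by
    intro h1'
    have h2 : (v : GL (Fin 2) k) = 1 := by rw [h1', Subgroup.coe_one]
    rw [hvcoe] at h2
    apply hNpar.1
    refine ⟨1, ?_⟩
    rw [h2, map_one, Units.val_one]
  have hord : orderOf v = p := orderOf_eq_prime hvp hv1
  have hpg : IsPGroup p (Subgroup.zpowers v) := by
    apply IsPGroup.of_card (n := 1)
    rw [Nat.card_zpowers, hord, pow_one]
  obtain ⟨y, hy⟩ := hpg.nonempty_fixed_point_of_prime_not_dvd_card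
    (orbit H (∞ : OnePoint k)) hnp
  have hvy : v • (y : OnePoint k) = y := by
    have := hy ⟨v, Subgroup.mem_zpowers v⟩
    exact congrArg Subtype.val this
  have hvx : v • x = x := by
    rw [hv]
    exact twg_pow_smul_eq_self h x hx N
  have hvy' : (v : GL (Fin 2) k) • (y : OnePoint k) = y := hvy
  have hvx' : (v : GL (Fin 2) k) • x = x := hvx
  rw [hvcoe, hNpar.smul_eq_self_iff] at hvy' hvx'
  rw [hvx', ← hvy']
  exact y.2

/-! ### The main theorem -/

omit [DecidableEq k] in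
theorem twg_neZero_two (p : ℕ) [Fact p.Prime] [CharP k p] (hp2 : p ≠ 2) : NeZero (2 : k) := by
  constructor
  intro h
  have h2 : ((2 : ℕ) : k) = 0 := by exact_mod_cast h
  rw [CharP.cast_eq_zero_iff k p] at h2
  exact hp2 ((Nat.prime_dvd_prime_iff_eq (Fact.out : p.Prime) Nat.prime_two).mp h2)

omit [DecidableEq k] in
theorem twg_prime_dvd_card_twgA [Finite k] (p : ℕ) [Fact p.Prime] [CharP k p]
    (hU : twgU 1 ∈ H) : p ∣ Nat.card (twgA H) := by
  have h1 : addOrderOf (⟨1, hU⟩ : twgA H) = p := by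
    rw [← AddSubgroup.addOrderOf_coe]
    exact CharP.eq k (CharP.addOrderOf_one k) inferInstance
  rw [← h1]
  exact addOrderOf_dvd_natCard _

/-- **Dickson-lite.**  The orbit of `∞` is `{∞} ∪ A`. -/
theorem twgOrbFin_eq [Finite k] (p : ℕ) [Fact p.Prime] [CharP k p] (hp2 : p ≠ 2)
    (hsplit : ∀ h ∈ H, ∃ δ : k, (h : GL (Fin 2) k).val.discr = δ ^ 2)
    (hU : twgU 1 ∈ H) (h0 : ∃ h ∈ H, (h : GL (Fin 2) k) 0 0 = 0)
    (hq : 4 ≤ Nat.card (twgA H)) : twgOrbFin H = (twgA H : Set k) := by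
  classical
  have := twg_neZero_two (k := k) p hp2
  have : Finite (OnePoint k) := inferInstanceAs (Finite (Option k))
  let _ : Fintype H := Fintype.ofFinite H
  let _ : Fintype (OnePoint k) := Fintype.ofFinite _
  set q := Nat.card (twgA H) with hqdef
  have hmod := twg_card_orbit_mod H (by omega : 2 ≤ Nat.card (twgA H))
  have hpq := twg_prime_dvd_card_twgA H p hU
  have hnp : ¬ p ∣ Nat.card (orbit H (∞ : OnePoint k)) := by
    intro hdvd
    have h1 := Nat.div_add_mod (Nat.card (orbit H (∞ : OnePoint k))) q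
    rw [hmod] at h1
    have h2 : p ∣ q * (Nat.card (orbit H (∞ : OnePoint k)) / q) := Dvd.dvd.mul_right hpq _
    have h3 : p ∣ 1 := by
      have := (Nat.dvd_add_right h2).mp (h1 ▸ hdvd)
      exact this
    exact (Fact.out : p.Prime).one_lt.ne' (Nat.dvd_one.mp h3)
  have hpar : Nat.card {g : H // g ∉ twgZ H ∧ Nat.card (fixedBy (OnePoint k) g) = 1} =
      Nat.card (twgZ H) * Nat.card (orbit H (∞ : OnePoint k)) * (q - 1) := by
    rw [twg_card_par (twgZ H) (∞ : OnePoint k)
      (fun g hg h1 x hx => twg_fixed_mem_orbit H p hsplit hnp g hg h1 x hx)]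
    have h1 := twg_card_par_infty H hsplit
    rw [← hqdef] at h1
    have h2 : Nat.card {h : H // (h ∉ twgZ H ∧ Nat.card (fixedBy (OnePoint k) h) = 1) ∧
        h • (∞ : OnePoint k) = ∞} = Nat.card (twgZ H) * (q - 1) := by
      have h3 : Nat.card (twgZ H) * (q - 1) + Nat.card (twgZ H) = Nat.card (twgZ H) * q := by
        have : q = (q - 1) + 1 := by omega
        conv_rhs => rw [this, mul_add, mul_one]
      omega
    rw [h2]; ring
  have hcount := twg_card_orbit_eq (G := H) (Pt := OnePoint k) (twgZ H)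
    (fun z hz x => twgZ_smul H hz x) (fun g hg => twg_card_fixedBy_dich H hsplit g hg)
    (∞ : OnePoint k) q (Nat.card (twgAlpha H).range) hq (twg_one_le_card_range_twgAlpha H)
    (twg_card_range_twgAlpha_le H hU) (twg_card_stabilizer H) hpar hmod
    (twg_two_le_card_orbit H h0)
  rw [twg_card_orbit] at hcount
  have hsub : (twgA H : Set k) ⊆ twgOrbFin H := by
    intro x hx
    obtain ⟨h, hh, h00⟩ := h0
    have h0mem : (0 : k) ∈ twgOrbFin H := by
      show ((0 : k) : OnePoint k) ∈ orbit H (∞ : OnePoint k)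
      rw [← (twg_smul_infty_eq_zero_iff h).mpr h00]
      exact mem_orbit (∞ : OnePoint k) (⟨h, hh⟩ : H)
    have := twgOrbFin_add H h0mem hx
    rwa [zero_add] at this
  symm
  apply Set.eq_of_subset_of_ncard_le hsub _ (Set.toFinite _)
  have : (twgA H : Set k).ncard = q := by
    rw [← Nat.card_coe_set_eq]; rfl
  omega

/-- every element of `H` maps `∞` to `∞` or into `A` -/
theorem twg_smul_infty_mem [Finite k] (p : ℕ) [Fact p.Prime] [CharP k p] (hp2 : p ≠ 2)
    (hsplit : ∀ h ∈ H, ∃ δ : k, (h : GL (Fin 2) k).val.discr = δ ^ 2)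
    (hU : twgU 1 ∈ H) (h0 : ∃ h ∈ H, (h : GL (Fin 2) k) 0 0 = 0)
    (hq : 4 ≤ Nat.card (twgA H)) {g : GL (Fin 2) k} (hg : g ∈ H) :
    g • (∞ : OnePoint k) = ∞ ∨ ∃ x ∈ twgA H, g • (∞ : OnePoint k) = ((x : k) : OnePoint k) := by
  have h1 : g • (∞ : OnePoint k) ∈ orbit H (∞ : OnePoint k) :=
    mem_orbit (∞ : OnePoint k) (⟨g, hg⟩ : H)
  rcases hgx : g • (∞ : OnePoint k) with _ | c
  · left; rfl
  · right
    rw [hgx] at h1
    have h2 : c ∈ twgOrbFin H := h1
    rw [twgOrbFin_eq H p hp2 hsplit hU h0 hq] at h2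
    exact ⟨c, h2, rfl⟩

end Fermat.Agent.TW
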