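/-
P10 / S56 (Taylor–Wiles primes), package G8 (group theory): consequences of "Dickson-lite":
the Weyl element, the torus, the scalars `det h` of `H`; `A` is closed under multiplication.
-/
import Mathlib
import Fermat.Agent.Lib.TW.Group.DicksonLite

set_option autoImplicit false

open Matrix OnePoint MulAction

noncomputable section

namespace Fermat.Agent.TW

variable {k : Type*} [Field k] [DecidableEq k] (H : Subgroup (GL (Fin 2) k))

/-- the hypotheses of "Dickson-lite", bundled -/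
structure TwgDickson (p : ℕ) : Prop where
  prime : p.Prime
  charP : CharP k p
  p_ne_two : p ≠ 2
  finite : Finite k
  split : ∀ h ∈ H, ∃ δ : k, (h : GL (Fin 2) k).val.discr = δ ^ 2
  u_one : twgU 1 ∈ H
  zero : ∃ h ∈ H, (h : GL (Fin 2) k) 0 0 = 0
  four_le : 4 ≤ Nat.card (twgA H)

variable {H} {p : ℕ}

theorem TwgDickson.smul_infty (D : TwgDickson H p) {g : GL (Fin 2) k} (hg : g ∈ H) :
    g • (∞ : OnePoint k) = ∞ ∨ ∃ x ∈ twgA H, g • (∞ : OnePoint k) = ((x : k) : OnePoint k) := by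
  have := D.finite
  have : Fact p.Prime := ⟨D.prime⟩
  have := D.charP
  exact twg_smul_infty_mem H p D.p_ne_two D.split D.u_one D.zero D.four_le hg

omit [DecidableEq k] in
theorem TwgDickson.one_mem (D : TwgDickson H p) : (1 : k) ∈ twgA H := D.u_one

/-- `l_y ∈ H`, `y ≠ 0`, implies `1/y ∈ A` -/
theorem TwgDickson.inv_mem_of_twgL (D : TwgDickson H p) {y : k} (hy : y ≠ 0)
    (hL : twgL y ∈ H) : y⁻¹ ∈ twgA H := by
  rcases D.smul_infty hL with h | ⟨x, hx, h⟩
  · rw [twgL_smul_infty y hy] at h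
    exact absurd h (coe_ne_infty _)
  · rw [twgL_smul_infty y hy, coe_eq_coe] at h
    rw [h]; exact hx

omit [DecidableEq k] in
/-- conjugating `u_x` by an element with `g 0 0 = 0` -/
theorem twg_zero_mul_twgU (g : GL (Fin 2) k) (h00 : g 0 0 = 0) (x : k) :
    g * twgU x = twgL (g 1 0 / g 0 1 * x) * g := by
  have hdet := twg_det_ne_zero g
  rw [h00, zero_mul, zero_sub, neg_ne_zero] at hdet
  have h01 : g 0 1 ≠ 0 := left_ne_zero_of_mul hdet
  apply twg_ext
  · simp [twg_mul_00, h00]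
  · simp [twg_mul_01, h00]
  · simp [twg_mul_10, h00]
  · simp only [twg_mul_11, twgU_01, twgU_11, twgL_10, twgL_11, mul_one, one_mul]
    field_simp

/-- `l_{-1} ∈ H` -/
theorem TwgDickson.twgL_neg_one_mem (D : TwgDickson H p) : twgL (-1 : k) ∈ H := by
  obtain ⟨g, hg, h00⟩ := D.zero
  have hdet := twg_det_ne_zero g
  rw [h00, zero_mul, zero_sub, neg_ne_zero] at hdet
  have h01 : g 0 1 ≠ 0 := left_ne_zero_of_mul hdet
  have h10 : g 1 0 ≠ 0 := right_ne_zero_of_mul hdet
  set s := g 1 0 / g 0 1 with hs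
  have hs0 : s ≠ 0 := div_ne_zero h10 h01
  -- `l_{s x} ∈ H` for `x ∈ A`
  have hL : ∀ x ∈ twgA H, twgL (s * x) ∈ H := by
    intro x hx
    have h1 := twg_zero_mul_twgU g h00 x
    have h2 : twgL (s * x) = g * twgU x * g⁻¹ := by rw [h1, mul_inv_cancel_right]
    rw [h2]
    exact H.mul_mem (H.mul_mem hg hx) (H.inv_mem hg)
  have h1 : s⁻¹ ∈ twgA H := by
    have := D.inv_mem_of_twgL (y := s * 1) (by rw [mul_one]; exact hs0) (hL 1 D.one_mem)
    rwa [mul_one] at this
  have h2 := hL (-s⁻¹) ((twgA H).neg_mem h1)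
  rwa [mul_neg, mul_inv_cancel₀ hs0] at h2

/-- the Weyl element lies in `H` -/
theorem TwgDickson.twgW_mem (D : TwgDickson H p) : (twgW : GL (Fin 2) k) ∈ H := by
  rw [twgW_eq]
  exact H.mul_mem (H.mul_mem D.u_one D.twgL_neg_one_mem) D.u_one

/-- `l_y ∈ H` for `y ∈ A` -/
theorem TwgDickson.twgL_mem (D : TwgDickson H p) {y : k} (hy : y ∈ twgA H) : twgL y ∈ H := by
  have h1 := twgW_mul_twgU (-y)
  rw [neg_neg] at h1
  have h2 : twgL y = twgW * twgU (-y) * twgW⁻¹ := by rw [h1, mul_inv_cancel_right]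
  rw [h2]
  exact H.mul_mem (H.mul_mem D.twgW_mem ((twgA H).neg_mem hy)) (H.inv_mem D.twgW_mem)

/-- `A ∖ 0` is closed under inversion -/
theorem TwgDickson.inv_mem (D : TwgDickson H p) {t : k} (ht : t ∈ twgA H) : t⁻¹ ∈ twgA H := by
  by_cases h0 : t = 0
  · rw [h0, _root_.inv_zero]; exact (twgA H).zero_mem
  · exact D.inv_mem_of_twgL h0 (D.twgL_mem ht)

/-- the torus: `diag(t, 1/t) ∈ H` for `t ∈ A ∖ 0` -/
theorem TwgDickson.twgD_mem (D : TwgDickson H p) {t : k} (ht : t ∈ twgA H) (ht0 : t ≠ 0) :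
    twgD t t⁻¹ ht0 (inv_ne_zero ht0) ∈ H := by
  have h1 := twgD_mul_twgW t ht0
  have h2 : twgD t t⁻¹ ht0 (inv_ne_zero ht0) =
      twgU t * twgL (-t⁻¹) * twgU t * (twgW : GL (Fin 2) k)⁻¹ := by
    rw [← h1, mul_inv_cancel_right]
  rw [h2]
  exact H.mul_mem (H.mul_mem (H.mul_mem ht (D.twgL_mem ((twgA H).neg_mem (D.inv_mem ht)))) ht)
    (H.inv_mem D.twgW_mem)

/-- `t² x ∈ A` -/
theorem TwgDickson.sq_mul_mem (D : TwgDickson H p) {t x : k} (ht : t ∈ twgA H)
    (hx : x ∈ twgA H) : t ^ 2 * x ∈ twgA H := by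
  by_cases ht0 : t = 0
  · rw [ht0]; simp [(twgA H).zero_mem]
  · have hD := D.twgD_mem ht ht0
    have h1 := twg_upper_mul_twgU (twgD t t⁻¹ ht0 (inv_ne_zero ht0)) rfl x
    have h2 : twgU (t ^ 2 * x) = twgD t t⁻¹ ht0 (inv_ne_zero ht0) * twgU x *
        (twgD t t⁻¹ ht0 (inv_ne_zero ht0))⁻¹ := by
      rw [h1, mul_inv_cancel_right]
      congr 1
      simp only [twgD_00, twgD_11]
      field_simp
    show twgU (t ^ 2 * x) ∈ H
    rw [h2]
    exact H.mul_mem (H.mul_mem hD hx) (H.inv_mem hD)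

/-- `A` is closed under multiplication -/
theorem TwgDickson.mul_mem (D : TwgDickson H p) {t x : k} (ht : t ∈ twgA H)
    (hx : x ∈ twgA H) : t * x ∈ twgA H := by
  have := D.finite
  have : Fact p.Prime := ⟨D.prime⟩
  have := D.charP
  have h2 : (2 : k) ≠ 0 := (twg_neZero_two (k := k) p D.p_ne_two).ne
  have h1 := D.sq_mul_mem ((twgA H).add_mem ht D.one_mem) hx
  have h3 := D.sq_mul_mem ht hx
  have h4 : 2 * (t * x) ∈ twgA H := by
    have : 2 * (t * x) = (t + 1) ^ 2 * x - t ^ 2 * x - x := by ring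
    rw [this]
    exact (twgA H).sub_mem ((twgA H).sub_mem h1 h3) hx
  -- divide by two
  have h5 : ∀ y : k, 2 * y ∈ twgA H → y ∈ twgA H := by
    intro y hy
    have hp := D.prime
    have hodd : p % 2 = 1 := hp.eq_two_or_odd.resolve_left D.p_ne_two
    have h6 : (((p + 1) / 2 : ℕ) : k) * (2 * y) = y := by
      have h7 : (((p + 1) / 2 : ℕ) : k) * 2 = 1 := by
        have h8 : (p + 1) / 2 * 2 = p + 1 := by omega
        have h9 : (((p + 1) / 2 * 2 : ℕ) : k) = ((p + 1 : ℕ) : k) := by rw [h8]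
        rw [Nat.cast_mul, Nat.cast_add, CharP.cast_eq_zero k p] at h9
        simpa using h9
      rw [← mul_assoc, h7, one_mul]
    rw [← h6, ← nsmul_eq_mul]
    exact (twgA H).nsmul_mem hy _
  exact h5 _ h4

theorem TwgDickson.orbFin_eq (D : TwgDickson H p) : twgOrbFin H = (twgA H : Set k) := by
  have := D.finite
  have : Fact p.Prime := ⟨D.prime⟩
  have := D.charP
  exact twgOrbFin_eq H p D.p_ne_two D.split D.u_one D.zero D.four_le

/-- an upper triangular element of `H` maps `A` into `A` -/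
theorem TwgDickson.upper_smul_mem (D : TwgDickson H p) {b : GL (Fin 2) k} (hb : b ∈ H)
    (h10 : b 1 0 = 0) {z : k} (hz : z ∈ twgA H) : (b 0 0 * z + b 0 1) / b 1 1 ∈ twgA H := by
  have h1 : ((z : k) : OnePoint k) ∈ orbit H (∞ : OnePoint k) := by
    have : z ∈ twgOrbFin H := by rw [D.orbFin_eq]; exact hz
    exact this
  have h2 := mem_orbit_of_mem_orbit (⟨b, hb⟩ : H) h1
  have h3 : (⟨b, hb⟩ : H) • ((z : k) : OnePoint k) = b • ((z : k) : OnePoint k) := rfl
  rw [h3, twg_upper_smul_coe b h10] at h2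
  have : (b 0 0 * z + b 0 1) / b 1 1 ∈ twgOrbFin H := h2
  rwa [D.orbFin_eq] at this

/-- conjugation by an upper triangular element of `H` multiplies `A` by `a/d` -/
theorem twg_upper_conj_mem {b : GL (Fin 2) k} (hb : b ∈ H) (h10 : b 1 0 = 0) {z : k}
    (hz : z ∈ twgA H) : b 0 0 / b 1 1 * z ∈ twgA H := by
  have h1 := twg_upper_mul_twgU b h10 z
  have h2 : twgU (b 0 0 / b 1 1 * z) = b * twgU z * b⁻¹ := by rw [h1, mul_inv_cancel_right]
  show twgU _ ∈ H
  rw [h2]
  exact H.mul_mem (H.mul_mem hb hz) (H.inv_mem hb)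

omit [DecidableEq k] in
theorem twgW_mul_twgD (a d : k) (ha : a ≠ 0) (hd : d ≠ 0) :
    twgW * twgD a d ha hd = twgD d a hd ha * twgW := by
  apply twg_ext <;> simp [twg_mul_00, twg_mul_01, twg_mul_10, twg_mul_11]

omit [DecidableEq k] in
theorem twgD_mul_twgD (a d a' d' : k) (ha : a ≠ 0) (hd : d ≠ 0) (ha' : a' ≠ 0) (hd' : d' ≠ 0) :
    twgD a d ha hd * twgD a' d' ha' hd' =
      twgD (a * a') (d * d') (mul_ne_zero ha ha') (mul_ne_zero hd hd') := by
  apply twg_ext <;> simp [twg_mul_00, twg_mul_01, twg_mul_10, twg_mul_11]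

/-- for an upper triangular `b ∈ H`, the scalar `det b` lies in `H` -/
theorem TwgDickson.scalar_mem_of_upper (D : TwgDickson H p) {b : GL (Fin 2) k} (hb : b ∈ H)
    (h10 : b 1 0 = 0) :
    twgD (b 0 0 * b 1 1) (b 0 0 * b 1 1)
      (mul_ne_zero (twg_diag_ne_zero b h10).1 (twg_diag_ne_zero b h10).2)
      (mul_ne_zero (twg_diag_ne_zero b h10).1 (twg_diag_ne_zero b h10).2) ∈ H := by
  have := D.finite
  obtain ⟨ha, hd⟩ := twg_diag_ne_zero b h10
  by_cases had : b 0 0 = b 1 1
  · obtain ⟨-, hS⟩ := twg_split_mem H hb h10 had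
    have := H.mul_mem hS hS
    rw [twgD_mul_twgD] at this
    convert this using 2 <;> rw [← had]
  · -- find a fixed point in `A`
    set α := b 0 0 / b 1 1 with hα
    have hα1 : 1 - α ≠ 0 := by
      rw [sub_ne_zero, hα, Ne, eq_comm, div_eq_one_iff_eq hd]
      exact had
    have hβ : b 0 1 / b 1 1 ∈ twgA H := by
      have := D.upper_smul_mem hb h10 (twgA H).zero_mem
      rwa [mul_zero, zero_add] at this
    let f : twgA H → twgA H := fun z =>
      ⟨(1 - α) * (z : k), by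
        rw [sub_mul, one_mul]
        exact (twgA H).sub_mem z.2 (twg_upper_conj_mem hb h10 z.2)⟩
    have hf : Function.Injective f := by
      intro z z' h
      have := congrArg (fun x : twgA H => (x : k)) h
      simp only [f] at this
      exact Subtype.ext (mul_left_cancel₀ hα1 this)
    obtain ⟨z, hz⟩ := (Finite.injective_iff_surjective.mp hf) ⟨b 0 1 / b 1 1, hβ⟩
    have hz' : (1 - α) * (z : k) = b 0 1 / b 1 1 := congrArg (fun x : twgA H => (x : k)) hz
    have hθ : twgU (-(z : k)) * b * twgU (z : k) = twgD (b 0 0) (b 1 1) ha hd := by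
      apply twg_ext
      · simp [twg_mul_00, twg_mul_01, twg_mul_10, twg_mul_11, h10]
      · simp only [twg_mul_00, twg_mul_01, twg_mul_10, twg_mul_11, h10, twgU_00, twgU_01,
          twgU_10, twgU_11, twgD_01]
        rw [hα] at hz'
        field_simp at hz'
        linear_combination -hz'
      · simp [twg_mul_00, twg_mul_01, twg_mul_10, twg_mul_11, h10]
      · simp [twg_mul_00, twg_mul_01, twg_mul_10, twg_mul_11, h10]
    have hθH : twgD (b 0 0) (b 1 1) ha hd ∈ H := by
      rw [← hθ]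
      exact H.mul_mem (H.mul_mem ((twgA H).neg_mem z.2) hb) z.2
    have hθ' : twgD (b 1 1) (b 0 0) hd ha ∈ H := by
      have h1 := twgW_mul_twgD (b 0 0) (b 1 1) ha hd
      have h2 : twgD (b 1 1) (b 0 0) hd ha =
          twgW * twgD (b 0 0) (b 1 1) ha hd * (twgW : GL (Fin 2) k)⁻¹ := by
        rw [h1, mul_inv_cancel_right]
      rw [h2]
      exact H.mul_mem (H.mul_mem D.twgW_mem hθH) (H.inv_mem D.twgW_mem)
    have := H.mul_mem hθH hθ'
    rw [twgD_mul_twgD] at this
    convert this using 2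
    rw [mul_comm]

/-- the scalar matrix with entry `a` -/
def twgS (a : kˣ) : GL (Fin 2) k := twgD (a : k) (a : k) a.ne_zero a.ne_zero

omit [DecidableEq k] in
theorem twgS_isScalar (a : kˣ) : TwgIsScalar (twgS a) := ⟨rfl, rfl, rfl⟩

omit [DecidableEq k] in
theorem twg_det_upper (b : GL (Fin 2) k) (h10 : b 1 0 = 0) :
    ((Matrix.GeneralLinearGroup.det b : kˣ) : k) = b 0 0 * b 1 1 := by
  rw [Matrix.GeneralLinearGroup.val_det_apply, Matrix.det_fin_two, h10, mul_zero, sub_zero]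

/-- **Scalars.**  `det g ∈ H` (as a scalar matrix) for every `g ∈ H`. -/
theorem TwgDickson.scalar_det_mem (D : TwgDickson H p) {g : GL (Fin 2) k} (hg : g ∈ H) :
    twgS (Matrix.GeneralLinearGroup.det g) ∈ H := by
  -- an upper triangular element with the same determinant
  obtain ⟨b, hb, h10, hdet⟩ : ∃ b ∈ H, b 1 0 = 0 ∧
      Matrix.GeneralLinearGroup.det b = Matrix.GeneralLinearGroup.det g := by
    rcases D.smul_infty hg with h | ⟨x, hx, h⟩
    · exact ⟨g, hg, smul_infty_eq_self_iff.mp h, rfl⟩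
    · refine ⟨twgW * twgU (-x) * g, H.mul_mem (H.mul_mem D.twgW_mem ((twgA H).neg_mem hx)) hg,
        ?_, ?_⟩
      · rw [← smul_infty_eq_self_iff, mul_smul, mul_smul, h, twgU_smul_coe, add_neg_cancel,
          twgW_smul_zero]
      · rw [map_mul, map_mul]
        have h1 : Matrix.GeneralLinearGroup.det (twgW : GL (Fin 2) k) = 1 := by
          apply Units.ext
          rw [Matrix.GeneralLinearGroup.val_det_apply, Matrix.det_fin_two]
          simp
        have h2 : Matrix.GeneralLinearGroup.det (twgU (-x) : GL (Fin 2) k) = 1 := by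
          apply Units.ext
          rw [Matrix.GeneralLinearGroup.val_det_apply, Matrix.det_fin_two]
          simp
        rw [h1, h2, one_mul, one_mul]
  have h1 := D.scalar_mem_of_upper hb h10
  rw [← hdet]
  convert h1 using 1
  apply twg_ext
  · show ((Matrix.GeneralLinearGroup.det b : kˣ) : k) = _
    rw [twg_det_upper b h10]; rfl
  · rfl
  · rfl
  · show ((Matrix.GeneralLinearGroup.det b : kˣ) : k) = _
    rw [twg_det_upper b h10]; rfl

end Fermat.Agent.TW
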