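/-
P10 / S56 (Taylor–Wiles primes), package G8 (group theory): the representation `ad ⊗ det` of
`GL₂(k)` on `M₂(k)`, and the index of the upper unipotent subgroup of `H`.
-/
import Mathlib
import Fermat.Agent.Lib.TW.Group.Coh
import Fermat.Agent.Lib.TW.Group.Structure

set_option autoImplicit false
set_option linter.unusedSimpArgs false

open Matrix OnePoint MulAction

noncomputable section

namespace Fermat.Agent.TW

variable {k : Type*} [Field k]

/-- the action `g · M = det(g) g M g⁻¹` of `GL₂(k)` on `M₂(k)` -/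
def twgAdDet : Representation k (GL (Fin 2) k) (Matrix (Fin 2) (Fin 2) k) where
  toFun g :=
    { toFun := fun M => ((Matrix.GeneralLinearGroup.det g : kˣ) : k) • (g.val * M * (g⁻¹).val)
      map_add' := fun M N => by rw [mul_add, add_mul, smul_add]
      map_smul' := fun a M => by
        simp only [RingHom.id_apply, Matrix.mul_smul, Matrix.smul_mul]
        rw [smul_comm] }
  map_one' := by
    ext M : 1
    simp
  map_mul' g h := by
    ext M : 1
    simp only [LinearMap.coe_mk, AddHom.coe_mk, Module.End.mul_apply, map_mul, Units.val_mul,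
      _root_.mul_inv_rev, Matrix.mul_smul, Matrix.smul_mul, smul_smul]
    congr 1
    simp only [mul_assoc]

theorem twgAdDet_apply (g : GL (Fin 2) k) (M : Matrix (Fin 2) (Fin 2) k) :
    twgAdDet g M = ((Matrix.GeneralLinearGroup.det g : kˣ) : k) • (g.val * M * (g⁻¹).val) := rfl

theorem twg_det_twgU (x : k) : Matrix.GeneralLinearGroup.det (twgU x : GL (Fin 2) k) = 1 := by
  apply Units.ext
  rw [Matrix.GeneralLinearGroup.val_det_apply, Matrix.det_fin_two]
  simp

theorem twg_det_twgD (a d : k) (ha : a ≠ 0) (hd : d ≠ 0) :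
    ((Matrix.GeneralLinearGroup.det (twgD a d ha hd : GL (Fin 2) k) : kˣ) : k) = a * d := by
  rw [Matrix.GeneralLinearGroup.val_det_apply, Matrix.det_fin_two]
  simp

/-- conjugation by `u_x` -/
theorem twgAdDet_twgU (x : k) (M : Matrix (Fin 2) (Fin 2) k) :
    twgAdDet (twgU x) M =
      !![M 0 0 + x * M 1 0, M 0 1 + x * M 1 1 - x * M 0 0 - x ^ 2 * M 1 0;
        M 1 0, M 1 1 - x * M 1 0] := by
  rw [twgAdDet_apply, twg_det_twgU, Units.val_one, one_smul, ← twgU_neg]
  have h1 : (twgU x).val = !![1, x; 0, 1] := rfl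
  have h2 : (twgU (-x)).val = !![1, -x; 0, 1] := rfl
  rw [h1, h2]
  conv_lhs => rw [Matrix.eta_fin_two M]
  rw [Matrix.mul_fin_two, Matrix.mul_fin_two]
  ext i j
  fin_cases i <;> fin_cases j <;> simp <;> ring

/-- conjugation by `diag(a, d)` -/
theorem twgAdDet_twgD (a d : k) (ha : a ≠ 0) (hd : d ≠ 0) (M : Matrix (Fin 2) (Fin 2) k) :
    twgAdDet (twgD a d ha hd) M =
      (a * d) • !![M 0 0, a / d * M 0 1; d / a * M 1 0, M 1 1] := by
  have hinv : (twgD a d ha hd)⁻¹ = twgD a⁻¹ d⁻¹ (inv_ne_zero ha) (inv_ne_zero hd) := by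
    rw [inv_eq_iff_mul_eq_one, twgD_mul_twgD]
    apply twg_ext <;> simp [ha, hd]
  rw [twgAdDet_apply, twg_det_twgD, hinv]
  congr 1
  have h1 : (twgD a d ha hd).val = !![a, 0; 0, d] := rfl
  have h2 : (twgD a⁻¹ d⁻¹ (inv_ne_zero ha) (inv_ne_zero hd)).val = !![a⁻¹, 0; 0, d⁻¹] := rfl
  rw [h1, h2]
  conv_lhs => rw [Matrix.eta_fin_two M]
  rw [Matrix.mul_fin_two, Matrix.mul_fin_two]
  ext i j
  fin_cases i <;> fin_cases j <;> simp <;> field_simp

/-- a scalar matrix acts by its determinant -/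
theorem twgAdDet_scalar (g : GL (Fin 2) k) (hg : TwgIsScalar g) (M : Matrix (Fin 2) (Fin 2) k) :
    twgAdDet g M = ((Matrix.GeneralLinearGroup.det g : kˣ) : k) • M := by
  rw [twgAdDet_apply]
  congr 1
  have h1 : g.val * M = M * g.val := by
    obtain ⟨g01, g10, gd⟩ := hg
    ext i j
    fin_cases i <;> fin_cases j <;>
      simp [Matrix.mul_apply, Fin.sum_univ_two, g01, g10, gd, mul_comm]
  rw [h1, mul_assoc, ← Units.val_mul, mul_inv_cancel, Units.val_one, mul_one]

theorem twg_trace_twgAdDet (g : GL (Fin 2) k) (M : Matrix (Fin 2) (Fin 2) k) :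
    (twgAdDet g M).trace = ((Matrix.GeneralLinearGroup.det g : kˣ) : k) * M.trace := by
  rw [twgAdDet_apply, Matrix.trace_smul, smul_eq_mul, Matrix.trace_mul_comm, ← mul_assoc,
    ← Units.val_mul, inv_mul_cancel, Units.val_one, one_mul]

/-! ### The upper unipotent subgroup of `H` and its index -/

variable (H : Subgroup (GL (Fin 2) k))

/-- the upper unipotent elements of `H`, as a subgroup of `H` -/
def twgP : Subgroup H where
  carrier := {h | ∃ x : k, (h : GL (Fin 2) k) = twgU x}
  one_mem' := ⟨0, by rw [twgU_zero]; rfl⟩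
  mul_mem' := by
    rintro g h ⟨x, hx⟩ ⟨y, hy⟩
    exact ⟨x + y, by rw [Subgroup.coe_mul, hx, hy, twgU_add]⟩
  inv_mem' := by
    rintro g ⟨x, hx⟩
    exact ⟨-x, by rw [Subgroup.coe_inv, hx, twgU_neg]⟩

theorem twg_card_twgP : Nat.card (twgP H) = Nat.card (twgA H) := by
  refine Nat.card_congr (Equiv.ofBijective
    (fun x : twgA H => (⟨⟨twgU (x : k), x.2⟩, ⟨x, rfl⟩⟩ : twgP H)) ⟨?_, ?_⟩).symm
  · intro x y h
    have h1 : twgU (x : k) = twgU (y : k) :=
      congrArg (fun t : twgP H => ((t : H) : GL (Fin 2) k)) h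
    exact Subtype.ext (twgU_injective h1)
  · rintro ⟨⟨g, hg⟩, x, hx⟩
    have hx' : g = twgU x := hx
    subst hx'
    exact ⟨⟨x, hg⟩, rfl⟩

/-- the scalars of `H` embed into `kˣ` -/
def twgZHom : twgZ H →* kˣ where
  toFun z := Units.mk0 (((z : H) : GL (Fin 2) k) 0 0) (twg_diag_ne_zero _ z.2.2.1).1
  map_one' := by
    apply Units.ext
    simp
  map_mul' := by
    intro z z'
    apply Units.ext
    simp only [Units.val_mk0, Units.val_mul, Subgroup.coe_mul, twg_mul_00, z.2.1, zero_mul,
      add_zero]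

theorem twgZHom_injective : Function.Injective (twgZHom H) := by
  intro z z' h
  have h1 : ((z : H) : GL (Fin 2) k) 0 0 = ((z' : H) : GL (Fin 2) k) 0 0 :=
    congrArg (fun u : kˣ => (u : k)) h
  apply Subtype.ext
  apply Subtype.ext
  obtain ⟨z01, z10, zd⟩ := z.2
  obtain ⟨z'01, z'10, z'd⟩ := z'.2
  apply twg_ext
  · exact h1
  · rw [z01, z'01]
  · rw [z10, z'10]
  · rw [← zd, ← z'd]; exact h1

theorem twg_not_dvd_card_units [Finite k] (p : ℕ) [Fact p.Prime] [CharP k p] :
    ¬ p ∣ Nat.card kˣ := by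
  classical
  let _ : Fintype k := Fintype.ofFinite k
  rw [Nat.card_units]
  intro h
  have h1 : p ∣ Nat.card k := by
    rw [← CharP.cast_eq_zero_iff k p, Nat.card_eq_fintype_card]
    exact FiniteField.cast_card_eq_zero k
  have h2 : 1 ≤ Nat.card k := Nat.card_pos
  have h3 : p ∣ 1 := by
    have := (Nat.dvd_sub h1 h)
    rwa [Nat.sub_sub_self h2] at this
  exact (Fact.out : p.Prime).one_lt.ne' (Nat.dvd_one.mp h3)

/-- the index of the upper unipotent subgroup of `H` is invertible in `k` -/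
theorem twg_index_twgP_ne_zero [DecidableEq k] [Finite k] (p : ℕ) [Fact p.Prime] [CharP k p]
    (hU : twgU 1 ∈ H) : ((twgP H).index : k) ≠ 0 := by
  have hp : p.Prime := Fact.out
  rw [Ne, CharP.cast_eq_zero_iff k p]
  have hpq := twg_prime_dvd_card_twgA H p hU
  have hq2 : 2 ≤ Nat.card (twgA H) := le_trans hp.two_le (Nat.le_of_dvd Nat.card_pos hpq)
  have hmod := twg_card_orbit_mod H hq2
  set q := Nat.card (twgA H) with hq
  set n := Nat.card (orbit H (∞ : OnePoint k)) with hn
  have hnp : ¬ p ∣ n := by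
    intro hdvd
    have h1 := Nat.div_add_mod n q
    rw [hmod] at h1
    have h2 : p ∣ q * (n / q) := Dvd.dvd.mul_right hpq _
    have h3 : p ∣ 1 := by
      rw [← h1] at hdvd
      exact (Nat.dvd_add_right h2).mp hdvd
    exact hp.one_lt.ne' (Nat.dvd_one.mp h3)
  have hunits := twg_not_dvd_card_units (k := k) p
  have he : ¬ p ∣ Nat.card (twgZ H) := fun h =>
    hunits (h.trans (Subgroup.card_dvd_of_injective _ (twgZHom_injective H)))
  have hκ : ¬ p ∣ Nat.card (twgAlpha H).range := fun h =>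
    hunits (h.trans (Subgroup.card_subgroup_dvd_card _))
  have hcard : (twgP H).index * q = n * (Nat.card (twgZ H) * q * Nat.card (twgAlpha H).range) := by
    have h1 : (twgP H).index * q = Nat.card H := by
      rw [hq, ← twg_card_twgP, Subgroup.index_mul_card]
    rw [h1, hq, ← twg_card_stabilizer, hn]
    exact (twg_card_orbit_mul_card_stabilizer (G := H) (∞ : OnePoint k)).symm
  have hidx : (twgP H).index = n * (Nat.card (twgZ H) * Nat.card (twgAlpha H).range) := by
    have hqpos : 0 < q := by omega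
    apply Nat.eq_of_mul_eq_mul_right hqpos
    rw [hcard]; ring
  rw [hidx]
  intro h
  rcases (Nat.Prime.dvd_mul hp).mp h with h | h
  · exact hnp h
  · rcases (Nat.Prime.dvd_mul hp).mp h with h | h
    · exact he h
    · exact hκ h

end Fermat.Agent.TW
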