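/-
P10 / S56 (Taylor–Wiles primes), package G8 (group theory): an additive map `φ` on a finite
subring `A` of a field of odd characteristic with `φ(t² x) = t² φ(x) + x φ(t²)` and `φ(1) = 0`
vanishes (it is a derivation of a perfect ring).
-/
import Mathlib

set_option autoImplicit false

namespace Fermat.Agent.TW

variable {k : Type*} [Field k]

theorem twg_derivation_eq_zero (p : ℕ) [Fact p.Prime] [CharP k p] (hp2 : p ≠ 2)
    (A : AddSubgroup k) [Finite A] (hone : (1 : k) ∈ A)
    (hmul : ∀ t x : k, t ∈ A → x ∈ A → t * x ∈ A) (φ : k → k)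
    (hadd : ∀ x y : k, x ∈ A → y ∈ A → φ (x + y) = φ x + φ y) (h1 : φ 1 = 0)
    (hsq : ∀ t x : k, t ∈ A → x ∈ A → φ (t ^ 2 * x) = t ^ 2 * φ x + x * φ (t ^ 2)) :
    ∀ x : k, x ∈ A → φ x = 0 := by
  have h2 : (2 : k) ≠ 0 := by
    intro h
    have h2' : ((2 : ℕ) : k) = 0 := by exact_mod_cast h
    rw [CharP.cast_eq_zero_iff k p] at h2'
    exact hp2 ((Nat.prime_dvd_prime_iff_eq (Fact.out : p.Prime) Nat.prime_two).mp h2')
  have h0 : φ 0 = 0 := by
    have := hadd 0 0 A.zero_mem A.zero_mem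
    rw [add_zero] at this
    exact left_eq_add.mp this
  have hpow : ∀ (t : k) (n : ℕ), t ∈ A → t ^ n ∈ A := by
    intro t n ht
    induction n with
    | zero => rw [pow_zero]; exact hone
    | succ n ih => rw [pow_succ]; exact hmul _ _ ih ht
  -- Leibniz
  have hleib : ∀ t x : k, t ∈ A → x ∈ A → φ (t * x) = t * φ x + x * φ t := by
    intro t x ht hx
    have ht1 : t + 1 ∈ A := A.add_mem ht hone
    have e1 := hsq (t + 1) x ht1 hx
    have e2 := hsq t x ht hx
    have htx : t * x ∈ A := hmul t x ht hx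
    have ht2 : t ^ 2 ∈ A := hpow t 2 ht
    have e3 : φ ((t + 1) ^ 2 * x) = φ (t ^ 2 * x) + (φ (t * x) + φ (t * x)) + φ x := by
      have : (t + 1) ^ 2 * x = t ^ 2 * x + (t * x + t * x) + x := by ring
      rw [this, hadd _ _ (A.add_mem (hmul _ _ ht2 hx) (A.add_mem htx htx)) hx,
        hadd _ _ (hmul _ _ ht2 hx) (A.add_mem htx htx), hadd _ _ htx htx]
    have e4 : φ ((t + 1) ^ 2) = φ (t ^ 2) + (φ t + φ t) := by
      have : (t + 1) ^ 2 = t ^ 2 + (t + t) + 1 := by ring
      rw [this, hadd _ _ (A.add_mem ht2 (A.add_mem ht ht)) hone,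
        hadd _ _ ht2 (A.add_mem ht ht), hadd _ _ ht ht, h1, add_zero]
    rw [e3, e2, e4] at e1
    have : 2 * φ (t * x) = 2 * (t * φ x + x * φ t) := by linear_combination e1
    exact mul_left_cancel₀ h2 this
  -- powers
  have hpowφ : ∀ (x : k) (n : ℕ), x ∈ A → φ (x ^ n) * x = n * x ^ n * φ x := by
    intro x n hx
    induction n with
    | zero => simp [h1]
    | succ n ih =>
      rw [pow_succ, hleib _ _ (hpow x n hx) hx]
      push_cast
      linear_combination x * ih
  have hp0 : ((p : ℕ) : k) = 0 := CharP.cast_eq_zero k p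
  have hfrob : ∀ x : k, x ∈ A → φ (x ^ p) = 0 := by
    intro x hx
    by_cases hx0 : x = 0
    · rw [hx0, zero_pow (Fact.out : p.Prime).ne_zero, h0]
    · have := hpowφ x p hx
      rw [hp0, zero_mul, zero_mul] at this
      exact (mul_eq_zero.mp this).resolve_right hx0
  -- Frobenius is surjective on `A`
  let f : A → A := fun x => ⟨(x : k) ^ p, hpow _ p x.2⟩
  have hf : Function.Injective f := by
    intro x y h
    have h' : (x : k) ^ p = (y : k) ^ p := congrArg (fun z : A => (z : k)) h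
    exact Subtype.ext (frobenius_inj k p h')
  intro y hy
  obtain ⟨x, hx⟩ := (Finite.injective_iff_surjective.mp hf) ⟨y, hy⟩
  have hx' : (x : k) ^ p = y := congrArg (fun z : A => (z : k)) hx
  rw [← hx']
  exact hfrob _ x.2

end Fermat.Agent.TW
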