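/-
P10 / S56 (Taylor–Wiles primes), package G8 (group theory): vanishing of `H¹(H, ad⁰ ⊗ det)` for a
subgroup `H ≤ GL₂(k)` in normal form (`u_1 ∈ H`, some element of `H` maps `∞` to `0`), in
elementary cocycle form.
-/
import Mathlib
import Fermat.Agent.Lib.TW.Group.AdDet
import Fermat.Agent.Lib.TW.Group.Deriv

set_option autoImplicit false
set_option linter.unusedSimpArgs false

open Matrix OnePoint MulAction

noncomputable section

namespace Fermat.Agent.TW

variable {k : Type*} [Field k] (H : Subgroup (GL (Fin 2) k))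

/-- `ad ⊗ det` restricted to `H` -/
def twgRepH : Representation k H (Matrix (Fin 2) (Fin 2) k) :=
  (twgAdDet (k := k)).comp H.subtype

theorem twgRepH_apply (h : H) (M : Matrix (Fin 2) (Fin 2) k) :
    twgRepH H h M = twgAdDet (h : GL (Fin 2) k) M := rfl

variable {H}

/-! ### `p ≠ 3`: Sah's lemma -/

theorem twg_det_twgS (a : kˣ) :
    ((Matrix.GeneralLinearGroup.det (twgS a) : kˣ) : k) = (a : k) ^ 2 := by
  rw [twgS, twg_det_twgD, sq]

theorem twg_coboundary_of_scalar {c : H → Matrix (Fin 2) (Fin 2) k}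
    (hc : TwgIsCocycle (twgRepH H) c) (a : kˣ) (ha : twgS a ∈ H) (ha2 : (a : k) ^ 2 ≠ 1) :
    TwgIsCoboundary (twgRepH H) c := by
  apply twg_coboundary_of_sah (twgRepH H) hc ⟨twgS a, ha⟩ _ ((a : k) ^ 2) ha2
  · intro M
    rw [twgRepH_apply, twgAdDet_scalar _ (twgS_isScalar a), twg_det_twgS]
  · intro g
    apply Subtype.ext
    rw [Subgroup.coe_mul, Subgroup.coe_mul]
    exact (twg_scalar_commute _ _ (twgS_isScalar a)).symm

/-- vanishing for `p ≠ 3` (then `p ≥ 5`) -/
theorem twg_coboundary_of_ne_three [DecidableEq k] {p : ℕ} (D : TwgDickson H p)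
    {c : H → Matrix (Fin 2) (Fin 2) k} (hc : TwgIsCocycle (twgRepH H) c)
    {g₀ : GL (Fin 2) k} (hg₀ : g₀ ∈ H)
    (hdet : ((Matrix.GeneralLinearGroup.det g₀ : kˣ) : k) ^ 2 ≠ 1) :
    TwgIsCoboundary (twgRepH H) c :=
  twg_coboundary_of_scalar hc _ (D.scalar_det_mem hg₀) hdet

/-! ### `p = 3` -/

/-- `e = [0, 1; 0, 0]` -/
def twgE01 : Matrix (Fin 2) (Fin 2) k := !![0, 1; 0, 0]

/-- in characteristic `3`, the restriction of a cocycle to `⟨u_1⟩` is a coboundary -/
theorem twg_exists_coboundary_u_one [CharP k 3] (hU : twgU 1 ∈ H)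
    {c : H → Matrix (Fin 2) (Fin 2) k} (hc : TwgIsCocycle (twgRepH H) c)
    (htr : ∀ h, (c h).trace = 0) :
    ∃ x : Matrix (Fin 2) (Fin 2) k, x.trace = 0 ∧
      c ⟨twgU 1, hU⟩ = twgRepH H ⟨twgU 1, hU⟩ x - x := by
  set u : H := ⟨twgU 1, hU⟩ with hu
  set M := c u with hM
  have h3 : (3 : k) = 0 := by
    have := CharP.cast_eq_zero k 3
    exact_mod_cast this
  have h2 : (2 : k) ≠ 0 := by
    intro h
    have : (1 : k) = 0 := by linear_combination h3 - h
    exact one_ne_zero this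
  have hu3 : u * (u * u) = 1 := by
    apply Subtype.ext
    rw [Subgroup.coe_mul, Subgroup.coe_mul, Subgroup.coe_one]
    show twgU 1 * (twgU 1 * twgU 1) = 1
    rw [← twgU_add, ← twgU_add, ← twgU_zero]
    congr 1
    linear_combination h3
  have e1 : c (u * (u * u)) = M + twgRepH H u (M + twgRepH H u M) := by
    rw [hc u (u * u), hc u u]
  rw [hu3, hc.map_one] at e1
  have hT : ∀ N : Matrix (Fin 2) (Fin 2) k, twgRepH H u N =
      !![N 0 0 + N 1 0, N 0 1 + N 1 1 - N 0 0 - N 1 0; N 1 0, N 1 1 - N 1 0] := by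
    intro N
    rw [twgRepH_apply]
    show twgAdDet (twgU 1) N = _
    rw [twgAdDet_twgU]
    simp
  have hM10 : M 1 0 = 0 := by
    have e2 := congrFun (congrFun e1 0) 1
    rw [hT (M + twgRepH H u M), hT M] at e2
    simp only [Matrix.zero_apply, Matrix.add_apply, Matrix.of_apply, Matrix.cons_val', 
      Matrix.cons_val_zero, Matrix.cons_val_one, Matrix.cons_val_fin_one] at e2
    linear_combination (-1 : k) * e2 + (2 * M 1 0 - M 0 1 - M 1 1 + M 0 0) * h3
  have htrM : M 0 0 + M 1 1 = 0 := by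
    have := htr u
    rwa [Matrix.trace_fin_two] at this
  refine ⟨!![-(M 0 1 + M 0 0) / 2, 0; M 0 0, (M 0 1 + M 0 0) / 2], ?_, ?_⟩
  · rw [Matrix.trace_fin_two]
    simp
    ring
  · rw [hT]
    ext i j
    fin_cases i <;> fin_cases j
    · simp
    · simp only [Matrix.sub_apply, Matrix.of_apply, Matrix.cons_val', Matrix.cons_val_zero,
        Matrix.cons_val_one, Matrix.cons_val_fin_one, Fin.zero_eta, Fin.mk_one]
      field_simp
      ring
    · simp [hM10]
    · simp only [Matrix.sub_apply, Matrix.of_apply, Matrix.cons_val', Matrix.cons_val_zero,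
        Matrix.cons_val_one, Matrix.cons_val_fin_one, Fin.mk_one]
      linear_combination htrM

omit [Field k] in
theorem twg_subtype_mul_comm_aux {G : Type*} [Group G] {S : Subgroup G} {a b : G} (ha : a ∈ S)
    (hb : b ∈ S) (h : a * b = b * a) : (⟨a, ha⟩ : S) * ⟨b, hb⟩ = ⟨b, hb⟩ * ⟨a, ha⟩ :=
  Subtype.ext h

/-- `u_x` fixes `e` -/
theorem twgAdDet_twgU_twgE01 (x : k) :
    twgAdDet (twgU x) (twgE01 : Matrix (Fin 2) (Fin 2) k) = twgE01 := by
  rw [twgAdDet_twgU]
  ext i j
  fin_cases i <;> fin_cases j <;> simp [twgE01]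

/-- Lemma B: a trace-zero cocycle vanishing at `u_1` takes values in `k e` on the unipotents
(`2 ≠ 0` in `k`) -/
theorem twg_cocycle_twgU_eq (h2 : (2 : k) ≠ 0) (hU : twgU 1 ∈ H)
    {c : H → Matrix (Fin 2) (Fin 2) k} (hc : TwgIsCocycle (twgRepH H) c)
    (htr : ∀ h, (c h).trace = 0) (h0 : c ⟨twgU 1, hU⟩ = 0) {y : k} (hy : twgU y ∈ H) :
    c ⟨twgU y, hy⟩ = (c ⟨twgU y, hy⟩ 0 1) • (twgE01 : Matrix (Fin 2) (Fin 2) k) := by
  set u : H := ⟨twgU 1, hU⟩ with hu
  set v : H := ⟨twgU y, hy⟩ with hv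
  set N := c v with hN
  have hcomm : v * u = u * v := by
    apply Subtype.ext
    rw [Subgroup.coe_mul, Subgroup.coe_mul]
    show twgU y * twgU 1 = twgU 1 * twgU y
    rw [← twgU_add, ← twgU_add, add_comm]
  have e1 := hc v u
  have e2 := hc u v
  rw [h0, map_zero, add_zero] at e1
  rw [h0, zero_add, ← hcomm, e1] at e2
  -- `N = u • N`
  have hT : twgRepH H u N =
      !![N 0 0 + N 1 0, N 0 1 + N 1 1 - N 0 0 - N 1 0; N 1 0, N 1 1 - N 1 0] := by
    rw [twgRepH_apply]
    show twgAdDet (twgU 1) N = _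
    rw [twgAdDet_twgU]
    simp
  rw [hT] at e2
  have e00 := congrFun (congrFun e2 0) 0
  have e01 := congrFun (congrFun e2 0) 1
  simp only [Matrix.of_apply, Matrix.cons_val', Matrix.cons_val_zero, Matrix.cons_val_one,
    Matrix.cons_val_fin_one] at e00 e01
  have h10 : N 1 0 = 0 := by linear_combination -e00
  have htrN : N 0 0 + N 1 1 = 0 := by
    have := htr v
    rwa [Matrix.trace_fin_two] at this
  have h00 : N 0 0 = 0 := by
    have : 2 * N 0 0 = 0 := by linear_combination htrN + e01 - h10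
    exact (mul_eq_zero.mp this).resolve_left h2
  have h11 : N 1 1 = 0 := by linear_combination htrN - h00
  ext i j
  fin_cases i <;> fin_cases j <;> simp [twgE01, h00, h10, h11]

/-- a trace-zero cocycle vanishing at `u_1` vanishes on the upper unipotent subgroup (`p = 3`) -/
theorem twg_cocycle_vanish_twgP [DecidableEq k] [Finite k] [CharP k 3]
    (hsplit : ∀ h ∈ H, ∃ δ : k, (h : GL (Fin 2) k).val.discr = δ ^ 2)
    (hU : twgU 1 ∈ H) (hzero : ∃ h ∈ H, (h : GL (Fin 2) k) 0 0 = 0)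
    {c : H → Matrix (Fin 2) (Fin 2) k} (hc : TwgIsCocycle (twgRepH H) c)
    (htr : ∀ h, (c h).trace = 0) (h0 : c ⟨twgU 1, hU⟩ = 0) :
    ∀ b ∈ twgP H, c b = 0 := by
  classical
  have hp3 : Fact (Nat.Prime 3) := ⟨Nat.prime_three⟩
  have h3 : (3 : k) = 0 := by
    have := CharP.cast_eq_zero k 3
    exact_mod_cast this
  have h2 : (2 : k) ≠ 0 := by
    intro h
    have : (1 : k) = 0 := by linear_combination h3 - h
    exact one_ne_zero this
  set φ : k → k := fun y => if hy : twgU y ∈ H then c ⟨twgU y, hy⟩ 0 1 else 0 with hφ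
  have hφc : ∀ (y : k) (hy : twgU y ∈ H),
      c ⟨twgU y, hy⟩ = φ y • (twgE01 : Matrix (Fin 2) (Fin 2) k) := by
    intro y hy
    rw [twg_cocycle_twgU_eq h2 hU hc htr h0 hy]
    simp only [hφ, dif_pos hy]
  have hφ1 : φ 1 = 0 := by
    simp only [hφ, dif_pos hU, h0, Matrix.zero_apply]
  have hadd : ∀ x y : k, x ∈ twgA H → y ∈ twgA H → φ (x + y) = φ x + φ y := by
    intro x y hx hy
    have hxy : twgU (x + y) ∈ H := (twgA H).add_mem hx hy
    have e := hc ⟨twgU x, hx⟩ ⟨twgU y, hy⟩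
    have e' : (⟨twgU x, hx⟩ : H) * ⟨twgU y, hy⟩ = ⟨twgU (x + y), hxy⟩ :=
      Subtype.ext (twgU_add x y).symm
    rw [e', hφc, hφc, hφc, _root_.map_smul, twgRepH_apply] at e
    rw [show ((⟨twgU x, hx⟩ : H) : GL (Fin 2) k) = twgU x from rfl, twgAdDet_twgU_twgE01] at e
    have := congrFun (congrFun e 0) 1
    simpa [twgE01] using this
  have hφ00 : φ 0 = 0 := by
    have := hadd 0 0 (twgA H).zero_mem (twgA H).zero_mem
    rw [add_zero] at this
    exact left_eq_add.mp this
  suffices hφ0 : ∀ x : k, x ∈ twgA H → φ x = 0 by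
    rintro ⟨b, hb⟩ ⟨x, hx⟩
    have hx' : b = twgU x := hx
    subst hx'
    rw [hφc x hb, hφ0 x hb, zero_smul]
  have hdvd := twg_prime_dvd_card_twgA H 3 hU
  by_cases h4 : 4 ≤ Nat.card (twgA H)
  · have D : TwgDickson H 3 :=
      ⟨Nat.prime_three, inferInstance, by norm_num, inferInstance, hsplit, hU, hzero, h4⟩
    apply twg_derivation_eq_zero 3 (by norm_num) (twgA H) D.one_mem
      (fun t x ht hx => D.mul_mem ht hx) φ hadd hφ1
    intro t x ht hx
    by_cases ht0 : t = 0
    · rw [ht0]; simp [hφ00]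
    have hθ := D.twgD_mem ht ht0
    set θ : H := ⟨twgD t t⁻¹ ht0 (inv_ne_zero ht0), hθ⟩ with hθdef
    set Θ := c θ with hΘ
    have key : ∀ x : k, x ∈ twgA H → (t ^ 2 * x) * Θ 1 0 = 0 ∧
        φ x * t ^ 2 = φ (t ^ 2 * x) + (t ^ 2 * x) * (Θ 1 1 - Θ 0 0)
          - (t ^ 2 * x) ^ 2 * Θ 1 0 := by
      intro x hx
      have hz : t ^ 2 * x ∈ twgA H := D.sq_mul_mem ht hx
      have hcomm : θ * ⟨twgU x, hx⟩ = ⟨twgU (t ^ 2 * x), hz⟩ * θ := by
        apply Subtype.ext
        rw [Subgroup.coe_mul, Subgroup.coe_mul]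
        show twgD t t⁻¹ ht0 (inv_ne_zero ht0) * twgU x =
          twgU (t ^ 2 * x) * twgD t t⁻¹ ht0 (inv_ne_zero ht0)
        rw [twg_upper_mul_twgU _ rfl x]
        congr 2
        simp only [twgD_00, twgD_11]
        field_simp
      have e1 := hc θ ⟨twgU x, hx⟩
      have e2 := hc ⟨twgU (t ^ 2 * x), hz⟩ θ
      rw [hcomm, e2, hφc, hφc, _root_.map_smul, twgRepH_apply, twgRepH_apply] at e1
      rw [show ((⟨twgU (t ^ 2 * x), hz⟩ : H) : GL (Fin 2) k) = twgU (t ^ 2 * x) from rfl,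
        show (θ : GL (Fin 2) k) = twgD t t⁻¹ ht0 (inv_ne_zero ht0) from rfl, twgAdDet_twgU,
        twgAdDet_twgD] at e1
      have e00 := congrFun (congrFun e1 0) 0
      have e01 := congrFun (congrFun e1 0) 1
      simp [twgE01] at e00 e01
      have htt : t * t⁻¹ = 1 := mul_inv_cancel₀ ht0
      constructor
      · rcases e00 with (h | h) | h
        · exact absurd h ht0
        · rw [h]; ring
        · rw [hΘ, h]; ring
      · rw [hΘ]
        linear_combination (-1 : k) * e01 - φ x * t ^ 2 * htt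
    have hk1 := key 1 D.one_mem
    have hk := key x hx
    rw [mul_one] at hk1
    have hΘ10 : Θ 1 0 = 0 :=
      (mul_eq_zero.mp hk1.1).resolve_left (pow_ne_zero 2 ht0)
    have e1 := hk1.2
    have e2 := hk.2
    rw [hΘ10, hφ1] at e1
    rw [hΘ10] at e2
    linear_combination -e2 + x * e1
  · have hcard : Nat.card (twgA H) = 3 := by
      have hpos : 0 < Nat.card (twgA H) := Nat.card_pos
      obtain ⟨m, hm⟩ := hdvd
      omega
    have hS : ({0, 1, -1} : Set k) = (twgA H : Set k) := by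
      apply Set.eq_of_subset_of_ncard_le
      · intro x hx
        rcases hx with rfl | rfl | rfl
        · exact (twgA H).zero_mem
        · exact hU
        · exact (twgA H).neg_mem hU
      · have h1 : ((twgA H : Set k)).ncard = 3 := by
          rw [← Nat.card_coe_set_eq]
          exact hcard
        rw [h1]
        apply le_of_eq
        symm
        rw [Set.ncard_eq_three]
        refine ⟨0, 1, -1, zero_ne_one, ?_, ?_, rfl⟩
        · intro h
          have : (1 : k) = 0 := by linear_combination h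
          exact one_ne_zero this
        · intro h
          apply h2
          linear_combination h
      · exact Set.toFinite _
    intro x hx
    have hx' : x ∈ ({0, 1, -1} : Set k) := by rw [hS]; exact hx
    rcases hx' with rfl | rfl | rfl
    · exact hφ00
    · exact hφ1
    · have := hadd (-1) 1 ((twgA H).neg_mem hU) hU
      rw [neg_add_cancel, hφ00, hφ1, add_zero] at this
      exact this.symm

/-- vanishing for `p = 3` -/
theorem twg_coboundary_of_three [DecidableEq k] [Finite k] [CharP k 3]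
    (hsplit : ∀ h ∈ H, ∃ δ : k, (h : GL (Fin 2) k).val.discr = δ ^ 2)
    (hU : twgU 1 ∈ H) (hzero : ∃ h ∈ H, (h : GL (Fin 2) k) 0 0 = 0)
    {c : H → Matrix (Fin 2) (Fin 2) k} (hc : TwgIsCocycle (twgRepH H) c)
    (htr : ∀ h, (c h).trace = 0) : TwgIsCoboundary (twgRepH H) c := by
  have hp3 : Fact (Nat.Prime 3) := ⟨Nat.prime_three⟩
  obtain ⟨x, hx0, hx⟩ := twg_exists_coboundary_u_one hU hc htr
  apply twg_coboundary_of_sub x
  have hc' := hc.sub_coboundary x
  have htr' : ∀ h, (c h - (twgRepH H h x - x)).trace = 0 := by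
    intro h
    rw [Matrix.trace_sub, Matrix.trace_sub, htr, twgRepH_apply, twg_trace_twgAdDet, hx0]
    simp
  have h0' : c ⟨twgU 1, hU⟩ - (twgRepH H ⟨twgU 1, hU⟩ x - x) = 0 := by rw [hx, sub_self]
  have hvan := twg_cocycle_vanish_twgP hsplit hU hzero hc' htr' h0'
  apply twg_coboundary_of_restrict (twgRepH H) hc' (twgP H) (twg_index_twgP_ne_zero H 3 hU)
  refine ⟨0, fun b hb => ?_⟩
  rw [hvan b hb, map_zero, sub_zero]

/-- **Theorem A, matrix form.**  Let `H ≤ GL₂(k)` (`k` finite of odd characteristic `p`) contain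
`u_1` and an element mapping `∞` to `0`, all of whose elements have square discriminant.  If
`p = 3` or some `g ∈ H` has `det(g)² ≠ 1`, then every trace-zero 1-cocycle of `H` in
`ad ⊗ det` is a coboundary. -/
theorem twg_coboundary_matrix [DecidableEq k] [Finite k] (p : ℕ) [Fact p.Prime] [CharP k p]
    (hp2 : p ≠ 2)
    (hsplit : ∀ h ∈ H, ∃ δ : k, (h : GL (Fin 2) k).val.discr = δ ^ 2)
    (hU : twgU 1 ∈ H) (hzero : ∃ h ∈ H, (h : GL (Fin 2) k) 0 0 = 0)
    (hp3 : p = 3 ∨ ∃ g ∈ H, ((Matrix.GeneralLinearGroup.det g : kˣ) : k) ^ 2 ≠ 1)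
    {c : H → Matrix (Fin 2) (Fin 2) k} (hc : TwgIsCocycle (twgRepH H) c)
    (htr : ∀ h, (c h).trace = 0) : TwgIsCoboundary (twgRepH H) c := by
  by_cases h3 : p = 3
  · subst h3
    exact twg_coboundary_of_three hsplit hU hzero hc htr
  · obtain ⟨g, hg, hdet⟩ := hp3.resolve_left h3
    have hp : p.Prime := Fact.out
    have h5 : 5 ≤ p := by
      have h2 := hp.two_le
      by_contra hlt
      have h4 : p = 4 := by omega
      rw [h4] at hp
      exact absurd hp (by norm_num)
    have hdvd := twg_prime_dvd_card_twgA H p hU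
    have hle : p ≤ Nat.card (twgA H) := Nat.le_of_dvd Nat.card_pos hdvd
    have D : TwgDickson H p :=
      ⟨hp, inferInstance, hp2, inferInstance, hsplit, hU, hzero, by omega⟩
    exact twg_coboundary_of_ne_three D hc hg hdet

end Fermat.Agent.TW
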