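/-
P10 / S56 (Taylor–Wiles primes), package G8 (group theory): the representation `ad ⊗ det` on
`End_k(V)` attached to a representation `ρ` on a `2`-dimensional space, its matrix form in a
basis, and the transfer of the coboundary problem to the image `H ≤ GL₂(k)`.
-/
import Mathlib
import Fermat.Agent.Lib.TW.Group.H1

set_option autoImplicit false
set_option linter.unusedSimpArgs false

open Matrix

noncomputable section

namespace Fermat.Agent.TW

variable {k G V : Type*} [Field k] [Group G] [AddCommGroup V] [Module k V]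

/-- the representation `ad ⊗ det` of `G` on `End_k(V)`: `g · A = det(ρ g) ρ(g) A ρ(g)⁻¹` -/
def twgAdDetRep (ρ : Representation k G V) : Representation k G (Module.End k V) where
  toFun g :=
    { toFun := fun A => LinearMap.det (ρ g) • (ρ g * A * ρ g⁻¹)
      map_add' := fun A B => by rw [mul_add, add_mul, smul_add]
      map_smul' := fun a A => by
        simp only [RingHom.id_apply, mul_smul_comm, smul_mul_assoc]
        rw [smul_comm] }
  map_one' := by
    ext A : 1
    simp
  map_mul' g h := by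
    ext A : 1
    simp only [LinearMap.coe_mk, AddHom.coe_mk, Module.End.mul_apply, map_mul, _root_.mul_inv_rev,
      mul_smul_comm, smul_mul_assoc, smul_smul]
    simp only [mul_assoc]

theorem twgAdDetRep_apply (ρ : Representation k G V) (g : G) (A : Module.End k V) :
    twgAdDetRep ρ g A = LinearMap.det (ρ g) • (ρ g * A * ρ g⁻¹) := rfl

theorem twg_trace_twgAdDetRep (ρ : Representation k G V) (g : G) (A : Module.End k V) :
    LinearMap.trace k V (twgAdDetRep ρ g A) = LinearMap.det (ρ g) * LinearMap.trace k V A := by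
  rw [twgAdDetRep_apply, map_smul, smul_eq_mul, LinearMap.trace_mul_comm, ← mul_assoc, ← map_mul,
    inv_mul_cancel, map_one, one_mul]

variable (ρ : Representation k G V) (b : Module.Basis (Fin 2) k V)

/-- the matrix form of `ρ` in the basis `b` -/
def twgMatHom : G →* GL (Fin 2) k :=
  (Units.map ((LinearMap.toMatrixAlgEquiv b : Module.End k V ≃ₐ[k] Matrix (Fin 2) (Fin 2) k) :
    Module.End k V →* Matrix (Fin 2) (Fin 2) k)).comp ρ.toHomUnits

theorem twgMatHom_val (g : G) : (twgMatHom ρ b g).val = LinearMap.toMatrix b b (ρ g) := rfl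

theorem twg_det_twgMatHom (g : G) :
    ((Matrix.GeneralLinearGroup.det (twgMatHom ρ b g) : kˣ) : k) = LinearMap.det (ρ g) := by
  rw [Matrix.GeneralLinearGroup.val_det_apply, twgMatHom_val, LinearMap.det_toMatrix]

theorem twgMatHom_eq_iff (g g' : G) : twgMatHom ρ b g = twgMatHom ρ b g' ↔ ρ g = ρ g' := by
  constructor
  · intro h
    have h1 : (twgMatHom ρ b g).val = (twgMatHom ρ b g').val := by rw [h]
    rw [twgMatHom_val, twgMatHom_val] at h1
    exact (LinearMap.toMatrix b b).injective h1
  · intro h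
    apply Units.ext
    rw [twgMatHom_val, twgMatHom_val, h]

/-- `toMatrix` intertwines `ad ⊗ det` -/
theorem twg_toMatrix_twgAdDetRep (g : G) (A : Module.End k V) :
    LinearMap.toMatrix b b (twgAdDetRep ρ g A) =
      twgAdDet (twgMatHom ρ b g) (LinearMap.toMatrix b b A) := by
  rw [twgAdDetRep_apply, twgAdDet_apply, twg_det_twgMatHom, map_smul, ← map_inv, twgMatHom_val,
    twgMatHom_val, LinearMap.toMatrix_mul, LinearMap.toMatrix_mul]

/-- a cocycle vanishing on `ker ρ` is constant on the fibres of `ρ` -/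
theorem twg_cocycle_const_of_ker {c : G → Module.End k V}
    (hc : TwgIsCocycle (twgAdDetRep ρ) c) (hker : ∀ n, ρ n = 1 → c n = 0) {g g' : G}
    (h : ρ g = ρ g') : c g = c g' := by
  have h1 : ρ (g⁻¹ * g') = 1 := by rw [map_mul, ← h, ← map_mul, inv_mul_cancel, map_one]
  have h2 := hc g (g⁻¹ * g')
  rw [mul_inv_cancel_left, hker _ h1, map_zero, add_zero] at h2
  exact h2.symm

/-- **Transfer.**  If every trace-zero cocycle of the image `H = ρ(G) ≤ GL₂(k)` (in the basis
`b`) is a coboundary, then so is every trace-zero cocycle of `G` vanishing on `ker ρ`. -/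
theorem twg_transfer {c : G → Module.End k V} (hc : TwgIsCocycle (twgAdDetRep ρ) c)
    (hker : ∀ n, ρ n = 1 → c n = 0) (htr : ∀ g, LinearMap.trace k V (c g) = 0)
    (hH : ∀ c' : (twgMatHom ρ b).range → Matrix (Fin 2) (Fin 2) k,
      TwgIsCocycle (twgRepH (twgMatHom ρ b).range) c' → (∀ h, (c' h).trace = 0) →
      TwgIsCoboundary (twgRepH (twgMatHom ρ b).range) c') :
    TwgIsCoboundary (twgAdDetRep ρ) c := by
  classical
  set R := twgMatHom ρ b with hR
  let s : R.range → G := fun h => Classical.choose h.2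
  have hs : ∀ h : R.range, R (s h) = h := fun h => Classical.choose_spec h.2
  let c' : R.range → Matrix (Fin 2) (Fin 2) k := fun h => LinearMap.toMatrix b b (c (s h))
  have hc'g : ∀ g : G, c' ⟨R g, ⟨g, rfl⟩⟩ = LinearMap.toMatrix b b (c g) := by
    intro g
    show LinearMap.toMatrix b b (c (s _)) = _
    congr 1
    apply twg_cocycle_const_of_ker ρ hc hker
    rw [← twgMatHom_eq_iff ρ b]
    exact hs _
  have hcoc : TwgIsCocycle (twgRepH R.range) c' := by
    intro h₁ h₂
    obtain ⟨_, g₁, rfl⟩ := h₁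
    obtain ⟨_, g₂, rfl⟩ := h₂
    have : (⟨R g₁, ⟨g₁, rfl⟩⟩ : R.range) * ⟨R g₂, ⟨g₂, rfl⟩⟩ =
        ⟨R (g₁ * g₂), ⟨g₁ * g₂, rfl⟩⟩ := Subtype.ext (map_mul R g₁ g₂).symm
    rw [this, hc'g, hc'g, hc'g, hc g₁ g₂, map_add, twg_toMatrix_twgAdDetRep, twgRepH_apply]
  have htr' : ∀ h, (c' h).trace = 0 := by
    intro h
    show (LinearMap.toMatrix b b (c (s h))).trace = 0
    rw [← LinearMap.trace_eq_matrix_trace k b, htr]
  obtain ⟨x, hx⟩ := hH c' hcoc htr'
  refine ⟨Matrix.toLin b b x, fun g => ?_⟩
  apply (LinearMap.toMatrix b b).injective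
  rw [map_sub, twg_toMatrix_twgAdDetRep, LinearMap.toMatrix_toLin, ← hc'g, hx, twgRepH_apply]

end Fermat.Agent.TW
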