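/-
P10 / S56 (Taylor–Wiles primes), package G8 (group theory): the normal form of the image of an
irreducible `2`-dimensional representation whose image has order divisible by `p`, and
**Theorem A** (vanishing of `H¹(ρ(G), ad⁰ ⊗ det)`) in elementary cocycle form.
-/
import Mathlib
import Fermat.Agent.Lib.TW.Group.Transfer

set_option autoImplicit false
set_option linter.unusedSimpArgs false

open Matrix Polynomial

noncomputable section

namespace Fermat.Agent.TW

variable {k V : Type*} [Field k] [AddCommGroup V] [Module k V]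

/-- an endomorphism of order `p` in characteristic `p` is unipotent -/
theorem twg_sub_one_pow_eq_zero (p : ℕ) [Fact p.Prime] [CharP k p] (T : Module.End k V)
    (hT : T ^ p = 1) : (T - 1) ^ p = 0 := by
  have h1 : ((X : k[X]) - 1) ^ p = X ^ p - 1 := by rw [sub_pow_char, one_pow]
  have h2 := congrArg (aeval T) h1
  simpa [hT] using h2

/-- a nilpotent endomorphism of a `2`-dimensional space has square zero -/
theorem twg_sq_eq_zero_of_isNilpotent [Module.Finite k V] (hV : Module.finrank k V = 2)
    (N : Module.End k V) (hN : IsNilpotent N) : N ^ 2 = 0 := by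
  have h1 := IsNilpotent.charpoly_eq_X_pow_finrank hN
  have h2 := LinearMap.aeval_self_charpoly N
  rw [h1, hV] at h2
  simpa using h2

/-- **Normal form.**  `T` unipotent `≠ 1` and `S` moving the fixed line of `T`: in a suitable
basis `T = [1, 1; 0, 1]` and `S` has `(0, 0)`-entry `0`. -/
theorem twg_exists_basis_normal (hV : Module.finrank k V = 2) (T S : Module.End k V)
    (hT : (T - 1) ^ 2 = 0) (x : V) (hx : (T - 1) x = 0) (hSx : (T - 1) (S x) ≠ 0) :
    ∃ b : Module.Basis (Fin 2) k V, LinearMap.toMatrix b b T = !![1, 1; 0, 1] ∧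
      LinearMap.toMatrix b b S 0 0 = 0 := by
  set N := T - 1 with hN
  have hN2 : ∀ v, N (N v) = 0 := by
    intro v
    have := congrArg (fun f : Module.End k V => f v) hT
    simpa [sq] using this
  -- `x, S x` are linearly independent
  have hli : LinearIndependent k ![x, S x] := by
    rw [LinearIndependent.pair_iff]
    intro s t h
    have h1 := congrArg N h
    rw [map_add, map_smul, map_smul, hx, smul_zero, zero_add, map_zero] at h1
    have ht : t = 0 := (smul_eq_zero.mp h1).resolve_right hSx
    rw [ht, zero_smul, add_zero] at h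
    have hx0 : x ≠ 0 := by
      intro h0
      apply hSx
      rw [h0, map_zero, map_zero]
    exact ⟨(smul_eq_zero.mp h).resolve_right hx0, ht⟩
  have hcard : Fintype.card (Fin 2) = Module.finrank k V := by rw [hV]; rfl
  let b₀ : Module.Basis (Fin 2) k V := basisOfLinearIndependentOfCardEqFinrank hli hcard
  have hb₀ : ⇑b₀ = ![x, S x] := coe_basisOfLinearIndependentOfCardEqFinrank hli hcard
  -- `N (S x) = a x`
  obtain ⟨a, ha⟩ : ∃ a : k, N (S x) = a • x := by
    have h1 := b₀.sum_repr (N (S x))
    rw [Fin.sum_univ_two, hb₀] at h1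
    simp only [Matrix.cons_val_zero, Matrix.cons_val_one] at h1
    have h2 := congrArg N h1
    rw [map_add, map_smul, map_smul, hx, smul_zero, zero_add, hN2] at h2
    have h3 : b₀.repr (N (S x)) 1 = 0 := (smul_eq_zero.mp h2).resolve_right hSx
    rw [h3, zero_smul, add_zero] at h1
    exact ⟨_, h1.symm⟩
  have ha0 : a ≠ 0 := by
    intro h0
    apply hSx
    rw [ha, h0, zero_smul]
  -- the basis `x, a⁻¹ S x`
  have hli' : LinearIndependent k ![x, a⁻¹ • S x] := by
    rw [LinearIndependent.pair_iff] at hli ⊢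
    intro s t h
    rw [smul_smul] at h
    obtain ⟨hs, ht⟩ := hli s (t * a⁻¹) h
    exact ⟨hs, (mul_eq_zero.mp ht).resolve_right (inv_ne_zero ha0)⟩
  let b : Module.Basis (Fin 2) k V := basisOfLinearIndependentOfCardEqFinrank hli' hcard
  have hb : ⇑b = ![x, a⁻¹ • S x] := coe_basisOfLinearIndependentOfCardEqFinrank hli' hcard
  have hb0 : b 0 = x := by rw [hb]; rfl
  have hb1 : b 1 = a⁻¹ • S x := by rw [hb]; rfl
  have hT0 : T (b 0) = b 0 := by
    have : N (b 0) = 0 := by rw [hb0]; exact hx
    rw [hN, LinearMap.sub_apply, Module.End.one_apply, sub_eq_zero] at this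
    exact this
  have hT1 : T (b 1) = b 0 + b 1 := by
    have : N (b 1) = b 0 := by
      rw [hb1, map_smul, ha, smul_smul, inv_mul_cancel₀ ha0, one_smul, hb0]
    rw [hN, LinearMap.sub_apply, Module.End.one_apply, sub_eq_iff_eq_add] at this
    exact this
  have hS0 : S (b 0) = a • b 1 := by
    rw [hb0, hb1, smul_smul, mul_inv_cancel₀ ha0, one_smul]
  refine ⟨b, ?_, ?_⟩
  · ext i j
    rw [LinearMap.toMatrix_apply]
    fin_cases j
    · simp only [Fin.zero_eta, hT0, Module.Basis.repr_self]
      fin_cases i <;> simp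
    · simp only [Fin.mk_one, hT1, map_add, Module.Basis.repr_self]
      fin_cases i <;> simp
  · rw [LinearMap.toMatrix_apply, hS0, map_smul, Module.Basis.repr_self]
    simp

theorem twg_trace_det_of_charpoly (M : Matrix (Fin 2) (Fin 2) k) (α β : k)
    (h : M.charpoly = (X - C α) * (X - C β)) : M.trace = α + β ∧ M.det = α * β := by
  rw [Matrix.charpoly_fin_two] at h
  have h1 := congrArg (fun q => coeff q 1) h
  have h0 := congrArg (fun q => coeff q 0) h
  have e : (X - C α) * (X - C β) = X ^ 2 - C (α + β) * X + C (α * β) := by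
    rw [map_add, map_mul]; ring
  rw [e] at h1 h0
  simp [coeff_X] at h1 h0
  refine ⟨?_, h0⟩
  linear_combination -h1

variable {G : Type*} [Group G]

/-- `ρ` restricted to the subgroup `G'` is irreducible -/
def TwgIrr (ρ : Representation k G V) (G' : Subgroup G) : Prop :=
  ∀ W : Submodule k V, (∀ g ∈ G', ∀ x ∈ W, ρ g x ∈ W) → W = ⊥ ∨ W = ⊤

/-- every `ρ(g)`, `g ∈ G'`, has its eigenvalues in `k` -/
def TwgSplit [Module.Finite k V] (ρ : Representation k G V) (G' : Subgroup G) : Prop :=
  ∀ g ∈ G', ∃ α β : k, LinearMap.charpoly (ρ g) = (X - C α) * (X - C β)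

theorem twg_discr_twgMatHom [Module.Finite k V] (ρ : Representation k G V) (b : Module.Basis (Fin 2) k V) (g : G)
    (α β : k) (h : LinearMap.charpoly (ρ g) = (X - C α) * (X - C β)) :
    (twgMatHom ρ b g).val.discr = (α - β) ^ 2 := by
  rw [twgMatHom_val, Matrix.discr_fin_two]
  have h1 : (LinearMap.toMatrix b b (ρ g)).charpoly = (X - C α) * (X - C β) := by
    rw [LinearMap.charpoly_toMatrix, h]
  obtain ⟨ht, hd⟩ := twg_trace_det_of_charpoly _ α β h1
  rw [ht, hd]
  ring

/-- **Theorem A.**  Let `ρ` be an irreducible representation of `G` on a `2`-dimensional space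
over a finite field `k` of odd characteristic `p`, all `ρ(g)` having their eigenvalues in `k`.
If `p = 3` or `det(ρ g)² ≠ 1` for some `g`, then every trace-zero 1-cocycle of `G` with values in
`ad ⊗ det` which vanishes on `ker ρ` is a coboundary. -/
theorem twg_cocycle_eq_coboundary_aux [Finite k] [Module.Finite k V] (p : ℕ) [Fact p.Prime] [CharP k p] (hp2 : p ≠ 2)
    (hV : Module.finrank k V = 2) (ρ : Representation k G V) (hirr : TwgIrr ρ ⊤)
    (hsplit : TwgSplit ρ ⊤) (hp3 : p = 3 ∨ ∃ g, LinearMap.det (ρ g) ^ 2 ≠ 1)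
    {c : G → Module.End k V} (hc : TwgIsCocycle (twgAdDetRep ρ) c)
    (hker : ∀ n, ρ n = 1 → c n = 0) (htr : ∀ g, LinearMap.trace k V (c g) = 0) :
    TwgIsCoboundary (twgAdDetRep ρ) c := by
  classical
  let b₀ : Module.Basis (Fin 2) k V := Module.finBasisOfFinrankEq k V hV
  by_cases hcard : (Nat.card (twgMatHom ρ b₀).range : k) = 0
  · -- `p` divides the order of the image: normal form
    rw [CharP.cast_eq_zero_iff k p] at hcard
    obtain ⟨⟨_, gv, rfl⟩, hord⟩ := exists_prime_orderOf_dvd_card' p hcard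
    have hgv1 : (twgMatHom ρ b₀ gv) ^ p = 1 := by
      have := pow_orderOf_eq_one (⟨_, gv, rfl⟩ : (twgMatHom ρ b₀).range)
      rw [hord] at this
      exact congrArg Subtype.val this
    have hgvne : twgMatHom ρ b₀ gv ≠ 1 := by
      intro h
      have h1 : (⟨_, gv, rfl⟩ : (twgMatHom ρ b₀).range) = 1 := Subtype.ext h
      rw [← orderOf_eq_one_iff, hord] at h1
      exact (Fact.out : p.Prime).one_lt.ne' h1
    set T := ρ gv with hTdef
    have hTp : T ^ p = 1 := by
      rw [← map_pow, ← map_one (twgMatHom ρ b₀), twgMatHom_eq_iff, map_pow, map_one] at hgv1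
      exact hgv1
    have hT1 : T ≠ 1 := by
      intro h
      apply hgvne
      rw [← map_one (twgMatHom ρ b₀), twgMatHom_eq_iff, map_one]
      exact h
    have hN2 : (T - 1) ^ 2 = 0 :=
      twg_sq_eq_zero_of_isNilpotent hV _ ⟨p, twg_sub_one_pow_eq_zero p T hTp⟩
    have hN0 : T - 1 ≠ 0 := sub_ne_zero.mpr hT1
    -- the fixed line of `T` is not stable
    have hW : ¬ (∀ g ∈ (⊤ : Subgroup G), ∀ x ∈ LinearMap.ker (T - 1),
        ρ g x ∈ LinearMap.ker (T - 1)) := by
      intro hst
      rcases hirr _ hst with h | h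
      · obtain ⟨v, hv⟩ : ∃ v, (T - 1) v ≠ 0 := by
          by_contra hcon
          push Not at hcon
          exact hN0 (LinearMap.ext hcon)
        have : (T - 1) v ∈ LinearMap.ker (T - 1) := by
          rw [LinearMap.mem_ker]
          have := congrArg (fun f : Module.End k V => f v) hN2
          simpa [sq] using this
        rw [h, Submodule.mem_bot] at this
        exact hv this
      · exact hN0 (LinearMap.ker_eq_top.mp h)
    push Not at hW
    obtain ⟨g, -, x, hx, hgx⟩ := hW
    rw [LinearMap.mem_ker] at hx hgx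
    obtain ⟨b, hbT, hbS⟩ := twg_exists_basis_normal hV T (ρ g) hN2 x hx hgx
    apply twg_transfer ρ b hc hker htr
    intro c' hc' htr'
    have hU : twgU 1 ∈ (twgMatHom ρ b).range := by
      refine ⟨gv, Units.ext ?_⟩
      rw [twgMatHom_val, hbT]
      rfl
    apply twg_coboundary_matrix p hp2 _ hU _ _ hc' htr'
    · rintro _ ⟨g', rfl⟩
      obtain ⟨α, β, h⟩ := hsplit g' (Subgroup.mem_top _)
      exact ⟨α - β, twg_discr_twgMatHom ρ b g' α β h⟩
    · exact ⟨_, ⟨g, rfl⟩, hbS⟩
    · rcases hp3 with h | ⟨g', hg'⟩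
      · exact Or.inl h
      · refine Or.inr ⟨_, ⟨g', rfl⟩, ?_⟩
        rw [twg_det_twgMatHom]
        exact hg'
  · apply twg_transfer ρ b₀ hc hker htr
    intro c' hc' _
    exact twg_coboundary_of_card_ne_zero _ hc' hcard

end Fermat.Agent.TW
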