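/-
P10 / S56 (Taylor–Wiles primes), package G8 (group theory), part (D): vanishing of the invariants
of `ad⁰` and of `ad⁰ ⊗ det` for an irreducible `2`-dimensional representation all of whose
elements have their eigenvalues in `k`.
-/
import Mathlib
import Fermat.Agent.Lib.TW.Group.Normal

set_option autoImplicit false
set_option linter.unusedSimpArgs false

open Polynomial

noncomputable section

namespace Fermat.Agent.TW

variable {k V : Type*} [Field k] [AddCommGroup V] [Module k V]

section
variable [Module.Finite k V]

/-- Cayley–Hamilton for a trace-zero endomorphism of a `2`-dimensional space -/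
theorem twg_sq_eq_of_trace_eq_zero (hV : Module.finrank k V = 2) (x : Module.End k V)
    (htr : LinearMap.trace k V x = 0) : x * x = (-LinearMap.det x) • (1 : Module.End k V) := by
  let b : Module.Basis (Fin 2) k V := Module.finBasisOfFinrankEq k V hV
  have h1 : x.charpoly = X ^ 2 + C (LinearMap.det x) := by
    rw [← LinearMap.charpoly_toMatrix x b, Matrix.charpoly_fin_two,
      ← LinearMap.trace_eq_matrix_trace k b, htr, LinearMap.det_toMatrix]
    simp
  have h2 := LinearMap.aeval_self_charpoly x
  rw [h1] at h2
  simp only [map_add, map_pow, aeval_X, aeval_C] at h2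
  rw [neg_smul, ← sq]
  rw [Algebra.algebraMap_eq_smul_one] at h2
  exact eq_neg_of_add_eq_zero_left h2

end

/-- two linearly independent vectors of a `2`-dimensional space: an endomorphism killing both
vanishes -/
theorem twg_eq_zero_of_pair (hV : Module.finrank k V = 2) {v w : V}
    (hli : LinearIndependent k ![v, w]) (y : Module.End k V) (hv : y v = 0) (hw : y w = 0) :
    y = 0 := by
  have hcard : Fintype.card (Fin 2) = Module.finrank k V := by rw [hV]; rfl
  let b : Module.Basis (Fin 2) k V := basisOfLinearIndependentOfCardEqFinrank hli hcard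
  have hb : ⇑b = ![v, w] := coe_basisOfLinearIndependentOfCardEqFinrank hli hcard
  apply b.ext
  intro i
  rw [hb]
  fin_cases i
  · simpa using hv
  · simpa using hw

theorem twg_exists_ne_zero (hV : Module.finrank k V = 2) : ∃ v : V, v ≠ 0 := by
  have : Nontrivial V := Module.nontrivial_of_finrank_pos (R := k) (by rw [hV]; norm_num)
  exact exists_ne 0

/-- a line is a proper nonzero subspace -/
theorem twg_span_singleton_ne (hV : Module.finrank k V = 2) {v : V} (hv : v ≠ 0) :
    Submodule.span k {v} ≠ ⊥ ∧ Submodule.span k {v} ≠ ⊤ := by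
  constructor
  · rw [Ne, Submodule.span_singleton_eq_bot]
    exact hv
  · intro h
    have h1 := finrank_span_singleton (K := k) hv
    rw [h, finrank_top, hV] at h1
    norm_num at h1

variable {G : Type*} [Group G] [Module.Finite k V]

omit [Module.Finite k V] in
/-- if all `ρ(g)`, `g ∈ G'`, are scalars, then `ρ|G'` is reducible -/
theorem twg_not_irr_of_scalar (hV : Module.finrank k V = 2) (ρ : Representation k G V)
    (G' : Subgroup G) (hsc : ∀ g ∈ G', ∃ a : k, ρ g = a • (1 : Module.End k V)) :
    ¬ TwgIrr ρ G' := by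
  intro hirr
  obtain ⟨v, hv⟩ := twg_exists_ne_zero (k := k) hV
  obtain ⟨h1, h2⟩ := twg_span_singleton_ne hV hv
  rcases hirr (Submodule.span k {v}) (by
    intro g hg x hx
    obtain ⟨a, ha⟩ := hsc g hg
    rw [ha, LinearMap.smul_apply, Module.End.one_apply]
    exact Submodule.smul_mem _ _ hx) with h | h
  · exact h1 h
  · exact h2 h

/-- **(D0)** a trace-zero endomorphism commuting with an irreducible split `ρ|G'` vanishes -/
theorem twg_commutant_trace_zero (h2 : (2 : k) ≠ 0) (hV : Module.finrank k V = 2)
    (ρ : Representation k G V) (G' : Subgroup G) (hirr : TwgIrr ρ G') (hsplit : TwgSplit ρ G')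
    (x : Module.End k V) (htr : LinearMap.trace k V x = 0)
    (hcomm : ∀ g ∈ G', ρ g * x = x * ρ g) : x = 0 := by
  set d : k := -LinearMap.det x with hd
  have hx2 : x * x = d • (1 : Module.End k V) := twg_sq_eq_of_trace_eq_zero hV x htr
  have htr1 : LinearMap.trace k V (1 : Module.End k V) = 2 := by
    rw [LinearMap.trace_one, hV]; norm_num
  by_cases hsq : ∃ δ : k, d = δ ^ 2
  · obtain ⟨δ, hδ⟩ := hsq
    -- `ker (x - δ)` is stable
    have hst : ∀ g ∈ G', ∀ v ∈ LinearMap.ker (x - δ • (1 : Module.End k V)),
        ρ g v ∈ LinearMap.ker (x - δ • (1 : Module.End k V)) := by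
      intro g hg v hv
      rw [LinearMap.mem_ker] at hv ⊢
      have h1 : (x - δ • (1 : Module.End k V)) (ρ g v) = ρ g ((x - δ • (1 : Module.End k V)) v) := by
        simp only [LinearMap.sub_apply, LinearMap.smul_apply, Module.End.one_apply, map_sub,
          map_smul]
        congr 1
        exact (congrArg (fun f : Module.End k V => f v) (hcomm g hg)).symm
      rw [h1, hv, map_zero]
    have hscal : ∀ a : k, x = a • (1 : Module.End k V) → x = 0 := by
      intro a ha
      have h1 : (2 : k) * a = 0 := by
        have := htr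
        rw [ha, map_smul, htr1, smul_eq_mul] at this
        linear_combination this
      have ha0 : a = 0 := (mul_eq_zero.mp h1).resolve_left h2
      rw [ha, ha0, zero_smul]
    rcases hirr _ hst with h | h
    · -- `x - δ` injective, so `x = -δ`
      apply hscal (-δ)
      have h1 : (x - δ • (1 : Module.End k V)) * (x + δ • (1 : Module.End k V)) = 0 := by
        rw [sub_mul, mul_add, mul_add, hx2, hδ]
        simp only [mul_smul_comm, smul_mul_assoc, mul_one, one_mul, smul_smul]
        rw [sq]
        abel
      have h3 : x + δ • (1 : Module.End k V) = 0 := by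
        ext v
        have h4 := congrArg (fun f : Module.End k V => f v) h1
        simp only [Module.End.mul_apply, LinearMap.zero_apply] at h4
        rw [← LinearMap.mem_ker, h, Submodule.mem_bot] at h4
        rw [h4, LinearMap.zero_apply]
      rw [neg_smul]
      exact eq_neg_of_add_eq_zero_left h3
    · apply hscal δ
      have := LinearMap.ker_eq_top.mp h
      exact sub_eq_zero.mp this
  · -- `d` is not a square: all `ρ g` are scalars
    exfalso
    apply twg_not_irr_of_scalar hV ρ G' _ hirr
    intro g hg
    obtain ⟨α, β, hαβ⟩ := hsplit g hg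
    set M := ρ g with hM
    have hyz : (M - α • (1 : Module.End k V)) * (M - β • (1 : Module.End k V)) = 0 := by
      have := LinearMap.aeval_self_charpoly M
      rw [hαβ] at this
      simpa [Algebra.algebraMap_eq_smul_one] using this
    by_cases hz : M - β • (1 : Module.End k V) = 0
    · exact ⟨β, sub_eq_zero.mp hz⟩
    · refine ⟨α, sub_eq_zero.mp ?_⟩
      obtain ⟨u, hu⟩ : ∃ u, (M - β • (1 : Module.End k V)) u ≠ 0 := by
        by_contra hcon
        push Not at hcon
        exact hz (LinearMap.ext hcon)
      set v := (M - β • (1 : Module.End k V)) u with hv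
      have hyv : (M - α • (1 : Module.End k V)) v = 0 := by
        have := congrArg (fun f : Module.End k V => f u) hyz
        simp only [Module.End.mul_apply, LinearMap.zero_apply] at this
        exact this
      have hcommy : (M - α • (1 : Module.End k V)) * x = x * (M - α • (1 : Module.End k V)) := by
        have hc1 : M * x = x * M := hcomm g hg
        rw [sub_mul, mul_sub, hc1]
        simp
      have hyxv : (M - α • (1 : Module.End k V)) (x v) = 0 := by
        have := congrArg (fun f : Module.End k V => f v) hcommy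
        simp only [Module.End.mul_apply] at this
        rw [this, hyv, map_zero]
      apply twg_eq_zero_of_pair hV _ _ hyv hyxv
      rw [LinearIndependent.pair_iff]
      intro s t hst
      have ht : t = 0 := by
        by_contra ht
        apply hsq
        refine ⟨-(s / t), ?_⟩
        have h1 : x v = (-(s / t)) • v := by
          have key : t • x v = -(s • v) := eq_neg_of_add_eq_zero_right hst
          have h0 : x v = t⁻¹ • (t • x v) := by rw [smul_smul, inv_mul_cancel₀ ht, one_smul]
          rw [h0, key, smul_neg, smul_smul, ← neg_smul]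
          congr 1
          rw [div_eq_inv_mul]
        have h3 : x (x v) = d • v := by
          have := congrArg (fun f : Module.End k V => f v) hx2
          simpa using this
        rw [h1, map_smul, h1, smul_smul] at h3
        have h4 : (-(s / t) * -(s / t) - d) • v = 0 := by rw [sub_smul, h3, sub_self]
        have h5 := (smul_eq_zero.mp h4).resolve_right hu
        linear_combination -h5
      rw [ht, zero_smul, add_zero] at hst
      exact ⟨(smul_eq_zero.mp hst).resolve_right hu, ht⟩

/-- the untwisted form of `(D0)`: `(ad⁰ ρ)^G = 0` -/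
theorem twg_ad0_invariants_eq_zero (h2 : (2 : k) ≠ 0) (hV : Module.finrank k V = 2)
    (ρ : Representation k G V) (hirr : TwgIrr ρ ⊤) (hsplit : TwgSplit ρ ⊤)
    (x : Module.End k V) (htr : LinearMap.trace k V x = 0)
    (hinv : ∀ g, ρ g * x * ρ g⁻¹ = x) : x = 0 := by
  apply twg_commutant_trace_zero h2 hV ρ ⊤ hirr hsplit x htr
  intro g _
  have h1 := hinv g
  have h3 : ρ g * x * ρ g⁻¹ * ρ g = ρ g * x := by
    rw [mul_assoc, ← map_mul, inv_mul_cancel, map_one, mul_one]
  rw [← h3, h1]

theorem twg_det_twgAdDetRep (hV : Module.finrank k V = 2) (ρ : Representation k G V) (g : G)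
    (x : Module.End k V) :
    LinearMap.det (twgAdDetRep ρ g x) = LinearMap.det (ρ g) ^ 2 * LinearMap.det x := by
  rw [twgAdDetRep_apply, LinearMap.det_smul, hV, map_mul, map_mul]
  have h1 : LinearMap.det (ρ g) * LinearMap.det (ρ g⁻¹) = 1 := by
    rw [← map_mul, ← map_mul, mul_inv_cancel, map_one, map_one]
  linear_combination (LinearMap.det (ρ g) ^ 2 * LinearMap.det x) * h1

/-- **(D1)** `(ad ⊗ det)^G = 0` if `det(ρ g)² ≠ 1` for some `g` -/
theorem twg_adDet_invariants_eq_zero_of_det (hV : Module.finrank k V = 2)
    (ρ : Representation k G V) (hirr : TwgIrr ρ ⊤) (hdet : ∃ g, LinearMap.det (ρ g) ^ 2 ≠ 1)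
    (x : Module.End k V) (hinv : ∀ g, twgAdDetRep ρ g x = x) : x = 0 := by
  by_contra hx
  obtain ⟨g₀, hg₀⟩ := hdet
  have hdx : LinearMap.det x = 0 := by
    have h1 := twg_det_twgAdDetRep hV ρ g₀ x
    rw [hinv g₀] at h1
    have h3 : (LinearMap.det (ρ g₀) ^ 2 - 1) * LinearMap.det x = 0 := by linear_combination -h1
    exact (mul_eq_zero.mp h3).resolve_left (sub_ne_zero.mpr hg₀)
  have hker : LinearMap.ker x ≠ ⊥ := LinearMap.det_eq_zero_iff_ker_ne_bot.mp hdx
  have hst : ∀ g ∈ (⊤ : Subgroup G), ∀ v ∈ LinearMap.ker x, ρ g v ∈ LinearMap.ker x := by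
    intro g _ v hv
    rw [LinearMap.mem_ker] at hv ⊢
    have h1 := hinv g
    rw [twgAdDetRep_apply] at h1
    have h3 := congrArg (fun f : Module.End k V => f (ρ g v)) h1
    simp only [LinearMap.smul_apply, Module.End.mul_apply] at h3
    rw [← h3]
    have h4 : ρ g⁻¹ (ρ g v) = v := by
      rw [← Module.End.mul_apply, ← map_mul, inv_mul_cancel, map_one, Module.End.one_apply]
    rw [h4, hv, map_zero, smul_zero]
  rcases hirr _ hst with h | h
  · exact hker h
  · exact hx (LinearMap.ker_eq_top.mp h)

/-- the subgroup `{g | det(ρ g) = 1}` -/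
def twgDetKer (ρ : Representation k G V) : Subgroup G :=
  ((LinearMap.det : Module.End k V →* k).comp ρ).ker

omit [Module.Finite k V] in
theorem mem_twgDetKer (ρ : Representation k G V) (g : G) :
    g ∈ twgDetKer ρ ↔ LinearMap.det (ρ g) = 1 := MonoidHom.mem_ker

omit [Module.Finite k V] in
/-- if `det(ρ g)² = 1` for all `g` and `2 ≠ 0`, then `{det = 1}` has index `≤ 2` -/
theorem twg_index_twgDetKer (h2 : (2 : k) ≠ 0) (ρ : Representation k G V)
    (hdet : ∀ g, LinearMap.det (ρ g) ^ 2 = 1) :
    twgDetKer ρ = ⊤ ∨ (twgDetKer ρ).index = 2 := by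
  have hpm : ∀ g, LinearMap.det (ρ g) = 1 ∨ LinearMap.det (ρ g) = -1 := fun g =>
    mul_self_eq_one_iff.mp (by rw [← sq]; exact hdet g)
  by_cases h : ∀ g, LinearMap.det (ρ g) = 1
  · left
    rw [eq_top_iff]
    intro g _
    exact (mem_twgDetKer ρ g).mpr (h g)
  · right
    push Not at h
    obtain ⟨a, ha⟩ := h
    have ha' : LinearMap.det (ρ a) = -1 := (hpm a).resolve_left ha
    have h11 : (1 : k) ≠ -1 := by
      intro h
      apply h2
      linear_combination h
    rw [Subgroup.index_eq_two_iff]
    refine ⟨a, fun b => ?_⟩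
    rw [mem_twgDetKer, mem_twgDetKer, map_mul, map_mul, ha']
    rcases hpm b with hb | hb
    · rw [hb]
      right
      refine ⟨rfl, ?_⟩
      rw [one_mul]
      exact fun h => h11 h.symm
    · rw [hb]
      left
      refine ⟨by ring, ?_⟩
      exact fun h => h11 h.symm

/-- **(D2)** `(ad⁰ ⊗ det)^G = 0` if `ρ` restricted to every subgroup of index `≤ 2` is
irreducible. -/
theorem twg_adDet_invariants_eq_zero (h2 : (2 : k) ≠ 0) (hV : Module.finrank k V = 2)
    (ρ : Representation k G V) (hsplit : TwgSplit ρ ⊤) (hirr : TwgIrr ρ ⊤)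
    (hirr2 : ∀ G' : Subgroup G, G'.index = 2 → TwgIrr ρ G')
    (x : Module.End k V) (htr : LinearMap.trace k V x = 0)
    (hinv : ∀ g, twgAdDetRep ρ g x = x) : x = 0 := by
  by_cases hdet : ∃ g, LinearMap.det (ρ g) ^ 2 ≠ 1
  · exact twg_adDet_invariants_eq_zero_of_det hV ρ hirr hdet x hinv
  · push Not at hdet
    have hirr' : TwgIrr ρ (twgDetKer ρ) := by
      rcases twg_index_twgDetKer h2 ρ hdet with h | h
      · rw [h]; exact hirr
      · exact hirr2 _ h
    apply twg_commutant_trace_zero h2 hV ρ (twgDetKer ρ) hirr'
      (fun g _ => hsplit g (Subgroup.mem_top _)) x htr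
    intro g hg
    rw [mem_twgDetKer] at hg
    have h1 := hinv g
    rw [twgAdDetRep_apply, hg, one_smul] at h1
    have h3 : ρ g * x * ρ g⁻¹ * ρ g = ρ g * x := by
      rw [mul_assoc, ← map_mul, inv_mul_cancel, map_one, mul_one]
    rw [← h3, h1]

end Fermat.Agent.TW
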