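/-
P10 / S56 (Taylor–Wiles primes), package G8 (group theory), part (B): Clifford theory by hand.
If `G' ◁ G` with `G / G'` cyclic, `ρ` is an irreducible `2`-dimensional representation of `G` all
of whose elements have their eigenvalues in `k`, and `ρ` stays irreducible on every subgroup of
index `2` containing `G'`, then `ρ|G'` is irreducible.
-/
import Mathlib
import Fermat.Agent.Lib.TW.Group.Invariants

set_option autoImplicit false
set_option linter.unusedSimpArgs false

open Polynomial

noncomputable section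

namespace Fermat.Agent.TW

variable {k V G : Type*} [Field k] [AddCommGroup V] [Module k V] [Group G]

theorem twg_rho_inv_apply (ρ : Representation k G V) (g : G) (x : V) : ρ g⁻¹ (ρ g x) = x := by
  rw [← Module.End.mul_apply, ← map_mul, inv_mul_cancel, map_one, Module.End.one_apply]

theorem twg_rho_apply_inv (ρ : Representation k G V) (g : G) (x : V) : ρ g (ρ g⁻¹ x) = x := by
  rw [← Module.End.mul_apply, ← map_mul, mul_inv_cancel, map_one, Module.End.one_apply]

theorem twg_rho_injective (ρ : Representation k G V) (g : G) : Function.Injective (ρ g) := by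
  intro x y h
  rw [← twg_rho_inv_apply ρ g x, h, twg_rho_inv_apply]

/-- `e` is a common eigenvector of `ρ(G')` -/
def TwgEig (ρ : Representation k G V) (G' : Subgroup G) (e : V) : Prop :=
  ∀ h ∈ G', ∃ a : k, ρ h e = a • e

/-- the stabilizer of the line `k e` -/
def twgLineStab (ρ : Representation k G V) (e : V) (he : e ≠ 0) : Subgroup G where
  carrier := {g | ∃ a : k, ρ g e = a • e}
  one_mem' := ⟨1, by simp⟩
  mul_mem' := by
    rintro g h ⟨a, ha⟩ ⟨b, hb⟩
    exact ⟨b * a, by rw [map_mul, Module.End.mul_apply, hb, map_smul, ha, smul_smul]⟩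
  inv_mem' := by
    rintro g ⟨a, ha⟩
    have ha0 : a ≠ 0 := by
      rintro rfl
      rw [zero_smul] at ha
      apply he
      rw [← twg_rho_inv_apply ρ g e, ha, map_zero]
    refine ⟨a⁻¹, ?_⟩
    have h1 : ρ g⁻¹ (a • e) = e := by rw [← ha, twg_rho_inv_apply]
    rw [map_smul] at h1
    rw [← h1, smul_smul, inv_mul_cancel₀ ha0, one_smul, h1]

theorem mem_twgLineStab (ρ : Representation k G V) (e : V) (he : e ≠ 0) (g : G) :
    g ∈ twgLineStab ρ e he ↔ ∃ a : k, ρ g e = a • e := Iff.rfl

/-- a subspace of a `2`-dimensional space containing two independent vectors is everything -/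
theorem twg_eq_top_of_pair (hV : Module.finrank k V = 2) {v w : V}
    (hli : LinearIndependent k ![v, w]) (W : Submodule k V) (hv : v ∈ W) (hw : w ∈ W) :
    W = ⊤ := by
  have hcard : Fintype.card (Fin 2) = Module.finrank k V := by rw [hV]; rfl
  let b : Module.Basis (Fin 2) k V := basisOfLinearIndependentOfCardEqFinrank hli hcard
  have hb : ⇑b = ![v, w] := coe_basisOfLinearIndependentOfCardEqFinrank hli hcard
  rw [eq_top_iff]
  intro x _
  rw [← b.sum_repr x]
  apply W.sum_mem
  intro i _
  apply W.smul_mem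
  rw [hb]
  fin_cases i
  · simpa using hv
  · simpa using hw

/-- `e ≠ 0` and `e'` not a multiple of `e`: linearly independent -/
theorem twg_linearIndependent_pair {e e' : V} (he : e ≠ 0) (h : ¬ ∃ a : k, e' = a • e) :
    LinearIndependent k ![e, e'] := by
  rw [LinearIndependent.pair_iff]
  intro s t hst
  have ht : t = 0 := by
    by_contra ht
    apply h
    refine ⟨-(t⁻¹ * s), ?_⟩
    have key : t • e' = -(s • e) := eq_neg_of_add_eq_zero_right hst
    have h0 : e' = t⁻¹ • (t • e') := by rw [smul_smul, inv_mul_cancel₀ ht, one_smul]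
    rw [h0, key, smul_neg, smul_smul, ← neg_smul]
  rw [ht, zero_smul, add_zero] at hst
  exact ⟨(smul_eq_zero.mp hst).resolve_right he, ht⟩

/-- a reducible restriction has a common eigenvector -/
theorem twg_exists_eig_of_not_irr (hV : Module.finrank k V = 2) (ρ : Representation k G V)
    (G' : Subgroup G) (h : ¬ TwgIrr ρ G') : ∃ e : V, e ≠ 0 ∧ TwgEig ρ G' e := by
  unfold TwgIrr at h
  push Not at h
  obtain ⟨W, hst, hbot, htop⟩ := h
  obtain ⟨e, heW, he⟩ := Submodule.exists_mem_ne_zero_of_ne_bot hbot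
  refine ⟨e, he, fun g hg => ?_⟩
  by_contra hcon
  exact htop (twg_eq_top_of_pair hV (twg_linearIndependent_pair he hcon) W heW (hst g hg e heW))

/-- a common eigenvector gives a stable line -/
theorem twg_not_irr_of_eig (hV : Module.finrank k V = 2) (ρ : Representation k G V)
    (G' : Subgroup G) {e : V} (he : e ≠ 0) (h : TwgEig ρ G' e) : ¬ TwgIrr ρ G' := by
  intro hirr
  obtain ⟨h1, h2⟩ := twg_span_singleton_ne (k := k) hV he
  rcases hirr (Submodule.span k {e}) (by
    intro g hg x hx
    obtain ⟨a, ha⟩ := h g hg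
    obtain ⟨c, rfl⟩ := Submodule.mem_span_singleton.mp hx
    rw [map_smul, ha]
    exact Submodule.smul_mem _ _ (Submodule.smul_mem _ _ (Submodule.mem_span_singleton_self e)))
    with h' | h'
  · exact h1 h'
  · exact h2 h'

/-- translates of common eigenvectors of a normal subgroup are common eigenvectors -/
theorem TwgEig.translate {ρ : Representation k G V} {G' : Subgroup G} [G'.Normal] {e : V}
    (h : TwgEig ρ G' e) (g : G) : TwgEig ρ G' (ρ g e) := by
  intro x hx
  have hx' : g⁻¹ * x * g ∈ G' := by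
    have := Subgroup.Normal.conj_mem (inferInstance : G'.Normal) x hx g⁻¹
    rwa [inv_inv] at this
  obtain ⟨a, ha⟩ := h _ hx'
  refine ⟨a, ?_⟩
  have h1 : ρ x (ρ g e) = ρ g (ρ (g⁻¹ * x * g) e) := by
    rw [← Module.End.mul_apply, ← Module.End.mul_apply, ← map_mul, ← map_mul]
    congr 2
    group
  rw [h1, ha, map_smul]

/-- an endomorphism killed by a split quadratic polynomial has an eigenvector -/
theorem twg_exists_eigenvector (hV : Module.finrank k V = 2) (M : Module.End k V) (α β : k)
    (h : (M - α • (1 : Module.End k V)) * (M - β • (1 : Module.End k V)) = 0) :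
    ∃ v : V, v ≠ 0 ∧ ∃ a : k, M v = a • v := by
  by_cases hz : M - β • (1 : Module.End k V) = 0
  · obtain ⟨v, hv⟩ := twg_exists_ne_zero (k := k) hV
    refine ⟨v, hv, β, ?_⟩
    have := congrArg (fun f : Module.End k V => f v) hz
    simp only [LinearMap.sub_apply, LinearMap.smul_apply, Module.End.one_apply,
      LinearMap.zero_apply] at this
    exact sub_eq_zero.mp this
  · obtain ⟨u, hu⟩ : ∃ u, (M - β • (1 : Module.End k V)) u ≠ 0 := by
      by_contra hcon
      push Not at hcon
      exact hz (LinearMap.ext hcon)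
    refine ⟨_, hu, α, ?_⟩
    have := congrArg (fun f : Module.End k V => f u) h
    simp only [Module.End.mul_apply, LinearMap.zero_apply] at this
    rw [LinearMap.sub_apply, LinearMap.smul_apply, Module.End.one_apply] at this
    exact sub_eq_zero.mp this

/-- three pairwise independent common eigenvectors: `ρ(G')` consists of scalars -/
theorem twg_scalar_of_three_eig (hV : Module.finrank k V = 2) (ρ : Representation k G V)
    (G' : Subgroup G) {e e' : V} (hli : LinearIndependent k ![e, e']) (a b : k) (ha : a ≠ 0)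
    (hb : b ≠ 0) (h1 : TwgEig ρ G' e) (h2 : TwgEig ρ G' e') (h3 : TwgEig ρ G' (a • e + b • e')) :
    ∀ h ∈ G', ∃ c : k, ρ h = c • (1 : Module.End k V) := by
  intro h hh
  obtain ⟨l, hl⟩ := h1 h hh
  obtain ⟨l', hl'⟩ := h2 h hh
  obtain ⟨l'', hl''⟩ := h3 h hh
  rw [map_add, map_smul, map_smul, hl, hl', smul_add, smul_smul, smul_smul, smul_smul,
    smul_smul] at hl''
  have h4 : (a * l - l'' * a) • e + (b * l' - l'' * b) • e' = 0 := by
    rw [sub_smul, sub_smul]
    rw [← sub_eq_zero] at hl''
    rw [← hl'']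
    abel
  obtain ⟨h5, h6⟩ := LinearIndependent.pair_iff.mp hli _ _ h4
  have e1 : l = l'' := by
    have : a * (l - l'') = 0 := by linear_combination h5
    exact sub_eq_zero.mp ((mul_eq_zero.mp this).resolve_left ha)
  have e2 : l' = l'' := by
    have : b * (l' - l'') = 0 := by linear_combination h6
    exact sub_eq_zero.mp ((mul_eq_zero.mp this).resolve_left hb)
  refine ⟨l'', ?_⟩
  rw [← sub_eq_zero]
  apply twg_eq_zero_of_pair hV hli
  · rw [LinearMap.sub_apply, LinearMap.smul_apply, Module.End.one_apply, hl, e1, sub_self]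
  · rw [LinearMap.sub_apply, LinearMap.smul_apply, Module.End.one_apply, hl', e2, sub_self]

/-- **(B)** Clifford theory by hand: `ρ|G'` is irreducible. -/
theorem twg_irr_of_normal_cyclic [Module.Finite k V] (hV : Module.finrank k V = 2)
    (ρ : Representation k G V) (G' : Subgroup G) [G'.Normal]
    (hcyc : ∃ g₀ : G, ∀ g : G, ∃ m : ℤ, g * g₀ ^ m ∈ G')
    (hsplit : TwgSplit ρ ⊤) (hirr : TwgIrr ρ ⊤)
    (hirr2 : ∀ S : Subgroup G, G' ≤ S → S.index = 2 → TwgIrr ρ S) : TwgIrr ρ G' := by
  by_contra hred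
  obtain ⟨e, he, heig⟩ := twg_exists_eig_of_not_irr hV ρ G' hred
  by_cases h1 : ∀ g, ∃ a : k, ρ g e = a • e
  · exact twg_not_irr_of_eig hV ρ ⊤ he (fun g _ => h1 g) hirr
  push Not at h1
  obtain ⟨g₁, hg₁⟩ := h1
  set e' := ρ g₁ e with he'
  have heig' : TwgEig ρ G' e' := heig.translate g₁
  have hli : LinearIndependent k ![e, e'] :=
    twg_linearIndependent_pair he (fun ⟨a, ha⟩ => hg₁ a ha)
  have hcard : Fintype.card (Fin 2) = Module.finrank k V := by rw [hV]; rfl
  let b : Module.Basis (Fin 2) k V := basisOfLinearIndependentOfCardEqFinrank hli hcard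
  have hb : ⇑b = ![e, e'] := coe_basisOfLinearIndependentOfCardEqFinrank hli hcard
  have hexp : ∀ x : V, x = b.repr x 0 • e + b.repr x 1 • e' := by
    intro x
    have h := b.sum_repr x
    rw [Fin.sum_univ_two, hb] at h
    simpa using h.symm
  by_cases h2 : ∀ g, (∃ a : k, ρ g e = a • e) ∨ (∃ a : k, ρ g e = a • e')
  · -- the stabilizer of `k e` has index `2`
    refine twg_not_irr_of_eig hV ρ (twgLineStab ρ e he) he (fun g hg => hg)
      (hirr2 (twgLineStab ρ e he) (fun g hg => heig g hg) ?_)
    rw [Subgroup.index_eq_two_iff]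
    refine ⟨g₁, fun x => ?_⟩
    have hkey : ∀ (l m : k), l ≠ 0 → ρ x e = l • e → ρ x e' ≠ m • e := by
      intro l m hl h3 h4
      have h5 : ρ x (e' - (m * l⁻¹) • e) = 0 := by
        rw [map_sub, map_smul, h3, h4, smul_smul, inv_mul_cancel_right₀ hl, sub_self]
      have h6 := (map_eq_zero_iff _ (twg_rho_injective ρ x)).mp h5
      exact hg₁ _ (sub_eq_zero.mp h6)
    have hkey' : ∀ (l m : k), l ≠ 0 → ρ x e = l • e' → ρ x e' ≠ m • e' := by
      intro l m hl h3 h4
      have h5 : ρ x (e' - (m * l⁻¹) • e) = 0 := by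
        rw [map_sub, map_smul, h3, h4, smul_smul, inv_mul_cancel_right₀ hl, sub_self]
      have h6 := (map_eq_zero_iff _ (twg_rho_injective ρ x)).mp h5
      exact hg₁ _ (sub_eq_zero.mp h6)
    have hne : ∀ (l : k) (y : V), ρ x e = l • y → l ≠ 0 := by
      rintro l y h3 rfl
      rw [zero_smul] at h3
      exact he ((map_eq_zero_iff _ (twg_rho_injective ρ x)).mp h3)
    by_cases hx : x ∈ twgLineStab ρ e he
    · right
      refine ⟨hx, ?_⟩
      obtain ⟨l, hl⟩ := hx
      rintro ⟨m, hm⟩
      rw [map_mul, Module.End.mul_apply] at hm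
      exact hkey l m (hne l e hl) hl hm
    · left
      refine ⟨?_, hx⟩
      rcases h2 x with h3 | ⟨l, hl⟩
      · exact absurd h3 hx
      · rcases h2 (x * g₁) with h4 | ⟨m, hm⟩
        · exact h4
        · rw [map_mul, Module.End.mul_apply] at hm
          exact absurd hm (hkey' l m (hne l e' hl) hl)
  · -- a third eigenline: `ρ(G')` consists of scalars
    push Not at h2
    obtain ⟨g₂, hg₂a, hg₂b⟩ := h2
    have h3 := hexp (ρ g₂ e)
    set a := b.repr (ρ g₂ e) 0 with ha
    set c := b.repr (ρ g₂ e) 1 with hc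
    have ha0 : a ≠ 0 := by
      intro h0
      rw [h0, zero_smul, zero_add] at h3
      exact hg₂b c h3
    have hc0 : c ≠ 0 := by
      intro h0
      rw [h0, zero_smul, add_zero] at h3
      exact hg₂a a h3
    have heig'' : TwgEig ρ G' (a • e + c • e') := by
      rw [← h3]
      exact heig.translate g₂
    have hscal := twg_scalar_of_three_eig hV ρ G' hli a c ha0 hc0 heig heig' heig''
    obtain ⟨g₀, hg₀⟩ := hcyc
    obtain ⟨α, β, hαβ⟩ := hsplit g₀ (Subgroup.mem_top _)
    have hyz : (ρ g₀ - α • (1 : Module.End k V)) * (ρ g₀ - β • (1 : Module.End k V)) = 0 := by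
      have := LinearMap.aeval_self_charpoly (ρ g₀)
      rw [hαβ] at this
      simpa [Algebra.algebraMap_eq_smul_one] using this
    obtain ⟨v, hv, hveig⟩ := twg_exists_eigenvector hV (ρ g₀) α β hyz
    apply twg_not_irr_of_eig hV ρ ⊤ hv _ hirr
    intro g _
    have hg₀mem : g₀ ∈ twgLineStab ρ v hv := hveig
    obtain ⟨m, hm⟩ := hg₀ g
    have h4 : g * g₀ ^ m ∈ twgLineStab ρ v hv := by
      obtain ⟨c', hc'⟩ := hscal _ hm
      exact ⟨c', by rw [hc', LinearMap.smul_apply, Module.End.one_apply]⟩
    have h5 : g = g * g₀ ^ m * (g₀ ^ m)⁻¹ := by group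
    have h6 : g ∈ twgLineStab ρ v hv := by
      rw [h5]
      exact Subgroup.mul_mem _ h4 (Subgroup.inv_mem _ (Subgroup.zpow_mem _ hg₀mem m))
    exact h6

end Fermat.Agent.TW
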