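/-
P10 / S56 (Taylor–Wiles primes), package G8 (group theory), part (C): the trace-zero parts of the
regular semisimple elements of an irreducible split subgroup of `SL₂(k)` span `sl₂(k)`: for every
non-zero trace-zero `w` there is a regular semisimple `s` with `tr(w ρ(s)) ≠ 0`.
-/
import Mathlib
import Fermat.Agent.Lib.TW.Group.Clifford

set_option autoImplicit false
set_option linter.unusedSimpArgs false

open Matrix Polynomial

noncomputable section

namespace Fermat.Agent.TW

variable {k : Type*} [Field k]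

theorem twg_trace_mul_val (B : Matrix (Fin 2) (Fin 2) k) (h : GL (Fin 2) k) :
    (B * h.val).trace = B 0 0 * h 0 0 + B 0 1 * h 1 0 + B 1 0 * h 0 1 + B 1 1 * h 1 1 := by
  rw [Matrix.trace_fin_two]
  simp only [Matrix.mul_apply, Fin.sum_univ_two]
  show B 0 0 * h 0 0 + B 0 1 * h 1 0 + (B 1 0 * h 0 1 + B 1 1 * h 1 1) = _
  ring

theorem twg_discr_val (h : GL (Fin 2) k) :
    h.val.discr = (h 0 0 + h 1 1) ^ 2 - 4 * (h 0 0 * h 1 1 - h 0 1 * h 1 0) := by
  rw [Matrix.discr_fin_two, Matrix.trace_fin_two, Matrix.det_fin_two]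

/-- **(C), unipotent case, matrix form.**  If `H` contains `u_1` and an element `g` with
`g 0 0 = 0`, a trace-zero matrix orthogonal to all elements of `H` with non-zero discriminant
vanishes. -/
theorem twg_eq_zero_of_orthogonal_unipotent (h2 : (2 : k) ≠ 0) (H : Subgroup (GL (Fin 2) k))
    (hU : twgU 1 ∈ H) {g : GL (Fin 2) k} (hg : g ∈ H) (hg00 : g 0 0 = 0)
    (B : Matrix (Fin 2) (Fin 2) k) (htr : B.trace = 0)
    (hB : ∀ h ∈ H, h.val.discr ≠ 0 → (B * h.val).trace = 0) : B = 0 := by
  have hdet := twg_det_ne_zero g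
  rw [hg00, zero_mul, zero_sub, neg_ne_zero] at hdet
  have h01 : g 0 1 ≠ 0 := left_ne_zero_of_mul hdet
  have h10 : g 1 0 ≠ 0 := right_ne_zero_of_mul hdet
  set t : k := g 1 0 / g 0 1 with ht
  have ht0 : t ≠ 0 := div_ne_zero h10 h01
  have hL : twgL t ∈ H := by
    have h1 := twg_zero_mul_twgU g hg00 1
    rw [mul_one] at h1
    have h3 : twgL t = g * twgU 1 * g⁻¹ := by rw [h1, mul_inv_cancel_right]
    rw [h3]
    exact H.mul_mem (H.mul_mem hg hU) (H.inv_mem hg)
  have hUx : ∀ n : ℤ, twgU (n : k) ∈ H := by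
    intro n
    have h1 : twgU (n : k) = twgU 1 ^ n := by
      induction n using Int.induction_on with
      | zero => simp [twgU_zero]
      | succ n ih =>
        rw [_root_.zpow_add_one, ← ih, ← twgU_add]
        push_cast
        rfl
      | pred n ih =>
        rw [_root_.zpow_sub_one, ← ih, ← twgU_neg, ← twgU_add]
        push_cast
        congr 1
        ring
    rw [h1]
    exact H.zpow_mem hU n
  have hU1 : twgU (1 : k) ∈ H := hU
  have hUm1 : twgU (-1 : k) ∈ H := by simpa using hUx (-1)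
  have hU2 : twgU (2 : k) ∈ H := by simpa using hUx 2
  have hLm : twgL (-t) ∈ H := by rw [twgL_neg]; exact H.inv_mem hL
  have htrB : B 1 1 = -B 0 0 := by
    rw [Matrix.trace_fin_two] at htr
    linear_combination htr
  have h4 : (4 : k) ≠ 0 := by
    have : (4 : k) = 2 * 2 := by norm_num
    rw [this]
    exact mul_ne_zero h2 h2
  -- the six regular elements
  have e1 := hB _ (H.mul_mem hU1 hL)
  have e2 := hB _ (H.mul_mem hUm1 hLm)
  have e5 := hB _ (H.mul_mem (H.mul_mem hU2 hL) hUm1)
  have e3 := hB _ (H.mul_mem hU1 hLm)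
  have e4 := hB _ (H.mul_mem hUm1 hL)
  have e6 := hB _ (H.mul_mem (H.mul_mem hU2 hLm) hUm1)
  rw [twg_discr_val, twg_trace_mul_val] at e1 e2 e3 e4 e5 e6
  simp only [twg_mul_00, twg_mul_01, twg_mul_10, twg_mul_11, twgU_00, twgU_01, twgU_10, twgU_11,
    twgL_00, twgL_01, twgL_10, twgL_11, htrB] at e1 e2 e3 e4 e5 e6
  have hzero : B 0 0 = 0 ∧ B 0 1 = 0 ∧ B 1 0 = 0 := by
    by_cases ht4 : t + 4 = 0
    · have hd : t * (t - 4) ≠ 0 := by
        apply mul_ne_zero ht0
        intro h
        apply h4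
        have : (8 : k) = 0 := by linear_combination -h + ht4
        have h8 : (8 : k) = 2 * 4 := by norm_num
        rw [h8] at this
        exact (mul_eq_zero.mp this).resolve_left h2
      have e3' := e3 (by intro h; apply hd; linear_combination h)
      have e4' := e4 (by intro h; apply hd; linear_combination h)
      have e6' := e6 (by intro h; apply hd; linear_combination h)
      have hB00 : B 0 0 = 0 := by
        have : (2 * t) * B 0 0 = 0 := by linear_combination -e3' - e4'
        exact (mul_eq_zero.mp this).resolve_left (mul_ne_zero h2 ht0)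
      have hB10 : B 1 0 = t * B 0 1 := by linear_combination e3' + t * hB00
      have hB01 : B 0 1 = 0 := by
        have : (2 * t ^ 2) * B 0 1 = 0 := by
          linear_combination e6' + (3 * t) * hB00 - (1 + 2 * t) * hB10
        exact (mul_eq_zero.mp this).resolve_left (mul_ne_zero h2 (pow_ne_zero 2 ht0))
      exact ⟨hB00, hB01, by rw [hB10, hB01, mul_zero]⟩
    · have hd : t * (t + 4) ≠ 0 := mul_ne_zero ht0 ht4
      have e1' := e1 (by intro h; apply hd; linear_combination h)
      have e2' := e2 (by intro h; apply hd; linear_combination h)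
      have e5' := e5 (by intro h; apply hd; linear_combination h)
      have hB00 : B 0 0 = 0 := by
        have : (2 * t) * B 0 0 = 0 := by linear_combination e1' + e2'
        exact (mul_eq_zero.mp this).resolve_left (mul_ne_zero h2 ht0)
      have hB10 : B 1 0 = -t * B 0 1 := by linear_combination e1' - t * hB00
      have hB01 : B 0 1 = 0 := by
        have : (2 * t ^ 2) * B 0 1 = 0 := by
          linear_combination e5' - (3 * t) * hB00 - (1 - 2 * t) * hB10
        exact (mul_eq_zero.mp this).resolve_left (mul_ne_zero h2 (pow_ne_zero 2 ht0))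
      exact ⟨hB00, hB01, by rw [hB10, hB01, mul_zero]⟩
  obtain ⟨hB00, hB01, hB10⟩ := hzero
  ext i j
  fin_cases i <;> fin_cases j
  · exact hB00
  · exact hB01
  · exact hB10
  · show B 1 1 = 0
    rw [htrB, hB00, neg_zero]

/-- **(C), semisimple case, matrix form.**  If `H` contains a diagonal element with distinct
diagonal entries and elements with non-zero `(1,0)` resp. `(0,1)` entries, a matrix orthogonal
to all elements of `H` vanishes. -/
theorem twg_eq_zero_of_orthogonal_diag (H : Subgroup (GL (Fin 2) k))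
    {D : GL (Fin 2) k} (hD : D ∈ H) (hD01 : D 0 1 = 0) (hD10 : D 1 0 = 0) (hDne : D 0 0 ≠ D 1 1)
    {g : GL (Fin 2) k} (hg : g ∈ H) (hg10 : g 1 0 ≠ 0)
    {g' : GL (Fin 2) k} (hg' : g' ∈ H) (hg'01 : g' 0 1 ≠ 0)
    (B : Matrix (Fin 2) (Fin 2) k) (hB : ∀ h ∈ H, (B * h.val).trace = 0) : B = 0 := by
  have hsub : D 0 0 - D 1 1 ≠ 0 := sub_ne_zero.mpr hDne
  have e1 := hB 1 H.one_mem
  have eD := hB D hD
  rw [twg_trace_mul_val] at e1 eD
  simp only [twg_one_00, twg_one_01, twg_one_10, twg_one_11, hD01, hD10] at e1 eD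
  have hB00 : B 0 0 = 0 := by
    have : (D 0 0 - D 1 1) * B 0 0 = 0 := by linear_combination eD - D 1 1 * e1
    exact (mul_eq_zero.mp this).resolve_left hsub
  have hB11 : B 1 1 = 0 := by linear_combination e1 - hB00
  have key : ∀ M ∈ H, B 0 1 * M 1 0 = 0 ∧ B 1 0 * M 0 1 = 0 := by
    intro M hM
    have eM := hB M hM
    have eMD := hB (M * D) (H.mul_mem hM hD)
    rw [twg_trace_mul_val] at eM eMD
    simp only [twg_mul_00, twg_mul_01, twg_mul_10, twg_mul_11, hD01, hD10, hB00, hB11] at eM eMD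
    constructor
    · have : (D 0 0 - D 1 1) * (B 0 1 * M 1 0) = 0 := by linear_combination eMD - D 1 1 * eM
      exact (mul_eq_zero.mp this).resolve_left hsub
    · have : (D 0 0 - D 1 1) * (B 1 0 * M 0 1) = 0 := by linear_combination -eMD + D 0 0 * eM
      exact (mul_eq_zero.mp this).resolve_left hsub
  have hB01 : B 0 1 = 0 := (mul_eq_zero.mp (key g hg).1).resolve_right hg10
  have hB10 : B 1 0 = 0 := (mul_eq_zero.mp (key g' hg').2).resolve_right hg'01
  ext i j
  fin_cases i <;> fin_cases j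
  · exact hB00
  · exact hB01
  · exact hB10
  · exact hB11

variable {V G : Type*} [AddCommGroup V] [Module k V] [Group G]

/-- a unipotent `T ≠ 1` and an irreducible `ρ|G'`: some `ρ(g)`, `g ∈ G'`, moves the fixed line
of `T` -/
theorem twg_exists_moving (ρ : Representation k G V) (G' : Subgroup G) (hirr : TwgIrr ρ G')
    (T : Module.End k V) (hT2 : (T - 1) ^ 2 = 0) (hT1 : T ≠ 1) :
    ∃ g ∈ G', ∃ x : V, (T - 1) x = 0 ∧ (T - 1) (ρ g x) ≠ 0 := by
  have hN0 : T - 1 ≠ 0 := sub_ne_zero.mpr hT1
  have hW : ¬ (∀ g ∈ G', ∀ x ∈ LinearMap.ker (T - 1), ρ g x ∈ LinearMap.ker (T - 1)) := by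
    intro hst
    rcases hirr _ hst with h | h
    · obtain ⟨v, hv⟩ : ∃ v, (T - 1) v ≠ 0 := by
        by_contra hcon
        push Not at hcon
        exact hN0 (LinearMap.ext hcon)
      have : (T - 1) v ∈ LinearMap.ker (T - 1) := by
        rw [LinearMap.mem_ker]
        have := congrArg (fun f : Module.End k V => f v) hT2
        simpa [sq] using this
      rw [h, Submodule.mem_bot] at this
      exact hv this
    · exact hN0 (LinearMap.ker_eq_top.mp h)
  push Not at hW
  obtain ⟨g, hg, x, hx, hgx⟩ := hW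
  rw [LinearMap.mem_ker] at hx hgx
  exact ⟨g, hg, x, hx, hgx⟩

theorem twg_mul_comm_sub_smul (M : Module.End k V) (α β : k) :
    (M - α • (1 : Module.End k V)) * (M - β • (1 : Module.End k V)) =
      (M - β • (1 : Module.End k V)) * (M - α • (1 : Module.End k V)) := by
  simp only [sub_mul, mul_sub, smul_mul_assoc, mul_smul_comm, one_mul, mul_one, smul_sub,
    smul_smul]
  rw [mul_comm α β]
  abel

/-- an eigenbasis of a non-scalar endomorphism killed by `(X - α)(X - β)`, `α ≠ β` -/
theorem twg_exists_eigenbasis (hV : Module.finrank k V = 2) (M : Module.End k V) (α β : k)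
    (hαβ : α ≠ β)
    (h : (M - α • (1 : Module.End k V)) * (M - β • (1 : Module.End k V)) = 0)
    (hns : ¬ ∃ a : k, M = a • (1 : Module.End k V)) :
    ∃ b : Module.Basis (Fin 2) k V, M (b 0) = α • b 0 ∧ M (b 1) = β • b 1 := by
  have h' : (M - β • (1 : Module.End k V)) * (M - α • (1 : Module.End k V)) = 0 := by
    rw [← twg_mul_comm_sub_smul, h]
  have hex : ∀ γ δ : k, (M - γ • (1 : Module.End k V)) * (M - δ • (1 : Module.End k V)) = 0 →
      ∃ v : V, v ≠ 0 ∧ M v = γ • v := by
    intro γ δ hγδ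
    have hz : M - δ • (1 : Module.End k V) ≠ 0 := fun hz => hns ⟨δ, sub_eq_zero.mp hz⟩
    obtain ⟨u, hu⟩ : ∃ u, (M - δ • (1 : Module.End k V)) u ≠ 0 := by
      by_contra hcon
      push Not at hcon
      exact hz (LinearMap.ext hcon)
    refine ⟨_, hu, ?_⟩
    have := congrArg (fun f : Module.End k V => f u) hγδ
    simp only [Module.End.mul_apply, LinearMap.zero_apply] at this
    rw [LinearMap.sub_apply, LinearMap.smul_apply, Module.End.one_apply] at this
    exact sub_eq_zero.mp this
  obtain ⟨v₁, hv₁, hMv₁⟩ := hex α β h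
  obtain ⟨v₂, hv₂, hMv₂⟩ := hex β α h'
  have hli : LinearIndependent k ![v₁, v₂] := by
    apply twg_linearIndependent_pair hv₁
    rintro ⟨a, ha⟩
    have h1 : M v₂ = α • v₂ := by rw [ha, map_smul, hMv₁, smul_comm]
    rw [hMv₂] at h1
    have h3 : (β - α) • v₂ = 0 := by rw [sub_smul, h1, sub_self]
    rcases smul_eq_zero.mp h3 with h4 | h4
    · exact hαβ (sub_eq_zero.mp h4).symm
    · exact hv₂ h4
  have hcard : Fintype.card (Fin 2) = Module.finrank k V := by rw [hV]; rfl
  let b : Module.Basis (Fin 2) k V := basisOfLinearIndependentOfCardEqFinrank hli hcard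
  have hb : ⇑b = ![v₁, v₂] := coe_basisOfLinearIndependentOfCardEqFinrank hli hcard
  refine ⟨b, ?_, ?_⟩
  · rw [hb]; exact hMv₁
  · rw [hb]; exact hMv₂

theorem twg_trace_toMatrix_mul (b : Module.Basis (Fin 2) k V) (ρ : Representation k G V)
    (w : Module.End k V) (g : G) :
    (LinearMap.toMatrix b b w * (twgMatHom ρ b g).val).trace = LinearMap.trace k V (w * ρ g) := by
  rw [twgMatHom_val, ← LinearMap.toMatrix_mul, ← LinearMap.trace_eq_matrix_trace k b]

/-- `det` from the characteristic polynomial -/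
theorem twg_det_of_charpoly [Module.Finite k V] (hV : Module.finrank k V = 2)
    (M : Module.End k V) (α β : k) (h : LinearMap.charpoly M = (X - C α) * (X - C β)) :
    LinearMap.trace k V M = α + β ∧ LinearMap.det M = α * β := by
  let b : Module.Basis (Fin 2) k V := Module.finBasisOfFinrankEq k V hV
  have h1 : (LinearMap.toMatrix b b M).charpoly = (X - C α) * (X - C β) := by
    rw [LinearMap.charpoly_toMatrix, h]
  obtain ⟨ht, hd⟩ := twg_trace_det_of_charpoly _ α β h1
  rw [← LinearMap.trace_eq_matrix_trace k b] at ht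
  rw [LinearMap.det_toMatrix] at hd
  exact ⟨ht, hd⟩

theorem twg_aeval_charpoly [Module.Finite k V] (M : Module.End k V) (α β : k)
    (h : LinearMap.charpoly M = (X - C α) * (X - C β)) :
    (M - α • (1 : Module.End k V)) * (M - β • (1 : Module.End k V)) = 0 := by
  have := LinearMap.aeval_self_charpoly M
  rw [h] at this
  simpa [Algebra.algebraMap_eq_smul_one] using this

/-- **(C)**  Let `ρ|G'` be irreducible with all eigenvalues in `k` and determinant `1`
(`dim V = 2`, `2 ≠ 0` in `k`).  For every non-zero trace-zero endomorphism `w` there is `s ∈ G'`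
such that `ρ(s)` has distinct eigenvalues `α ≠ β` in `k` and `tr(w ρ(s)) ≠ 0`. -/
theorem twg_exists_regular_trace_ne_zero [Module.Finite k V] (h2 : (2 : k) ≠ 0)
    (hV : Module.finrank k V = 2) (ρ : Representation k G V) (G' : Subgroup G)
    (hirr : TwgIrr ρ G') (hsplit : TwgSplit ρ G') (hdet : ∀ g ∈ G', LinearMap.det (ρ g) = 1)
    (w : Module.End k V) (htr : LinearMap.trace k V w = 0) (hw : w ≠ 0) :
    ∃ s ∈ G', ∃ α β : k, α ≠ β ∧ LinearMap.charpoly (ρ s) = (X - C α) * (X - C β) ∧
      LinearMap.trace k V (w * ρ s) ≠ 0 := by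
  by_contra hcon
  push Not at hcon
  -- common part: conclude from a basis
  have hfinish : ∀ b : Module.Basis (Fin 2) k V, LinearMap.toMatrix b b w = 0 → False := by
    intro b hb
    apply hw
    apply (LinearMap.toMatrix b b).injective
    rw [hb, map_zero]
  have hreg : ∀ (b : Module.Basis (Fin 2) k V), ∀ s ∈ G', (twgMatHom ρ b s).val.discr ≠ 0 →
      (LinearMap.toMatrix b b w * (twgMatHom ρ b s).val).trace = 0 := by
    intro b s hs hd
    obtain ⟨α, β, hαβ⟩ := hsplit s hs
    rw [twg_discr_twgMatHom ρ b s α β hαβ] at hd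
    have hne : α ≠ β := by
      rintro rfl
      apply hd
      ring
    rw [twg_trace_toMatrix_mul]
    exact hcon s hs α β hne hαβ
  by_cases hI : ∃ s ∈ G', (∃ α : k, LinearMap.charpoly (ρ s) = (X - C α) * (X - C α)) ∧
      ¬ ∃ a : k, ρ s = a • (1 : Module.End k V)
  · -- unipotent case
    obtain ⟨s, hs, ⟨α, hα⟩, hns⟩ := hI
    have hα2 : α * α = 1 := by
      rw [← (twg_det_of_charpoly hV (ρ s) α α hα).2, hdet s hs]
    have hα0 : α ≠ 0 := left_ne_zero_of_mul_eq_one hα2
    set N₀ := ρ s - α • (1 : Module.End k V) with hN₀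
    have hN₀2 : N₀ * N₀ = 0 := twg_aeval_charpoly (ρ s) α α hα
    have hN₀0 : N₀ ≠ 0 := fun h => hns ⟨α, sub_eq_zero.mp h⟩
    have hρs : ρ s = α • (1 : Module.End k V) + N₀ := by rw [hN₀]; abel
    have hT : ρ (s * s) - 1 = (2 * α) • N₀ := by
      have e : ρ (s * s) = (α * α) • (1 : Module.End k V) + (α • N₀ + α • N₀) + N₀ * N₀ := by
        rw [map_mul, hρs]
        simp only [add_mul, mul_add, smul_mul_assoc, mul_smul_comm, one_mul, mul_one, smul_add,
          smul_smul]
        abel
      rw [e, hα2, hN₀2, one_smul, add_zero, two_mul, add_smul]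
      abel
    have hT2 : (ρ (s * s) - 1) ^ 2 = 0 := by
      rw [hT, sq, smul_mul_smul_comm, hN₀2, smul_zero]
    have hT1 : ρ (s * s) ≠ 1 := by
      intro h
      rw [h, sub_self] at hT
      rcases smul_eq_zero.mp hT.symm with h3 | h3
      · exact (mul_ne_zero h2 hα0) h3
      · exact hN₀0 h3
    obtain ⟨g, hg, x, hx, hgx⟩ := twg_exists_moving ρ G' hirr (ρ (s * s)) hT2 hT1
    obtain ⟨b, hbT, hbS⟩ := twg_exists_basis_normal hV (ρ (s * s)) (ρ g) hT2 x hx hgx
    apply hfinish b
    apply twg_eq_zero_of_orthogonal_unipotent h2 (G'.map (twgMatHom ρ b)) _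
      (Subgroup.mem_map_of_mem _ hg) hbS
    · rw [← LinearMap.trace_eq_matrix_trace k b, htr]
    · rintro _ ⟨s', hs', rfl⟩ hd
      exact hreg b s' hs' hd
    · refine ⟨s * s, G'.mul_mem hs hs, Units.ext ?_⟩
      rw [twgMatHom_val, hbT]
      rfl
  · -- semisimple case
    push Not at hI
    obtain ⟨s₀, hs₀, hns⟩ : ∃ s₀ ∈ G', ¬ ∃ a : k, ρ s₀ = a • (1 : Module.End k V) := by
      by_contra hcon'
      push Not at hcon'
      exact twg_not_irr_of_scalar hV ρ G' hcon' hirr
    obtain ⟨α, β, hαβ⟩ := hsplit s₀ hs₀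
    have hne : α ≠ β := by
      rintro rfl
      exact hns (hI s₀ hs₀ ⟨α, hαβ⟩)
    obtain ⟨b, hb0, hb1⟩ := twg_exists_eigenbasis hV (ρ s₀) α β hne
      (twg_aeval_charpoly (ρ s₀) α β hαβ) hns
    apply hfinish b
    have hentry : ∀ (g : G) (i j : Fin 2), (twgMatHom ρ b g) i j = b.repr (ρ g (b j)) i := by
      intro g i j
      show (twgMatHom ρ b g).val i j = _
      rw [twgMatHom_val, LinearMap.toMatrix_apply]
    -- an element with non-zero `(1,0)` entry
    obtain ⟨g, hg, hg10⟩ : ∃ g ∈ G', (twgMatHom ρ b g) 1 0 ≠ 0 := by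
      by_contra hcon'
      push Not at hcon'
      apply twg_not_irr_of_eig hV ρ G' (b.ne_zero 0) _ hirr
      intro g hg
      refine ⟨b.repr (ρ g (b 0)) 0, ?_⟩
      have h1 := b.sum_repr (ρ g (b 0))
      rw [Fin.sum_univ_two] at h1
      have h3 := hcon' g hg
      rw [hentry] at h3
      rw [h3, zero_smul, add_zero] at h1
      exact h1.symm
    obtain ⟨g', hg', hg'01⟩ : ∃ g ∈ G', (twgMatHom ρ b g) 0 1 ≠ 0 := by
      by_contra hcon'
      push Not at hcon'
      apply twg_not_irr_of_eig hV ρ G' (b.ne_zero 1) _ hirr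
      intro g hg
      refine ⟨b.repr (ρ g (b 1)) 1, ?_⟩
      have h1 := b.sum_repr (ρ g (b 1))
      rw [Fin.sum_univ_two] at h1
      have h3 := hcon' g hg
      rw [hentry] at h3
      rw [h3, zero_smul, zero_add] at h1
      exact h1.symm
    apply twg_eq_zero_of_orthogonal_diag (G'.map (twgMatHom ρ b))
      (Subgroup.mem_map_of_mem _ hs₀) _ _ _ (Subgroup.mem_map_of_mem _ hg) hg10
      (Subgroup.mem_map_of_mem _ hg') hg'01
    · rintro _ ⟨s', hs', rfl⟩
      obtain ⟨α', β', hαβ'⟩ := hsplit s' hs'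
      by_cases hne' : α' = β'
      · subst hne'
        obtain ⟨a, ha⟩ := hI s' hs' ⟨α', hαβ'⟩
        rw [twg_trace_toMatrix_mul, ha, mul_smul_comm, mul_one, map_smul, htr, smul_zero]
      · rw [twg_trace_toMatrix_mul]
        exact hcon s' hs' α' β' hne' hαβ'
    · rw [hentry, hb1, map_smul, Module.Basis.repr_self]
      simp
    · rw [hentry, hb0, map_smul, Module.Basis.repr_self]
      simp
    · rw [hentry, hentry, hb0, hb1, map_smul, map_smul, Module.Basis.repr_self,
        Module.Basis.repr_self]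
      simpa using hne

end Fermat.Agent.TW
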