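/-
P10 / S56 (Taylor–Wiles primes), package G8 (group theory): the main statements.

* `twg_cocycle_eq_coboundary` : **Theorem A** (`H¹(Gal(F_n/ℚ), ad⁰ρ̄(1)) = 0`, elementary form);
* `twg_selection` : the selection of a Taylor–Wiles element `σ`;
* `twg_selection_pow` : stability of the selection under `σ ↦ σ^a`.
-/
import Mathlib
import Fermat.Agent.Lib.TW.Group.Regular

set_option autoImplicit false
set_option linter.unusedSimpArgs false

open Polynomial

noncomputable section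

namespace Fermat.Agent.TW

variable {k V G : Type*} [Field k] [AddCommGroup V] [Module k V] [Group G]

theorem twg_rho_eq_one_inv (ρ : Representation k G V) {n : G} (hn : ρ n = 1) : ρ n⁻¹ = 1 := by
  have : ρ n⁻¹ * ρ n = 1 := by rw [← map_mul, inv_mul_cancel, map_one]
  rwa [hn, mul_one] at this

theorem twgAdDetRep_eq_one (ρ : Representation k G V) {n : G} (hn : ρ n = 1) :
    twgAdDetRep ρ n = 1 := by
  ext A : 1
  rw [twgAdDetRep_apply, hn, twg_rho_eq_one_inv ρ hn, map_one, one_smul, one_mul, mul_one,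
    Module.End.one_apply]

/-- a cocycle vanishing on `ker ρ ∩ ker χ` (`χ` a character with abelian target) vanishes on
`ker ρ`, if `(ad⁰ ⊗ det)^G = 0` -/
theorem twg_cocycle_vanish_ker [Module.Finite k V] (h2 : (2 : k) ≠ 0)
    (hV : Module.finrank k V = 2) (ρ : Representation k G V) (hsplit : TwgSplit ρ ⊤)
    (hirr : TwgIrr ρ ⊤) (hirr2 : ∀ G' : Subgroup G, G'.index = 2 → TwgIrr ρ G')
    {A : Type*} [CommGroup A] (χ : G →* A) {c : G → Module.End k V}
    (hc : TwgIsCocycle (twgAdDetRep ρ) c) (htr : ∀ g, LinearMap.trace k V (c g) = 0)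
    (hvan : ∀ σ, ρ σ = 1 → χ σ = 1 → c σ = 0) : ∀ n, ρ n = 1 → c n = 0 := by
  intro n hn
  apply twg_adDet_invariants_eq_zero h2 hV ρ hsplit hirr hirr2 (c n) (htr n)
  intro g
  set m := g⁻¹ * n⁻¹ * g * n with hm
  have hρm : ρ m = 1 := by
    rw [hm, map_mul, map_mul, map_mul, hn, twg_rho_eq_one_inv ρ hn, mul_one, mul_one, ← map_mul,
      inv_mul_cancel, map_one]
  have hχm : χ m = 1 := by
    rw [hm, map_mul, map_mul, map_mul, map_inv, map_inv]
    rw [mul_comm (χ g)⁻¹, mul_assoc, mul_assoc, inv_mul_cancel_left, inv_mul_cancel]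
  have hcm : c m = 0 := hvan m hρm hχm
  have hgn : g * n = n * g * m := by rw [hm]; group
  have e1 := hc g n
  have e2 := hc (n * g) m
  have e3 := hc n g
  rw [hcm, map_zero, add_zero, ← hgn, e1, e3, twgAdDetRep_eq_one ρ hn,
    Module.End.one_apply] at e2
  have := add_left_cancel (a := c g) (by rw [e2, add_comm] : c g + twgAdDetRep ρ g (c n) = c g + c n)
  exact this

theorem twgAdDetRep_one (ρ : Representation k G V) (g : G) :
    twgAdDetRep ρ g (1 : Module.End k V) = LinearMap.det (ρ g) • (1 : Module.End k V) := by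
  rw [twgAdDetRep_apply, mul_one, ← map_mul, mul_inv_cancel, map_one]

/-- **Theorem A.**  Let `ρ` be a representation of a group `G` on a `2`-dimensional vector space
over a finite field `k` of odd characteristic `p`, such that all `ρ(g)` have their eigenvalues in
`k`, and `ρ` is irreducible on `G` and on all its subgroups of index `2`.  Let `χ : G → A` be a
character with abelian target, and assume `p = 3` or `det(ρ g)² ≠ 1` for some `g`.  Then every
trace-zero 1-cocycle `c` with values in `ad ⊗ det`, `c(gh) = c(g) + det ρ(g) · ρ(g) c(h) ρ(g)⁻¹`,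
which vanishes on `ker ρ ∩ ker χ`, is the coboundary of a trace-zero endomorphism. -/
theorem twg_cocycle_eq_coboundary [Finite k] [Module.Finite k V] (p : ℕ) [Fact p.Prime]
    [CharP k p] (hp2 : p ≠ 2) (hV : Module.finrank k V = 2) (ρ : Representation k G V)
    (hsplit : TwgSplit ρ ⊤) (hirr : TwgIrr ρ ⊤)
    (hirr2 : ∀ G' : Subgroup G, G'.index = 2 → TwgIrr ρ G')
    (hp3 : p = 3 ∨ ∃ g, LinearMap.det (ρ g) ^ 2 ≠ 1)
    {A : Type*} [CommGroup A] (χ : G →* A) {c : G → Module.End k V}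
    (hc : TwgIsCocycle (twgAdDetRep ρ) c) (htr : ∀ g, LinearMap.trace k V (c g) = 0)
    (hvan : ∀ σ, ρ σ = 1 → χ σ = 1 → c σ = 0) :
    ∃ x : Module.End k V, LinearMap.trace k V x = 0 ∧ ∀ g, c g = twgAdDetRep ρ g x - x := by
  have h2 : (2 : k) ≠ 0 := by
    intro h
    have h2' : ((2 : ℕ) : k) = 0 := by exact_mod_cast h
    rw [CharP.cast_eq_zero_iff k p] at h2'
    exact hp2 ((Nat.prime_dvd_prime_iff_eq (Fact.out : p.Prime) Nat.prime_two).mp h2')
  have hker := twg_cocycle_vanish_ker h2 hV ρ hsplit hirr hirr2 χ hc htr hvan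
  obtain ⟨x, hx⟩ := twg_cocycle_eq_coboundary_aux p hp2 hV ρ hirr hsplit hp3 hc hker htr
  set t := LinearMap.trace k V x with ht
  have htr1 : LinearMap.trace k V (1 : Module.End k V) = 2 := by
    rw [LinearMap.trace_one, hV]; norm_num
  have hkey : ∀ g, (LinearMap.det (ρ g) - 1) * t = 0 := by
    intro g
    have h1 := htr g
    rw [hx g, map_sub, twg_trace_twgAdDetRep] at h1
    linear_combination h1
  refine ⟨x - (t / 2) • (1 : Module.End k V), ?_, fun g => ?_⟩
  · rw [map_sub, map_smul, htr1, smul_eq_mul]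
    field_simp
    rw [ht]
    ring
  · rw [hx g, map_sub, map_smul, twgAdDetRep_one, smul_smul]
    have h3 : (t / 2 * LinearMap.det (ρ g)) • (1 : Module.End k V) =
        (t / 2) • (1 : Module.End k V) := by
      congr 1
      linear_combination (1 / 2 : k) * hkey g
    rw [h3]
    abel

/-- the quotient by the kernel of a character with cyclic target is cyclic (elementary form) -/
theorem twg_exists_generator_mod_ker {A : Type*} [CommGroup A] [IsCyclic A] (χ : G →* A) :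
    ∃ g₀ : G, ∀ g : G, ∃ m : ℤ, g * g₀ ^ m ∈ χ.ker := by
  obtain ⟨⟨y, g₀, rfl⟩, hy⟩ := IsCyclic.exists_generator (α := χ.range)
  refine ⟨g₀, fun g => ?_⟩
  obtain ⟨j, hj⟩ := Subgroup.mem_zpowers_iff.mp (hy ⟨χ g, g, rfl⟩)
  have hj' : χ g₀ ^ j = χ g := by
    have := congrArg Subtype.val hj
    simpa using this
  refine ⟨-j, ?_⟩
  rw [MonoidHom.mem_ker, map_mul, map_zpow, zpow_neg, hj', mul_inv_cancel]

/-- **Selection of a Taylor–Wiles element.**  In the situation of Theorem A, let moreover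
`G / ker χ` be cyclic and `det ρ = 1` on `ker χ`.  If the trace-zero cocycle `c` is NOT a
coboundary, there is `σ ∈ ker χ` such that `ρ(σ)` has distinct eigenvalues `α ≠ β` in `k` and
`tr(c(σ) ρ(σ)) ≠ 0` (so that `c(σ) ∉ (σ - 1)(ad⁰ ⊗ det)`, see `twg_not_mem_range_of_trace`). -/
theorem twg_selection [Finite k] [Module.Finite k V] (p : ℕ) [Fact p.Prime]
    [CharP k p] (hp2 : p ≠ 2) (hV : Module.finrank k V = 2) (ρ : Representation k G V)
    (hsplit : TwgSplit ρ ⊤) (hirr : TwgIrr ρ ⊤)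
    (hirr2 : ∀ G' : Subgroup G, G'.index = 2 → TwgIrr ρ G')
    (hp3 : p = 3 ∨ ∃ g, LinearMap.det (ρ g) ^ 2 ≠ 1)
    {A : Type*} [CommGroup A] (χ : G →* A)
    (hcyc : ∃ g₀ : G, ∀ g : G, ∃ m : ℤ, g * g₀ ^ m ∈ χ.ker)
    (hdet : ∀ g, χ g = 1 → LinearMap.det (ρ g) = 1)
    {c : G → Module.End k V}
    (hc : TwgIsCocycle (twgAdDetRep ρ) c) (htr : ∀ g, LinearMap.trace k V (c g) = 0)
    (hnc : ¬ ∃ x : Module.End k V, LinearMap.trace k V x = 0 ∧
      ∀ g, c g = twgAdDetRep ρ g x - x) :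
    ∃ σ : G, χ σ = 1 ∧ ∃ α β : k, α ≠ β ∧
      LinearMap.charpoly (ρ σ) = (X - C α) * (X - C β) ∧
      LinearMap.trace k V (c σ * ρ σ) ≠ 0 := by
  have h2 : (2 : k) ≠ 0 := by
    intro h
    have h2' : ((2 : ℕ) : k) = 0 := by exact_mod_cast h
    rw [CharP.cast_eq_zero_iff k p] at h2'
    exact hp2 ((Nat.prime_dvd_prime_iff_eq (Fact.out : p.Prime) Nat.prime_two).mp h2')
  obtain ⟨τ₀, hρτ, hχτ, hcτ⟩ : ∃ τ₀, ρ τ₀ = 1 ∧ χ τ₀ = 1 ∧ c τ₀ ≠ 0 := by
    by_contra hcon
    push Not at hcon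
    exact hnc (twg_cocycle_eq_coboundary p hp2 hV ρ hsplit hirr hirr2 hp3 χ hc htr hcon)
  have hirr' : TwgIrr ρ χ.ker :=
    twg_irr_of_normal_cyclic hV ρ χ.ker hcyc hsplit hirr (fun S _ hS => hirr2 S hS)
  obtain ⟨s, hs, α, β, hαβ, hch, hne⟩ := twg_exists_regular_trace_ne_zero h2 hV ρ χ.ker hirr'
    (fun g _ => hsplit g (Subgroup.mem_top _)) (fun g hg => hdet g (MonoidHom.mem_ker.mp hg))
    (c τ₀) (htr τ₀) hcτ
  have hχs : χ s = 1 := MonoidHom.mem_ker.mp hs
  by_cases h : LinearMap.trace k V (c s * ρ s) = 0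
  · refine ⟨τ₀ * s, by rw [map_mul, hχτ, hχs, mul_one], α, β, hαβ, ?_, ?_⟩
    · rw [map_mul, hρτ, one_mul, hch]
    · have hρ : ρ (τ₀ * s) = ρ s := by rw [map_mul, hρτ, one_mul]
      rw [hc τ₀ s, twgAdDetRep_eq_one ρ hρτ, Module.End.one_apply, hρ, add_mul, map_add, h,
        add_zero]
      exact hne
  · exact ⟨s, hχs, α, β, hαβ, hch, h⟩

/-- `tr(c ρ(σ)) ≠ 0` implies `c ∉ (σ - 1)(ad ⊗ det)` when `det ρ(σ) = 1` -/
theorem twg_not_mem_range_of_trace (ρ : Representation k G V) (σ : G)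
    (hdet : LinearMap.det (ρ σ) = 1) (c : Module.End k V)
    (h : LinearMap.trace k V (c * ρ σ) ≠ 0) :
    ¬ ∃ x : Module.End k V, c = twgAdDetRep ρ σ x - x := by
  rintro ⟨x, rfl⟩
  apply h
  rw [twgAdDetRep_apply, hdet, one_smul, sub_mul, map_sub, mul_assoc, ← map_mul, inv_mul_cancel,
    map_one, mul_one, LinearMap.trace_mul_comm, sub_self]

end Fermat.Agent.TW
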