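/-
P10 / S56 (Taylor–Wiles primes), package G8 (group theory): stability of the selection of a
Taylor–Wiles element under `σ ↦ σ^a` (needed because the Frobenius density theorem produces a
Frobenius element which is a generator of the cyclic group generated by the image of `σ` in a
finite quotient, not `σ` itself).
-/
import Mathlib
import Fermat.Agent.Lib.TW.Group.Main

set_option autoImplicit false
set_option linter.unusedSimpArgs false

open Polynomial

noncomputable section

namespace Fermat.Agent.TW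

variable {k V G : Type*} [Field k] [AddCommGroup V] [Module k V] [Group G]

/-- powers of an endomorphism killed by `(X - α)(X - β)`, `α ≠ β` -/
theorem twg_pow_eq (M : Module.End k V) (α β : k) (hαβ : α ≠ β)
    (h : (M - α • (1 : Module.End k V)) * (M - β • (1 : Module.End k V)) = 0) (a : ℕ) :
    M ^ a = ((α ^ a - β ^ a) / (α - β)) • M +
      ((α * β ^ a - β * α ^ a) / (α - β)) • (1 : Module.End k V) := by
  have hsub : α - β ≠ 0 := sub_ne_zero.mpr hαβ
  have hM2 : M * M = (α + β) • M - (α * β) • (1 : Module.End k V) := by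
    have h1 : (M - α • (1 : Module.End k V)) * (M - β • (1 : Module.End k V)) =
        M * M - (α + β) • M + (α * β) • (1 : Module.End k V) := by
      simp only [sub_mul, mul_sub, smul_mul_assoc, mul_smul_comm, one_mul, mul_one, smul_sub,
        smul_smul, add_smul]
      rw [mul_comm β α]
      abel
    rw [h1] at h
    rw [← sub_eq_zero, ← h]
    abel
  induction a with
  | zero =>
    rw [pow_zero, pow_zero, pow_zero, sub_self, zero_div, zero_smul, zero_add, mul_one, mul_one,
      div_self hsub, one_smul]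
  | succ a ih =>
    rw [pow_succ, ih, add_mul, smul_mul_assoc, smul_mul_assoc, one_mul, hM2, smul_sub, smul_smul,
      smul_smul]
    match_scalars <;> field_simp <;> ring

/-- the characteristic polynomial of an endomorphism of a `2`-dimensional space -/
theorem twg_charpoly_eq [Module.Finite k V] (hV : Module.finrank k V = 2) (N : Module.End k V) :
    N.charpoly = X ^ 2 - C (LinearMap.trace k V N) * X + C (LinearMap.det N) := by
  let b : Module.Basis (Fin 2) k V := Module.finBasisOfFinrankEq k V hV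
  rw [← LinearMap.charpoly_toMatrix N b, Matrix.charpoly_fin_two,
    ← LinearMap.trace_eq_matrix_trace k b, LinearMap.det_toMatrix]

/-- the trace pairing of a cocycle along the powers of `σ` (`det ρ(σ) = 1`) -/
theorem twg_trace_cocycle_pow (ρ : Representation k G V) {c : G → Module.End k V}
    (hc : TwgIsCocycle (twgAdDetRep ρ) c) (σ : G) (hdet : LinearMap.det (ρ σ) = 1) (b a : ℕ) :
    LinearMap.trace k V (c (σ ^ a) * ρ (σ ^ b)) =
      a * LinearMap.trace k V (c σ * ρ (σ ^ b)) := by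
  induction a with
  | zero => rw [pow_zero, hc.map_one, zero_mul, map_zero, Nat.cast_zero, zero_mul]
  | succ a ih =>
    have hdeta : LinearMap.det (ρ (σ ^ a)) = 1 := by rw [map_pow, map_pow, hdet, one_pow]
    have hcomm : ρ (σ ^ a)⁻¹ * ρ (σ ^ b) * ρ (σ ^ a) = ρ (σ ^ b) := by
      rw [← map_mul, ← map_mul]
      congr 1
      rw [mul_assoc, pow_mul_comm, inv_mul_cancel_left]
    rw [pow_succ, hc (σ ^ a) σ, add_mul, map_add, ih, twgAdDetRep_apply, hdeta, one_smul]
    have h1 : LinearMap.trace k V (ρ (σ ^ a) * c σ * ρ (σ ^ a)⁻¹ * ρ (σ ^ b)) =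
        LinearMap.trace k V (c σ * ρ (σ ^ b)) := by
      rw [mul_assoc, mul_assoc, LinearMap.trace_mul_comm, mul_assoc, mul_assoc, ← mul_assoc (ρ (σ ^ a)⁻¹),
        hcomm]
    rw [h1]
    push_cast
    ring

/-- **Stability of the selection under powers.**  If `σ` is a Taylor–Wiles element for the
cocycle `c` (`det ρ(σ) = 1`, `ρ(σ)` has eigenvalues `α ≠ β`, `tr(c(σ) ρ(σ)) ≠ 0`), then so is
`σ^a` whenever `a ≠ 0` in `k` and `α^a ≠ β^a`. -/
theorem twg_selection_pow [Module.Finite k V] (hV : Module.finrank k V = 2)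
    (ρ : Representation k G V) {c : G → Module.End k V}
    (hc : TwgIsCocycle (twgAdDetRep ρ) c) (htr : ∀ g, LinearMap.trace k V (c g) = 0) (σ : G)
    (hdet : LinearMap.det (ρ σ) = 1) (α β : k) (hαβ : α ≠ β)
    (hch : LinearMap.charpoly (ρ σ) = (X - C α) * (X - C β))
    (hσ : LinearMap.trace k V (c σ * ρ σ) ≠ 0) (a : ℕ) (ha : (a : k) ≠ 0)
    (hpow : α ^ a ≠ β ^ a) :
    LinearMap.charpoly (ρ (σ ^ a)) = (X - C (α ^ a)) * (X - C (β ^ a)) ∧
      LinearMap.trace k V (c (σ ^ a) * ρ (σ ^ a)) ≠ 0 := by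
  have hsub : α - β ≠ 0 := sub_ne_zero.mpr hαβ
  have hM := twg_aeval_charpoly (ρ σ) α β hch
  have hpowM := twg_pow_eq (ρ σ) α β hαβ hM a
  obtain ⟨htrM, hdetM⟩ := twg_det_of_charpoly hV (ρ σ) α β hch
  have htr1 : LinearMap.trace k V (1 : Module.End k V) = 2 := by
    rw [LinearMap.trace_one, hV]; norm_num
  constructor
  · rw [twg_charpoly_eq hV, map_pow ρ, map_pow LinearMap.det, hdetM]
    have h1 : LinearMap.trace k V (ρ σ ^ a) = α ^ a + β ^ a := by
      rw [hpowM, map_add, map_smul, map_smul, htrM, htr1, smul_eq_mul, smul_eq_mul]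
      field_simp
      ring
    rw [h1]
    simp only [map_add, map_mul, map_pow]
    ring
  · rw [twg_trace_cocycle_pow ρ hc σ hdet a a, map_pow ρ, hpowM, mul_add, mul_smul_comm,
      mul_smul_comm, mul_one, map_add, map_smul, map_smul, htr σ, smul_zero, add_zero,
      smul_eq_mul]
    apply mul_ne_zero ha
    apply mul_ne_zero _ hσ
    exact div_ne_zero (sub_ne_zero.mpr hpow) hsub

/-- **Frobenius form of the selection.**  Let `N` be a subgroup on which `ρ` is trivial and `c`
vanishes, `σ` a Taylor–Wiles element for `c`, `σ^m ∈ N` with `m > 0`, `a` prime to `m`, and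
`φ ≡ σ^a` modulo `N`.  Then `φ` is a Taylor–Wiles element for `c`. -/
theorem twg_selection_frob [Module.Finite k V] (p : ℕ) [Fact p.Prime] [CharP k p]
    (hV : Module.finrank k V = 2) (ρ : Representation k G V) {c : G → Module.End k V}
    (hc : TwgIsCocycle (twgAdDetRep ρ) c) (htr : ∀ g, LinearMap.trace k V (c g) = 0)
    (N : Subgroup G) (hNρ : ∀ n ∈ N, ρ n = 1) (hNc : ∀ n ∈ N, c n = 0)
    (σ : G) (hdet : LinearMap.det (ρ σ) = 1) (α β : k) (hαβ : α ≠ β)
    (hch : LinearMap.charpoly (ρ σ) = (X - C α) * (X - C β))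
    (hσ : LinearMap.trace k V (c σ * ρ σ) ≠ 0)
    (m : ℕ) (hσm : σ ^ m ∈ N) (a : ℕ) (ham : a.Coprime m)
    (φ : G) (hφ : (σ ^ a)⁻¹ * φ ∈ N) :
    ∃ α' β' : k, α' ≠ β' ∧ LinearMap.charpoly (ρ φ) = (X - C α') * (X - C β') ∧
      LinearMap.trace k V (c φ * ρ φ) ≠ 0 := by
  have hp : p.Prime := Fact.out
  obtain ⟨htrM, hdetM⟩ := twg_det_of_charpoly hV (ρ σ) α β hch
  rw [hdet] at hdetM
  have hα0 : α ≠ 0 := left_ne_zero_of_mul_eq_one hdetM.symm
  have hβ0 : β ≠ 0 := right_ne_zero_of_mul_eq_one hdetM.symm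
  have hM := twg_aeval_charpoly (ρ σ) α β hch
  -- `α^m = β^m`
  have hm1 : α ^ m = β ^ m := by
    have h1 : ρ σ ^ m = 1 := by rw [← map_pow]; exact hNρ _ hσm
    have hpowM := twg_pow_eq (ρ σ) α β hαβ hM m
    have hsub : α - β ≠ 0 := sub_ne_zero.mpr hαβ
    have htr1 : LinearMap.trace k V (1 : Module.End k V) = 2 := by
      rw [LinearMap.trace_one, hV]; norm_num
    have e1 : α ^ m + β ^ m = 2 := by
      have := congrArg (LinearMap.trace k V) hpowM
      rw [h1, htr1, map_add, map_smul, map_smul, htrM, htr1, smul_eq_mul, smul_eq_mul] at this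
      rw [this]
      field_simp
      ring
    have e2 : α ^ m * β ^ m = 1 := by rw [← mul_pow, ← hdetM, one_pow]
    have e3 : (α ^ m - β ^ m) ^ 2 = 0 := by linear_combination (α ^ m + β ^ m + 2) * e1 - 4 * e2
    exact sub_eq_zero.mp (pow_eq_zero_iff (two_ne_zero) |>.mp e3)
  -- adjust `a`
  obtain ⟨a', j, ha', hco, hcast⟩ : ∃ a' j : ℕ, a' = a + m * j ∧ a'.Coprime m ∧ (a' : k) ≠ 0 := by
    by_cases hak : (a : k) = 0
    · refine ⟨a + m * 1, 1, rfl, ?_, ?_⟩
      · rw [mul_one, Nat.coprime_add_self_left]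
        exact ham
      · rw [mul_one]
        push_cast
        rw [hak, zero_add]
        intro hmk
        rw [CharP.cast_eq_zero_iff k p] at hak hmk
        have := Nat.dvd_gcd hak hmk
        rw [Nat.Coprime] at ham
        rw [ham] at this
        exact hp.one_lt.ne' (Nat.dvd_one.mp this)
    · exact ⟨a, 0, by rw [mul_zero, add_zero], ham, hak⟩
  have hpow : α ^ a' ≠ β ^ a' := by
    intro h
    have hr1 : (α / β) ^ a' = 1 := by rw [div_pow, h, div_self (pow_ne_zero _ hβ0)]
    have hr2 : (α / β) ^ m = 1 := by rw [div_pow, hm1, div_self (pow_ne_zero _ hβ0)]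
    have h1 := orderOf_dvd_of_pow_eq_one hr1
    have h3 := orderOf_dvd_of_pow_eq_one hr2
    have h4 := Nat.dvd_gcd h1 h3
    rw [Nat.Coprime] at hco
    rw [hco, Nat.dvd_one, orderOf_eq_one_iff] at h4
    exact hαβ ((div_eq_one_iff_eq hβ0).mp h4)
  obtain ⟨hch', hne'⟩ := twg_selection_pow hV ρ hc htr σ hdet α β hαβ hch hσ a' hcast hpow
  -- `φ = σ^a' n'`
  set n' := (σ ^ a')⁻¹ * φ with hn'
  have hn'N : n' ∈ N := by
    have h1 : n' = ((σ ^ m) ^ j)⁻¹ * ((σ ^ a)⁻¹ * φ) := by
      rw [hn', ha', pow_add, pow_mul]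
      group
    rw [h1]
    exact N.mul_mem (N.inv_mem (N.pow_mem hσm j)) hφ
  have hφ' : φ = σ ^ a' * n' := by rw [hn', mul_inv_cancel_left]
  have hρφ : ρ φ = ρ (σ ^ a') := by rw [hφ', map_mul, hNρ n' hn'N, mul_one]
  have hcφ : c φ = c (σ ^ a') := by rw [hφ', hc, hNc n' hn'N, map_zero, add_zero]
  refine ⟨α ^ a', β ^ a', hpow, ?_, ?_⟩
  · rw [hρφ, hch']
  · rw [hρφ, hcφ]
    exact hne'

end Fermat.Agent.TW
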